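import Mathlib
import Fermat.Prelude.Def_ModularForm_HeckeOperator
import Fermat.Agent.Lib.Newform.H803.Cuspidal
import Fermat.Agent.Lib.Newform.H803.Bridge

/-!
# Twisting by a Dirichlet character: the matrix identities (helper564, row S59, leaf E4 TWIST)

`tr x` is the translation matrix `[1, x; 0, 1] ∈ GL₂(ℝ)`.  This file contains the identities in
`GL₂(ℝ)` behind the twist `f ↦ ∑_u ψ̄(u) f ∣ tr (u / q)`:

* `tr_mul_mapGL`      : `tr (u/q) · γ = γ' · tr (d² u / q)` for `γ ∈ SL₂(ℤ)` with `q² ∣ c`,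
                        where `γ'` has lower row `(c, d - (c/q) d² u)`;
* `tr_mul_heckeMatrix`, `tr_mul_heckeDiagMatrix` : commutation with the Hecke matrices;
* `tr_mul_tL_mul_tr`  : `tr (a/q) · [1,0;M,1] · tr (b/q) ∈ SL₂(ℤ)` (used for injectivity).
-/

set_option autoImplicit false

namespace Fermat.Agent.S59.TW.H564

open Matrix Matrix.SpecialLinearGroup CongruenceSubgroup UpperHalfPlane ModularForm
open Fermat.Agent.Lib.Newform.H803
open scoped MatrixGroups ModularForm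

variable {k : ℤ}

theorem mapGL_val_apply (g : SL(2, ℤ)) (i j : Fin 2) :
    ((mapGL ℝ g : GL (Fin 2) ℝ) : Matrix (Fin 2) (Fin 2) ℝ) i j = ((g i j : ℤ) : ℝ) := rfl

/-- The translation matrix `[1, x; 0, 1]`. -/
noncomputable def tr (x : ℝ) : GL (Fin 2) ℝ :=
  ModularForm.upperTriangularGL 1 x 1 (by norm_num)

@[simp] theorem val_tr (x : ℝ) :
    ((tr x : GL (Fin 2) ℝ) : Matrix (Fin 2) (Fin 2) ℝ) = !![1, x; 0, 1] := rfl

theorem tr_add (x y : ℝ) : tr (x + y) = tr x * tr y := by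
  apply Units.ext
  rw [Units.val_mul, val_tr, val_tr, val_tr]
  ext i j
  fin_cases i <;> fin_cases j <;> simp [Matrix.mul_apply, Fin.sum_univ_two]
  ring

theorem tr_zero : tr 0 = 1 := by
  apply Units.ext
  rw [val_tr]
  ext i j
  fin_cases i <;> fin_cases j <;> simp

theorem tr_intCast (n : ℤ) : tr (n : ℝ) = mapGL ℝ (tU n) := by
  apply Units.ext
  ext i j
  rw [mapGL_val_apply, val_tr]
  fin_cases i <;> fin_cases j <;> simp [tU]

theorem det_tr (x : ℝ) : ((tr x).det : ℝ) = 1 := by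
  rw [Matrix.GeneralLinearGroup.val_det_apply, val_tr, Matrix.det_fin_two_of]
  ring

theorem det_tr_pos (x : ℝ) : 0 < ((tr x).det : ℝ) := by
  rw [det_tr]; exact one_pos

theorem σ_tr (x : ℝ) : UpperHalfPlane.σ (tr x) = .refl ℝ ℂ := by
  rw [UpperHalfPlane.σ, if_pos (det_tr_pos x)]

theorem smul_slash_tr (c : ℂ) (f : ℍ → ℂ) (x : ℝ) :
    (c • f) ∣[k] tr x = c • f ∣[k] tr x := by
  rw [ModularForm.smul_slash, σ_tr]
  rfl

theorem smul_slash_heckeMatrix (c : ℂ) (f : ℍ → ℂ) (p j : ℕ) :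
    (c • f) ∣[k] heckeMatrix p j = c • f ∣[k] heckeMatrix p j := by
  rw [ModularForm.smul_slash, σ_heckeMatrix]
  rfl

theorem smul_slash_heckeDiagMatrix (c : ℂ) (f : ℍ → ℂ) (p : ℕ) :
    (c • f) ∣[k] heckeDiagMatrix p = c • f ∣[k] heckeDiagMatrix p := by
  rw [ModularForm.smul_slash, σ_heckeDiagMatrix]
  rfl

theorem slash_tr_add (f : ℍ → ℂ) (x y : ℝ) :
    f ∣[k] tr (x + y) = (f ∣[k] tr x) ∣[k] tr y := by
  rw [tr_add, SlashAction.slash_mul]

theorem slash_tr_intCast (f : ℍ → ℂ) (n : ℤ) : f ∣[k] tr (n : ℝ) = f ∣[k] tU n := by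
  rw [tr_intCast]; rfl

/-- The matrix `γ'` with `tr (u/q) γ = γ' tr (d² u / q)`; here `c = q² c₂`. -/
def conjMat (γ : SL(2, ℤ)) (q c₂ u : ℤ) (hc : γ 1 0 = q ^ 2 * c₂) : SL(2, ℤ) :=
  ⟨!![γ 0 0 + q * c₂ * u,
      γ 0 1 - γ 1 1 * u * γ 0 1 * (q * c₂) - c₂ * γ 1 1 ^ 2 * u ^ 2;
      γ 1 0, γ 1 1 - q * c₂ * γ 1 1 ^ 2 * u], by
    rw [Matrix.det_fin_two_of]
    have hdet := det_eq_one' γ
    rw [hc] at hdet ⊢
    linear_combination (1 - q * c₂ * u * γ 1 1) * hdet⟩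

theorem conjMat_apply_10 (γ : SL(2, ℤ)) (q c₂ u : ℤ) (hc : γ 1 0 = q ^ 2 * c₂) :
    conjMat γ q c₂ u hc 1 0 = γ 1 0 := rfl

theorem conjMat_apply_11 (γ : SL(2, ℤ)) (q c₂ u : ℤ) (hc : γ 1 0 = q ^ 2 * c₂) :
    conjMat γ q c₂ u hc 1 1 = γ 1 1 - q * c₂ * γ 1 1 ^ 2 * u := rfl

/-- `tr (u/q) · γ = γ' · tr (d² u / q)`. -/
theorem tr_mul_mapGL (γ : SL(2, ℤ)) {q : ℤ} (hq : q ≠ 0) (c₂ u : ℤ)
    (hc : γ 1 0 = q ^ 2 * c₂) :
    tr ((u : ℝ) / q) * mapGL ℝ γ =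
      mapGL ℝ (conjMat γ q c₂ u hc) * tr (((γ 1 1 ^ 2 * u : ℤ) : ℝ) / q) := by
  apply Units.ext
  have hq' : (q : ℝ) ≠ 0 := by exact_mod_cast hq
  have hc' : ((γ 1 0 : ℤ) : ℝ) = (q : ℝ) ^ 2 * c₂ := by exact_mod_cast hc
  have hdet : ((γ 0 0 : ℤ) : ℝ) * (γ 1 1 : ℤ) - (γ 0 1 : ℤ) * ((q : ℝ) ^ 2 * c₂) = 1 := by
    have := det_eq_one' γ
    rw [hc] at this
    exact_mod_cast this
  have e00 : conjMat γ q c₂ u hc 0 0 = γ 0 0 + q * c₂ * u := rfl
  have e01 : conjMat γ q c₂ u hc 0 1 =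
      γ 0 1 - γ 1 1 * u * γ 0 1 * (q * c₂) - c₂ * γ 1 1 ^ 2 * u ^ 2 := rfl
  have e10 : conjMat γ q c₂ u hc 1 0 = γ 1 0 := rfl
  have e11 : conjMat γ q c₂ u hc 1 1 = γ 1 1 - q * c₂ * γ 1 1 ^ 2 * u := rfl
  ext i j
  rw [Units.val_mul, Units.val_mul, Matrix.mul_apply, Matrix.mul_apply, Fin.sum_univ_two,
    Fin.sum_univ_two]
  simp only [mapGL_val_apply, val_tr]
  fin_cases i <;> fin_cases j
  · simp [e00, hc']
    field_simp
  · simp [e00, e01]
    field_simp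
    linear_combination (-(γ 1 1 : ℝ) * u) * hdet
  · simp [e10]
  · simp [e10, e11, hc']
    field_simp
    ring

/-- `tr x · [1, j; 0, p] = [1, j; 0, p] · tr (p x)`. -/
theorem tr_mul_heckeMatrix {p : ℕ} (hp : p ≠ 0) (j : ℕ) (x : ℝ) :
    tr x * heckeMatrix p j = heckeMatrix p j * tr (p * x) := by
  apply Units.ext
  rw [Units.val_mul, Units.val_mul, val_tr, val_tr, val_heckeMatrix hp]
  ext i j
  fin_cases i <;> fin_cases j <;> simp [Matrix.mul_apply, Fin.sum_univ_two]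
  ring

/-- `tr (p y) · [p, 0; 0, 1] = [p, 0; 0, 1] · tr y`. -/
theorem tr_mul_heckeDiagMatrix {p : ℕ} (hp : p ≠ 0) (y : ℝ) :
    tr (p * y) * heckeDiagMatrix p = heckeDiagMatrix p * tr y := by
  apply Units.ext
  rw [Units.val_mul, Units.val_mul, val_tr, val_tr, val_heckeDiagMatrix hp]
  ext i j
  fin_cases i <;> fin_cases j <;> simp [Matrix.mul_apply, Fin.sum_univ_two]

/-- The integral matrix `tr (a/q) · [1,0;M,1] · tr (b/q)`, when `q e = a + b + a b M'`,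
`M = M' q`. -/
def sandwich (M' q a b e : ℤ) (he : q * e = a + b + a * b * M') : SL(2, ℤ) :=
  ⟨!![1 + a * M', e; M' * q, 1 + b * M'], by
    rw [Matrix.det_fin_two_of]
    linear_combination (-M') * he⟩

theorem sandwich_apply_10 (M' q a b e : ℤ) (he : q * e = a + b + a * b * M') :
    sandwich M' q a b e he 1 0 = M' * q := rfl

theorem sandwich_apply_11 (M' q a b e : ℤ) (he : q * e = a + b + a * b * M') :
    sandwich M' q a b e he 1 1 = 1 + b * M' := rfl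

theorem tr_mul_tL_mul_tr {M' q : ℤ} (hq : q ≠ 0) (a b e : ℤ)
    (he : q * e = a + b + a * b * M') :
    tr ((a : ℝ) / q) * mapGL ℝ (tL (M' * q)) * tr ((b : ℝ) / q) =
      mapGL ℝ (sandwich M' q a b e he) := by
  apply Units.ext
  have hq' : (q : ℝ) ≠ 0 := by exact_mod_cast hq
  have he' : (q : ℝ) * e = a + b + a * b * M' := by exact_mod_cast he
  have e00 : sandwich M' q a b e he 0 0 = 1 + a * M' := rfl
  have e01 : sandwich M' q a b e he 0 1 = e := rfl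
  have e10 : sandwich M' q a b e he 1 0 = M' * q := rfl
  have e11 : sandwich M' q a b e he 1 1 = 1 + b * M' := rfl
  have t00 : tL (M' * q) 0 0 = 1 := rfl
  have t01 : tL (M' * q) 0 1 = 0 := rfl
  have t10 : tL (M' * q) 1 0 = M' * q := rfl
  have t11 : tL (M' * q) 1 1 = 1 := rfl
  ext i j
  rw [Units.val_mul, Units.val_mul, Matrix.mul_apply, Fin.sum_univ_two, Matrix.mul_apply,
    Matrix.mul_apply, Fin.sum_univ_two, Fin.sum_univ_two]
  simp only [mapGL_val_apply, val_tr]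
  fin_cases i <;> fin_cases j
  · simp [e00, t00, t10]
    field_simp
  · simp [e01, t00, t01, t10, t11]
    field_simp
    linear_combination -he'
  · simp [e10, t00, t10]
  · simp [e11, t00, t01, t10, t11]
    field_simp
    ring

end Fermat.Agent.S59.TW.H564
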