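import Mathlib
import Fermat.Prelude.Def_ModularForm_HeckeOperator
import Fermat.Agent.S59.TW.H564.TwistCore

/-!
# Twisting a form with nebentypus by a Dirichlet character (helper564, row S59, leaf E4 TWIST)

Function level, any weight `k`.  `IsNeb k M χ f` : `f ∣[k] γ = χ(d_γ) • f` for `γ ∈ Γ₀(M)`
(`χ : ℤ → ℂ`, periodic modulo `M`, `χ 1 = 1`: `IsCharMod M χ`).

For `q ∣ M` and a Dirichlet character `ψ` modulo `q`:

    twist k q ψ f  :=  ∑_{u mod q} ψ⁻¹(u) • f ∣[k] tr (u / q).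

* `twist_isNeb`  : `twist k q ψ f` has nebentypus `d ↦ χ(d) ψ(d)²` on `Γ₀(M q)`;
* `isCuspidal_twist` : holomorphy and vanishing at the cusps are preserved;
* `heckeT_twist` : `T_ℓ (twist f) = ψ(ℓ) • twist (U_ℓ f) + ψ(ℓ)⁻¹ • twist (f ∣ diag(ℓ,1))`,
   i.e. `= ψ(ℓ) • twist (U_ℓ f + χ(ℓ) f ∣ diag(ℓ,1))` when `χ(ℓ) ψ(ℓ)² = 1`;
* `twist_injective` : if `q ∥ M`, `ψ ≠ 1` and `χ` is non-trivial on the units `≡ 1 mod M/q`, then
  `twist k q ψ f = 0 → f = 0`.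
-/

set_option autoImplicit false
set_option linter.unusedSectionVars false

namespace Fermat.Agent.S59.TW.H564

open Matrix Matrix.SpecialLinearGroup CongruenceSubgroup UpperHalfPlane ModularForm
open Fermat.Agent.Lib.Newform.H803
open scoped MatrixGroups ModularForm

variable {k : ℤ}

/-- `f` has nebentypus `χ` on `Γ₀(M)`: `f ∣[k] γ = χ(d_γ) • f`. -/
def IsNeb (k : ℤ) (M : ℕ) (χ : ℤ → ℂ) (f : ℍ → ℂ) : Prop :=
  ∀ γ ∈ Gamma0 M, f ∣[k] γ = χ (γ 1 1) • f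

/-- `χ : ℤ → ℂ` is periodic modulo `M` and `χ 1 = 1`. -/
structure IsCharMod (M : ℕ) (χ : ℤ → ℂ) : Prop where
  one : χ 1 = 1
  periodic : ∀ d d' : ℤ, (M : ℤ) ∣ d - d' → χ d = χ d'

/-- `f` is invariant under the integer translations. -/
def IsPer (k : ℤ) (f : ℍ → ℂ) : Prop := ∀ n : ℤ, f ∣[k] tU n = f

theorem IsNeb.isPer {M : ℕ} {χ : ℤ → ℂ} (hχ : IsCharMod M χ) {f : ℍ → ℂ}
    (hf : IsNeb k M χ f) : IsPer k f := by
  intro n
  have hmem : tU n ∈ Gamma0 M := by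
    rw [mem_Gamma0_iff_dvd]
    have : tU n 1 0 = 0 := rfl
    rw [this]
    exact dvd_zero _
  have h11 : tU n 1 1 = 1 := rfl
  rw [hf _ hmem, h11, hχ.one, one_smul]

theorem IsNeb.slInv {M : ℕ} {χ : ℤ → ℂ} {f : ℍ → ℂ} (hf : IsNeb k M χ f)
    (h1 : ∀ γ ∈ Gamma0 M, χ (γ 1 1) = 1) : SlInv k (Gamma0 M) f := by
  intro γ hγ
  rw [hf γ hγ, h1 γ hγ, one_smul]

theorem IsPer.add {f g : ℍ → ℂ} (hf : IsPer k f) (hg : IsPer k g) : IsPer k (f + g) := by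
  intro n
  rw [SlashAction.add_slash, hf n, hg n]

theorem IsPer.smul {f : ℍ → ℂ} (c : ℂ) (hf : IsPer k f) : IsPer k (c • f) := by
  intro n
  rw [ModularForm.SL_smul_slash, hf n]

theorem IsPer.slash_tr_int {f : ℍ → ℂ} (hf : IsPer k f) (n : ℤ) :
    f ∣[k] tr (n : ℝ) = f := by
  rw [Fermat.Agent.S59.TW.H564.slash_tr_intCast, hf n]

section Shift

variable (k) (q : ℕ) [NeZero q]

/-- `f ∣[k] tr (u / q)` for `u : ZMod q`. -/
noncomputable def shift (f : ℍ → ℂ) (u : ZMod q) : ℍ → ℂ :=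
  f ∣[k] tr ((u.val : ℝ) / q)

variable {k q}

theorem shift_zero {f : ℍ → ℂ} : shift k q f 0 = f := by
  rw [shift, ZMod.val_zero, Nat.cast_zero, zero_div, tr_zero, SlashAction.slash_one]

theorem shift_add' (f g : ℍ → ℂ) (u : ZMod q) :
    shift k q (f + g) u = shift k q f u + shift k q g u := by
  rw [shift, shift, shift, SlashAction.add_slash]

theorem shift_smul (c : ℂ) (f : ℍ → ℂ) (u : ZMod q) :
    shift k q (c • f) u = c • shift k q f u := by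
  rw [shift, shift, smul_slash_tr]

/-- For a periodic `f`, `f ∣ tr (n / q)` only depends on `n` modulo `q`. -/
theorem slash_tr_div {f : ℍ → ℂ} (hf : IsPer k f) (n : ℤ) :
    f ∣[k] tr ((n : ℝ) / q) = shift k q f (n : ZMod q) := by
  have hq : (q : ℝ) ≠ 0 := by exact_mod_cast NeZero.ne q
  have h1 : (n : ℝ) / q = ((n / (q : ℤ) : ℤ) : ℝ) + (((n : ZMod q).val : ℕ) : ℝ) / q := by
    have h2 : (((n : ZMod q).val : ℕ) : ℤ) = n % q := ZMod.val_intCast n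
    have h3 := Int.emod_add_mul_ediv n (q : ℤ)
    have h4 : (n : ℝ) = (((n : ZMod q).val : ℕ) : ℝ) + (q : ℝ) * ((n / (q : ℤ) : ℤ) : ℝ) := by
      rw [← h2] at h3
      exact_mod_cast h3.symm
    field_simp
    linear_combination h4
  rw [h1, slash_tr_add, hf.slash_tr_int]
  rfl

theorem shift_shift {f : ℍ → ℂ} (hf : IsPer k f) (u v : ZMod q) :
    (shift k q f u) ∣[k] tr ((v.val : ℝ) / q) = shift k q f (u + v) := by
  have h := slash_tr_div (q := q) hf ((u.val : ℤ) + (v.val : ℤ))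
  rw [shift, ← slash_tr_add]
  have e : ((u.val : ℝ) / q + (v.val : ℝ) / q) = (((u.val : ℤ) + (v.val : ℤ) : ℤ) : ℝ) / q := by
    push_cast
    ring
  rw [e, h]
  congr 1
  push_cast
  rw [ZMod.natCast_zmod_val, ZMod.natCast_zmod_val]

theorem shift_slash_tr_div {f : ℍ → ℂ} (hf : IsPer k f) (u : ZMod q) (n : ℤ) :
    (shift k q f u) ∣[k] tr ((n : ℝ) / q) = shift k q f (u + (n : ZMod q)) := by
  have h := slash_tr_div (q := q) hf ((u.val : ℤ) + n)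
  rw [shift, ← slash_tr_add]
  have e : ((u.val : ℝ) / q + (n : ℝ) / q) = (((u.val : ℤ) + n : ℤ) : ℝ) / q := by
    push_cast
    ring
  rw [e, h]
  congr 1
  push_cast
  rw [ZMod.natCast_zmod_val]

end Shift

section Twist

variable (k) (q : ℕ) [NeZero q]

/-- The twist of `f` by the Dirichlet character `ψ` modulo `q` (up to the Gauss sum):
`∑_{u mod q} ψ⁻¹(u) • f ∣[k] tr (u / q)`. -/
noncomputable def twist (ψ : DirichletCharacter ℂ q) (f : ℍ → ℂ) : ℍ → ℂ :=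
  ∑ u : ZMod q, (ψ u)⁻¹ • shift k q f u

variable {k q}

theorem twist_add (ψ : DirichletCharacter ℂ q) (f g : ℍ → ℂ) :
    twist k q ψ (f + g) = twist k q ψ f + twist k q ψ g := by
  simp only [twist, shift_add', smul_add, Finset.sum_add_distrib]

theorem twist_smul (ψ : DirichletCharacter ℂ q) (c : ℂ) (f : ℍ → ℂ) :
    twist k q ψ (c • f) = c • twist k q ψ f := by
  simp only [twist, shift_smul, Finset.smul_sum, smul_comm c]

theorem twist_zero (ψ : DirichletCharacter ℂ q) : twist k q ψ (0 : ℍ → ℂ) = 0 := by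
  have := twist_smul (k := k) ψ 0 (0 : ℍ → ℂ)
  simpa using this

/-- The twist as a linear map. -/
noncomputable def twistLin (k : ℤ) (q : ℕ) [NeZero q] (ψ : DirichletCharacter ℂ q) :
    (ℍ → ℂ) →ₗ[ℂ] (ℍ → ℂ) where
  toFun := twist k q ψ
  map_add' := twist_add ψ
  map_smul' := twist_smul ψ

@[simp] theorem twistLin_apply (ψ : DirichletCharacter ℂ q) (f : ℍ → ℂ) :
    twistLin k q ψ f = twist k q ψ f := rfl

/-- Reindexing a twisted sum along multiplication by a unit. -/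
theorem sum_inv_smul_mul_unit (ψ : DirichletCharacter ℂ q) {a : ZMod q} (ha : IsUnit a)
    (G : ZMod q → ℍ → ℂ) :
    ∑ u : ZMod q, (ψ u)⁻¹ • G (a * u) = ψ a • ∑ v : ZMod q, (ψ v)⁻¹ • G v := by
  have hψa : ψ a ≠ 0 := (ha.map ψ).ne_zero
  have hbij : Function.Bijective (fun u : ZMod q => a * u) := by
    obtain ⟨w, rfl⟩ := ha
    exact (Units.mulLeft w).bijective
  rw [← hbij.sum_comp (fun v => (ψ v)⁻¹ • G v), Finset.smul_sum]
  refine Finset.sum_congr rfl fun u _ => ?_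
  rw [map_mul, mul_inv, smul_smul, ← mul_assoc, mul_inv_cancel₀ hψa, one_mul]

end Twist

/-! ## The nebentypus of the twist -/

section Neb

theorem isUnit_cast_of_mem_Gamma0 {N q : ℕ} (hq : q ∣ N) {γ : SL(2, ℤ)}
    (hγ : γ ∈ Gamma0 N) : IsUnit ((γ 1 1 : ℤ) : ZMod q) := by
  have hdet := det_eq_one' γ
  have hc : ((γ 1 0 : ℤ) : ZMod q) = 0 := by
    rw [ZMod.intCast_zmod_eq_zero_iff_dvd]
    exact (Int.natCast_dvd_natCast.mpr hq).trans (mem_Gamma0_iff_dvd.mp hγ)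
  have h1 : ((γ 0 0 : ℤ) : ZMod q) * ((γ 1 1 : ℤ) : ZMod q) = 1 := by
    have := congrArg (Int.cast : ℤ → ZMod q) hdet
    push_cast at this
    rw [hc, mul_zero, sub_zero] at this
    exact this
  exact IsUnit.of_mul_eq_one _ (by rwa [mul_comm] at h1)

variable {M q : ℕ} [NeZero q]

theorem shift_slash_of_mem (hqM : q ∣ M) {χ : ℤ → ℂ} (hχ : IsCharMod M χ)
    {f : ℍ → ℂ} (hf : IsNeb k M χ f) {γ : SL(2, ℤ)} (hγ : γ ∈ Gamma0 (M * q)) (u : ZMod q) :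
    (shift k q f u) ∣[k] γ =
      χ (γ 1 1) • shift k q f (((γ 1 1 : ℤ) : ZMod q) ^ 2 * u) := by
  obtain ⟨c₁, hc₁⟩ := mem_Gamma0_iff_dvd.mp hγ
  obtain ⟨m, hm⟩ := hqM
  have hc : γ 1 0 = (q : ℤ) ^ 2 * (m * c₁) := by
    rw [hc₁, hm]; push_cast; ring
  have hq0 : (q : ℤ) ≠ 0 := by exact_mod_cast NeZero.ne q
  have key := tr_mul_mapGL γ hq0 (m * c₁) (u.val : ℤ) hc
  have hcast : ((u.val : ℕ) : ℝ) = (((u.val : ℕ) : ℤ) : ℝ) := by push_cast; rfl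
  have hcast' : (((q : ℕ) : ℤ) : ℝ) = (q : ℝ) := by push_cast; rfl
  rw [hcast'] at key
  rw [shift, sl_slash_mapGL, ← SlashAction.slash_mul, hcast, key, SlashAction.slash_mul,
    ← sl_slash_mapGL]
  have hγ' : conjMat γ q (m * c₁) u.val hc ∈ Gamma0 M := by
    rw [mem_Gamma0_iff_dvd, conjMat_apply_10, hc₁]
    exact ⟨q * c₁, by push_cast; ring⟩
  rw [hf _ hγ', smul_slash_tr, conjMat_apply_11]
  have hχ' : χ (γ 1 1 - q * (m * c₁) * γ 1 1 ^ 2 * u.val) = χ (γ 1 1) := by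
    apply hχ.periodic
    refine ⟨-(c₁ * γ 1 1 ^ 2 * u.val), ?_⟩
    rw [hm]; push_cast; ring
  rw [hχ']
  congr 1
  rw [slash_tr_div (hf.isPer hχ)]
  congr 1
  push_cast
  rw [ZMod.natCast_zmod_val]

/-- **T1.** The twist of a form with nebentypus `χ` on `Γ₀(M)` has nebentypus `χ ψ²` on
`Γ₀(M q)` (`q ∣ M`). -/
theorem twist_isNeb (hqM : q ∣ M) {χ : ℤ → ℂ} (hχ : IsCharMod M χ)
    (ψ : DirichletCharacter ℂ q) {f : ℍ → ℂ} (hf : IsNeb k M χ f) :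
    IsNeb k (M * q) (fun d => χ d * ψ (d : ZMod q) ^ 2) (twist k q ψ f) := by
  intro γ hγ
  have hu := isUnit_cast_of_mem_Gamma0 (q := q) (Dvd.intro_left M rfl) hγ
  rw [twist, SlashAction.sum_slash]
  simp_rw [ModularForm.SL_smul_slash, shift_slash_of_mem hqM hχ hf hγ,
    smul_comm _ (χ (γ 1 1))]
  rw [← Finset.smul_sum, sum_inv_smul_mul_unit ψ (hu.pow 2) (shift k q f), map_pow, smul_smul]

theorem isCharMod_twist {χ : ℤ → ℂ} (hχ : IsCharMod M χ)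
    (ψ : DirichletCharacter ℂ q) :
    IsCharMod (M * q) (fun d => χ d * ψ (d : ZMod q) ^ 2) := by
  refine ⟨by simp [hχ.one], fun d d' h => ?_⟩
  have h1 : (M : ℤ) ∣ d - d' := (Dvd.intro _ (by push_cast; rfl)).trans h
  have h2 : ((d : ℤ) : ZMod q) = d' := by
    rw [ZMod.intCast_eq_intCast_iff_dvd_sub]
    have : ((q : ℕ) : ℤ) ∣ d - d' := (Dvd.intro_left _ (by push_cast; rfl)).trans h
    simpa using (dvd_neg.mpr this)
  simp only [hχ.periodic d d' h1, h2]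

end Neb

/-! ## Holomorphy and cusps -/

section Cusp

variable {q : ℕ} [NeZero q]

theorem tr_ratCast (x : ℚ) :
    tr (x : ℝ) = (upperTriQ 1 x 1 (by norm_num)).map (Rat.castHom ℝ) := by
  apply Units.ext
  rw [val_tr]
  ext i j
  fin_cases i <;> fin_cases j <;> simp [upperTriQ]

theorem isCuspidal_slash_tr_rat {F : ℍ → ℂ} (hF : IsCuspidal k F) (x : ℚ) :
    IsCuspidal k (F ∣[k] tr (x : ℝ)) := by
  rw [tr_ratCast]
  exact hF.slash_rat _

theorem isCuspidal_shift {F : ℍ → ℂ} (hF : IsCuspidal k F) (u : ZMod q) :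
    IsCuspidal k (shift k q F u) := by
  have e : ((u.val : ℝ) / q) = (((u.val : ℚ) / q : ℚ) : ℝ) := by push_cast; rfl
  rw [shift, e]
  exact isCuspidal_slash_tr_rat hF _

/-- **T2.** The twist preserves holomorphy and the vanishing at all cusps. -/
theorem isCuspidal_twist (ψ : DirichletCharacter ℂ q) {F : ℍ → ℂ} (hF : IsCuspidal k F) :
    IsCuspidal k (twist k q ψ F) := by
  rw [← mem_cuspSub, twist]
  exact Submodule.sum_mem _ fun u _ => Submodule.smul_mem _ _ (isCuspidal_shift hF u)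

/-- The twist as a cusp form on `Γ₀(M q)`, when the twisted nebentypus is trivial. -/
noncomputable def twistCuspForm {M : ℕ} (hqM : q ∣ M) {χ : ℤ → ℂ} (hχ : IsCharMod M χ)
    (ψ : DirichletCharacter ℂ q) (f : ℍ → ℂ) (hf : IsNeb k M χ f) (hc : IsCuspidal k f)
    (h1 : ∀ γ ∈ Gamma0 (M * q), χ (γ 1 1) * ψ ((γ 1 1 : ℤ) : ZMod q) ^ 2 = 1) :
    CuspForm (Gamma0 (M * q)) k :=
  cuspFormOfIsCuspidal (Gamma0 (M * q)) (twist k q ψ f) (isCuspidal_twist ψ hc)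
    ((twist_isNeb hqM hχ ψ hf).slInv h1)

@[simp] theorem coe_twistCuspForm {M : ℕ} (hqM : q ∣ M) {χ : ℤ → ℂ} (hχ : IsCharMod M χ)
    (ψ : DirichletCharacter ℂ q) (f : ℍ → ℂ) (hf : IsNeb k M χ f) (hc : IsCuspidal k f)
    (h1 : ∀ γ ∈ Gamma0 (M * q), χ (γ 1 1) * ψ ((γ 1 1 : ℤ) : ZMod q) ^ 2 = 1) :
    ((twistCuspForm hqM hχ ψ f hf hc h1 : CuspForm (Gamma0 (M * q)) k) : ℍ → ℂ) =
      twist k q ψ f := rfl

end Cusp

/-! ## Hecke operators -/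

section Hecke

variable {q : ℕ} [NeZero q]

theorem heckeMatrix_mul_tr_one {ℓ : ℕ} (hℓ : ℓ ≠ 0) (j : ℕ) :
    heckeMatrix ℓ j * tr 1 = heckeMatrix ℓ (j + 1) := by
  apply Units.ext
  rw [Units.val_mul, val_tr, val_heckeMatrix hℓ, val_heckeMatrix hℓ]
  ext i j
  fin_cases i <;> fin_cases j <;> simp [Matrix.mul_apply, Fin.sum_univ_two]
  ring

theorem heckeMatrix_self {ℓ : ℕ} (hℓ : ℓ ≠ 0) :
    heckeMatrix ℓ ℓ = tr 1 * heckeMatrix ℓ 0 := by
  apply Units.ext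
  rw [Units.val_mul, val_tr, val_heckeMatrix hℓ, val_heckeMatrix hℓ]
  ext i j
  fin_cases i <;> fin_cases j <;> simp [Matrix.mul_apply, Fin.sum_univ_two]

theorem tr_one : tr 1 = mapGL ℝ (tU 1) := by
  have := tr_intCast 1
  simpa using this

/-- `U_ℓ f` is periodic if `f` is. -/
theorem isPer_heckeU {f : ℍ → ℂ} (hf : IsPer k f) (ℓ : ℕ) : IsPer k (heckeU k ℓ f) := by
  rcases eq_or_ne ℓ 0 with rfl | hℓ
  · intro n
    rw [heckeU_zero_left, SlashAction.zero_slash]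
  have h1 : (heckeU k ℓ f) ∣[k] tU 1 = heckeU k ℓ f := by
    rw [heckeU_def, sl_slash_mapGL, ← tr_one, SlashAction.sum_slash]
    have key : ∀ j : ℕ, (f ∣[k] heckeMatrix ℓ j) ∣[k] tr 1 = f ∣[k] heckeMatrix ℓ (j + 1) := by
      intro j
      rw [← SlashAction.slash_mul, heckeMatrix_mul_tr_one hℓ]
    simp only [key]
    have e1 := Finset.sum_range_succ' (fun j : ℕ => f ∣[k] heckeMatrix ℓ j) ℓ
    have e2 := Finset.sum_range_succ (fun j : ℕ => f ∣[k] heckeMatrix ℓ j) ℓ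
    have e3 : f ∣[k] heckeMatrix ℓ ℓ = f ∣[k] heckeMatrix ℓ 0 := by
      rw [heckeMatrix_self hℓ, SlashAction.slash_mul, tr_one, ← sl_slash_mapGL, hf 1]
    rw [e3] at e2
    rw [e2] at e1
    exact (add_right_cancel e1).symm
  intro n
  have := slash_tU_mul h1 n
  rwa [mul_one] at this

theorem shift_slash_heckeMatrix {ℓ : ℕ} (hℓ : ℓ ≠ 0) (j : ℕ) (f : ℍ → ℂ) (u : ZMod q) :
    (shift k q f u) ∣[k] heckeMatrix ℓ j =
      (f ∣[k] heckeMatrix ℓ j) ∣[k] tr ((((ℓ : ℤ) * (u.val : ℤ) : ℤ) : ℝ) / q) := by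
  rw [shift, ← SlashAction.slash_mul, tr_mul_heckeMatrix hℓ, SlashAction.slash_mul]
  congr 2
  push_cast
  ring

/-- `U_ℓ (twist f) = ψ(ℓ) • twist (U_ℓ f)`. -/
theorem heckeU_twist {ℓ : ℕ} (hℓ : ℓ ≠ 0) (hℓq : IsUnit (ℓ : ZMod q))
    (ψ : DirichletCharacter ℂ q) {f : ℍ → ℂ} (hf : IsPer k f) :
    heckeU k ℓ (twist k q ψ f) = ψ (ℓ : ZMod q) • twist k q ψ (heckeU k ℓ f) := by
  have hU := isPer_heckeU hf ℓ
  have step : ∀ u : ZMod q, ∑ j ∈ Finset.range ℓ, (shift k q f u) ∣[k] heckeMatrix ℓ j =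
      shift k q (heckeU k ℓ f) ((ℓ : ZMod q) * u) := by
    intro u
    simp only [shift_slash_heckeMatrix hℓ]
    rw [← SlashAction.sum_slash, ← heckeU_def, slash_tr_div hU]
    congr 1
    push_cast
    rw [ZMod.natCast_zmod_val]
  rw [heckeU_def, twist]
  simp only [SlashAction.sum_slash, smul_slash_heckeMatrix]
  rw [Finset.sum_comm]
  simp only [← Finset.smul_sum, step]
  exact sum_inv_smul_mul_unit ψ hℓq (shift k q (heckeU k ℓ f))

theorem shift_slash_heckeDiagMatrix {ℓ : ℕ} (hℓ : ℓ ≠ 0) {a : ZMod q}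
    (ha : a * (ℓ : ZMod q) = 1) {f : ℍ → ℂ} (hf : IsPer k f) (u : ZMod q) :
    (shift k q f u) ∣[k] heckeDiagMatrix ℓ = shift k q (f ∣[k] heckeDiagMatrix ℓ) (a * u) := by
  have e1 : shift k q f u = f ∣[k] tr ((ℓ : ℝ) * (((a * u).val : ℝ) / q)) := by
    have h := slash_tr_div (q := q) hf ((ℓ : ℤ) * ((a * u).val : ℤ))
    have e : ((((ℓ : ℤ) * ((a * u).val : ℤ) : ℤ) : ℝ) / q) = (ℓ : ℝ) * (((a * u).val : ℝ) / q) := by
      push_cast
      ring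
    rw [e] at h
    rw [h]
    congr 1
    push_cast
    rw [ZMod.natCast_zmod_val, ← mul_assoc, mul_comm (ℓ : ZMod q), ha, one_mul]
  rw [e1, ← SlashAction.slash_mul, tr_mul_heckeDiagMatrix hℓ, SlashAction.slash_mul]
  rfl

/-- `(twist f) ∣ diag(ℓ, 1) = ψ(ℓ)⁻¹ • twist (f ∣ diag(ℓ, 1))`. -/
theorem twist_slash_heckeDiagMatrix {ℓ : ℕ} (hℓ : ℓ ≠ 0) (hℓq : IsUnit (ℓ : ZMod q))
    (ψ : DirichletCharacter ℂ q) {f : ℍ → ℂ} (hf : IsPer k f) :
    (twist k q ψ f) ∣[k] heckeDiagMatrix ℓ =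
      (ψ (ℓ : ZMod q))⁻¹ • twist k q ψ (f ∣[k] heckeDiagMatrix ℓ) := by
  obtain ⟨w, hw⟩ := hℓq
  have ha : ((w⁻¹ : (ZMod q)ˣ) : ZMod q) * (ℓ : ZMod q) = 1 := by
    rw [← hw, ← Units.val_mul, inv_mul_cancel, Units.val_one]
  have hψ : ψ ((w⁻¹ : (ZMod q)ˣ) : ZMod q) = (ψ (ℓ : ZMod q))⁻¹ := by
    have h1 : ψ ((w⁻¹ : (ZMod q)ˣ) : ZMod q) * ψ (ℓ : ZMod q) = 1 := by
      rw [← map_mul, ha, map_one]
    exact eq_inv_of_mul_eq_one_left h1
  rw [twist]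
  simp only [SlashAction.sum_slash, smul_slash_heckeDiagMatrix,
    shift_slash_heckeDiagMatrix hℓ ha hf]
  rw [sum_inv_smul_mul_unit ψ (w⁻¹).isUnit (shift k q (f ∣[k] heckeDiagMatrix ℓ)), hψ]
  rfl

/-- **T3.** Hecke operators and the twist. -/
theorem heckeT_twist {ℓ : ℕ} (hℓ : ℓ ≠ 0) (hℓq : IsUnit (ℓ : ZMod q))
    (ψ : DirichletCharacter ℂ q) {f : ℍ → ℂ} (hf : IsPer k f) :
    heckeT k ℓ (twist k q ψ f) =
      ψ (ℓ : ZMod q) • twist k q ψ (heckeU k ℓ f) +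
        (ψ (ℓ : ZMod q))⁻¹ • twist k q ψ (f ∣[k] heckeDiagMatrix ℓ) := by
  rw [heckeT_eq_heckeU_add, heckeU_twist hℓ hℓq ψ hf, twist_slash_heckeDiagMatrix hℓ hℓq ψ hf]

/-- **T3'.** If `c ψ(ℓ)² = 1` (`c = χ(ℓ)`, the value of the nebentypus at `ℓ`), then
`T_ℓ (twist f) = ψ(ℓ) • twist (U_ℓ f + c • f ∣ diag(ℓ, 1))`: the twist intertwines the
Hecke operator with nebentypus with `ψ(ℓ)`-times the Hecke operator of trivial character. -/
theorem heckeT_twist' {ℓ : ℕ} (hℓ : ℓ ≠ 0) (hℓq : IsUnit (ℓ : ZMod q))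
    (ψ : DirichletCharacter ℂ q) {f : ℍ → ℂ} (hf : IsPer k f) {c : ℂ}
    (hc : c * ψ (ℓ : ZMod q) ^ 2 = 1) :
    heckeT k ℓ (twist k q ψ f) =
      ψ (ℓ : ZMod q) • twist k q ψ (heckeU k ℓ f + c • f ∣[k] heckeDiagMatrix ℓ) := by
  have hψ : ψ (ℓ : ZMod q) ≠ 0 := (hℓq.map ψ).ne_zero
  have hc' : (ψ (ℓ : ZMod q))⁻¹ = ψ (ℓ : ZMod q) * c := by
    field_simp
    linear_combination -hc
  rw [heckeT_twist hℓ hℓq ψ hf, twist_add, twist_smul, smul_add, smul_smul, hc']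

end Hecke

end Fermat.Agent.S59.TW.H564
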