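import Mathlib
import Fermat.Prelude.Def_ModularForm_HeckeOperator
import Fermat.Agent.S59.TW.H564.Twist

/-!
# Injectivity of the twist (helper564, row S59, leaf E4 TWIST)

`twist_injective`: `q` prime, `q ∤ M'`, `f` with nebentypus `χ` on `Γ₀(M' q)`, `χ` non-trivial on
the units `≡ 1 mod M'`, `ψ ≠ 1` a Dirichlet character modulo `q`.  Then `twist k q ψ f = 0`
implies `f = 0`.

Proof.  (1) `twist f = 0` forces `f ∣ tr (1/q) = f` (finite Fourier analysis, done with the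
elementary character sums `K(w) = ∑_s ψ(s) ψ(s+w)⁻¹ = q δ_{w,0} - 1`).
(2) `tr (a/q) · [1,0;M,1] · tr (b/q) ∈ Γ₀(M)` has lower right entry `1 + b M'`, which is an
arbitrary unit modulo `q`; so `χ(d₀) f = f`.
-/

set_option autoImplicit false
set_option linter.unusedSectionVars false

namespace Fermat.Agent.S59.TW.H564

open Matrix Matrix.SpecialLinearGroup CongruenceSubgroup UpperHalfPlane ModularForm
open Fermat.Agent.Lib.Newform.H803
open scoped MatrixGroups ModularForm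

variable {k : ℤ}

/-! ## Character sums over `𝔽_q` -/

section CharSum

variable {q : ℕ} [Fact q.Prime]

/-- `K(w) = ∑_s ψ(s) ψ(s + w)⁻¹`. -/
noncomputable def kerSum (ψ : DirichletCharacter ℂ q) (w : ZMod q) : ℂ :=
  ∑ s : ZMod q, ψ s * (ψ (s + w))⁻¹

theorem kerSum_zero (ψ : DirichletCharacter ℂ q) : kerSum ψ 0 = (q : ℂ) - 1 := by
  have h : ∀ s : ZMod q, ψ s * (ψ (s + 0))⁻¹ = if s = 0 then 0 else 1 := by
    intro s
    rw [add_zero]
    split_ifs with hs
    · rw [hs, MulChar.map_zero, zero_mul]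
    · have hu : IsUnit s := isUnit_iff_ne_zero.mpr hs
      exact mul_inv_cancel₀ (hu.map ψ).ne_zero
  rw [kerSum]
  simp only [h]
  rw [Finset.sum_ite, Finset.sum_const_zero, zero_add, Finset.sum_const, nsmul_eq_mul, mul_one,
    Finset.filter_ne' Finset.univ (0 : ZMod q), Finset.card_erase_of_mem (Finset.mem_univ _),
    Finset.card_univ, ZMod.card]
  have hq : 1 ≤ q := (Fact.out : q.Prime).one_lt.le
  push_cast [Nat.cast_sub hq]
  ring

theorem kerSum_of_ne_zero (ψ : DirichletCharacter ℂ q) {w : ZMod q} (hw : w ≠ 0) :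
    kerSum ψ w = kerSum ψ 1 := by
  have hu : IsUnit w := isUnit_iff_ne_zero.mpr hw
  have hψw : ψ w ≠ 0 := (hu.map ψ).ne_zero
  have hbij : Function.Bijective (fun t : ZMod q => w * t) := by
    obtain ⟨x, rfl⟩ := hu
    exact (Units.mulLeft x).bijective
  rw [kerSum, kerSum, ← hbij.sum_comp (fun s => ψ s * (ψ (s + w))⁻¹)]
  refine Finset.sum_congr rfl fun t _ => ?_
  have e : w * t + w = w * (t + 1) := by ring
  rw [e, map_mul, map_mul, mul_inv]
  field_simp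

theorem sum_kerSum (ψ : DirichletCharacter ℂ q) (hψ : ψ ≠ 1) :
    ∑ w : ZMod q, kerSum ψ w = 0 := by
  have h0 : ∑ s : ZMod q, ψ s = 0 := MulChar.sum_eq_zero_of_ne_one hψ
  simp only [kerSum]
  rw [Finset.sum_comm]
  have h1 : ∀ s : ZMod q, ∑ w : ZMod q, ψ s * (ψ (s + w))⁻¹ =
      ψ s * ∑ x : ZMod q, (ψ x)⁻¹ := by
    intro s
    rw [Finset.mul_sum]
    exact Equiv.sum_comp (Equiv.addLeft s) (fun x => ψ s * (ψ x)⁻¹)
  simp only [h1]
  rw [← Finset.sum_mul, h0, zero_mul]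

theorem kerSum_one (ψ : DirichletCharacter ℂ q) (hψ : ψ ≠ 1) : kerSum ψ 1 = -1 := by
  have h := sum_kerSum ψ hψ
  rw [← Finset.add_sum_erase Finset.univ _ (Finset.mem_univ (0 : ZMod q)), kerSum_zero] at h
  have h2 : ∑ w ∈ Finset.univ.erase (0 : ZMod q), kerSum ψ w =
      ((q : ℂ) - 1) * kerSum ψ 1 := by
    rw [Finset.sum_congr rfl (fun w hw => kerSum_of_ne_zero ψ (Finset.ne_of_mem_erase hw)),
      Finset.sum_const, nsmul_eq_mul, Finset.card_erase_of_mem (Finset.mem_univ _),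
      Finset.card_univ, ZMod.card]
    have hq : 1 ≤ q := (Fact.out : q.Prime).one_lt.le
    push_cast [Nat.cast_sub hq]
    ring
  rw [h2] at h
  have hq1 : (q : ℂ) - 1 ≠ 0 := by
    have : (1 : ℕ) < q := (Fact.out : q.Prime).one_lt
    have h' : (q : ℂ) ≠ 1 := by exact_mod_cast this.ne'
    exact sub_ne_zero.mpr h'
  have h3 : ((q : ℂ) - 1) * (1 + kerSum ψ 1) = 0 := by linear_combination h
  rcases mul_eq_zero.mp h3 with h4 | h4
  · exact absurd h4 hq1
  · linear_combination h4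

theorem kerSum_eq (ψ : DirichletCharacter ℂ q) (hψ : ψ ≠ 1) (w : ZMod q) :
    kerSum ψ w = if w = 0 then (q : ℂ) - 1 else -1 := by
  split_ifs with hw
  · rw [hw, kerSum_zero]
  · rw [kerSum_of_ne_zero ψ hw, kerSum_one ψ hψ]

/-- If all the `ψ⁻¹`-twisted sums of the translates of `φ` vanish, then `q φ(0) = ∑ φ`. -/
theorem card_mul_eq_sum_of_conv_eq_zero (ψ : DirichletCharacter ℂ q) (hψ : ψ ≠ 1)
    (φ : ZMod q → ℂ) (h : ∀ v : ZMod q, ∑ u : ZMod q, (ψ u)⁻¹ * φ (u + v) = 0) :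
    (q : ℂ) * φ 0 = ∑ w : ZMod q, φ w := by
  -- `∑_w φ(w) K(w) = 0`
  have h1 : ∑ w : ZMod q, φ w * kerSum ψ w = 0 := by
    have e1 : ∀ v : ZMod q, ∑ w : ZMod q, (ψ (w - v))⁻¹ * φ w = 0 := by
      intro v
      rw [← h v]
      refine (Equiv.sum_comp (Equiv.addRight v) (fun w => (ψ (w - v))⁻¹ * φ w)).symm.trans ?_
      refine Finset.sum_congr rfl fun u _ => ?_
      simp
    have e2 : ∑ v : ZMod q, ψ (-v) * ∑ w : ZMod q, (ψ (w - v))⁻¹ * φ w = 0 := by
      simp only [e1, mul_zero, Finset.sum_const_zero]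
    simp only [Finset.mul_sum] at e2
    rw [Finset.sum_comm] at e2
    rw [← e2]
    refine Finset.sum_congr rfl fun w _ => ?_
    rw [kerSum, Finset.mul_sum]
    refine (Equiv.sum_comp (Equiv.neg (ZMod q))
      (fun s => φ w * (ψ s * (ψ (s + w))⁻¹))).symm.trans ?_
    refine Finset.sum_congr rfl fun v _ => ?_
    have e3 : (Equiv.neg (ZMod q)) v + w = w - v := by
      simp only [Equiv.neg_apply]
      ring
    rw [e3]
    simp only [Equiv.neg_apply]
    ring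
  simp only [kerSum_eq ψ hψ] at h1
  rw [← Finset.add_sum_erase Finset.univ _ (Finset.mem_univ (0 : ZMod q))] at h1 ⊢
  rw [if_pos rfl] at h1
  have h2 : ∑ w ∈ Finset.univ.erase (0 : ZMod q), φ w * (if w = 0 then (q : ℂ) - 1 else -1) =
      -∑ w ∈ Finset.univ.erase (0 : ZMod q), φ w := by
    rw [← Finset.sum_neg_distrib]
    refine Finset.sum_congr rfl fun w hw => ?_
    rw [if_neg (Finset.ne_of_mem_erase hw)]
    ring
  rw [h2] at h1
  linear_combination h1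

/-- If all the `ψ⁻¹`-twisted sums of the translates of `φ` vanish, then `φ` is constant. -/
theorem const_of_conv_eq_zero (ψ : DirichletCharacter ℂ q) (hψ : ψ ≠ 1)
    (φ : ZMod q → ℂ) (h : ∀ v : ZMod q, ∑ u : ZMod q, (ψ u)⁻¹ * φ (u + v) = 0)
    (a : ZMod q) : φ a = φ 0 := by
  have h0 := card_mul_eq_sum_of_conv_eq_zero ψ hψ φ h
  have ha := card_mul_eq_sum_of_conv_eq_zero ψ hψ (fun x => φ (x + a)) (fun v => by
    have := h (v + a)
    simpa only [add_assoc] using this)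
  simp only [zero_add] at ha
  have hs : ∑ w : ZMod q, φ (w + a) = ∑ w : ZMod q, φ w :=
    Equiv.sum_comp (Equiv.addRight a) φ
  rw [hs] at ha
  have hq : (q : ℂ) ≠ 0 := by
    exact_mod_cast (Fact.out : q.Prime).ne_zero
  have : (q : ℂ) * φ a = (q : ℂ) * φ 0 := by rw [ha, h0]
  exact mul_left_cancel₀ hq this

end CharSum

/-! ## Step 1: `twist f = 0` forces invariance under `tr (1/q)` -/

section Step1

variable {q : ℕ} [NeZero q]

theorem twist_slash_tr (ψ : DirichletCharacter ℂ q) {f : ℍ → ℂ} (hf : IsPer k f)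
    (v : ZMod q) :
    (twist k q ψ f) ∣[k] tr ((v.val : ℝ) / q) =
      ∑ u : ZMod q, (ψ u)⁻¹ • shift k q f (u + v) := by
  rw [twist, SlashAction.sum_slash]
  simp only [smul_slash_tr, shift_shift hf]

theorem shift_eq_of_twist_eq_zero (hq : q.Prime) (ψ : DirichletCharacter ℂ q) (hψ : ψ ≠ 1)
    {f : ℍ → ℂ} (hf : IsPer k f) (h0 : twist k q ψ f = 0) (u : ZMod q) :
    shift k q f u = f := by
  have : Fact q.Prime := ⟨hq⟩
  funext τ
  have h : ∀ v : ZMod q, ∑ u : ZMod q, (ψ u)⁻¹ * (shift k q f (u + v)) τ = 0 := by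
    intro v
    have h1 := twist_slash_tr ψ hf v
    rw [h0, SlashAction.zero_slash] at h1
    have h2 := congrFun h1 τ
    simp only [Pi.zero_apply, Finset.sum_apply, Pi.smul_apply, smul_eq_mul] at h2
    exact h2.symm
  have hc := const_of_conv_eq_zero ψ hψ (fun u => shift k q f u τ) h u
  rw [hc, shift_zero]

end Step1

/-! ## Step 2: the group-theoretic argument -/

section Step2

variable {M' q : ℕ} [NeZero q]

theorem tL_mem_Gamma0 (N : ℕ) : tL (N : ℤ) ∈ Gamma0 N := by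
  rw [mem_Gamma0_iff_dvd]
  have : tL (N : ℤ) 1 0 = N := rfl
  rw [this]

theorem eq_zero_of_shift_eq (hcop : Nat.Coprime M' q) {χ : ℤ → ℂ}
    (hχ : IsCharMod (M' * q) χ) {f : ℍ → ℂ} (hf : IsNeb k (M' * q) χ f)
    (hinv : ∀ u : ZMod q, shift k q f u = f) {d₀ : ℤ} (hd₁ : (M' : ℤ) ∣ d₀ - 1)
    (hd₂ : IsUnit ((d₀ : ℤ) : ZMod q)) (hd₃ : χ d₀ ≠ 1) : f = 0 := by
  have hper := hf.isPer hχ
  have hinv' : ∀ n : ℤ, f ∣[k] tr ((n : ℝ) / q) = f := fun n =>
    (slash_tr_div hper n).trans (hinv _)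
  have hq0 : (q : ℤ) ≠ 0 := by exact_mod_cast NeZero.ne q
  -- the inverse of `M'` modulo `q`
  obtain ⟨m, hm⟩ := (ZMod.isUnit_iff_coprime M' q).mpr hcop
  obtain ⟨w, hw⟩ := hd₂
  -- the integers `a`, `b`
  set a : ℤ :=
    (((((w⁻¹ : (ZMod q)ˣ) : ZMod q) - 1) * ((m⁻¹ : (ZMod q)ˣ) : ZMod q)).val : ℤ) with ha
  set b : ℤ := ((((w : ZMod q) - 1) * ((m⁻¹ : (ZMod q)ˣ) : ZMod q)).val : ℤ) with hb
  have hmm : ((m⁻¹ : (ZMod q)ˣ) : ZMod q) * (M' : ZMod q) = 1 := by
    rw [← hm, ← Units.val_mul, inv_mul_cancel, Units.val_one]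
  have ha' : ((a : ℤ) : ZMod q) * (M' : ZMod q) = ((w⁻¹ : (ZMod q)ˣ) : ZMod q) - 1 := by
    rw [ha]
    push_cast
    rw [ZMod.natCast_zmod_val, mul_assoc, hmm, mul_one]
  have hb' : ((b : ℤ) : ZMod q) * (M' : ZMod q) = (w : ZMod q) - 1 := by
    rw [hb]
    push_cast
    rw [ZMod.natCast_zmod_val, mul_assoc, hmm, mul_one]
  have hww : ((w⁻¹ : (ZMod q)ˣ) : ZMod q) * (w : ZMod q) = 1 := by
    rw [← Units.val_mul, inv_mul_cancel, Units.val_one]
  -- `q ∣ a + b + a b M'`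
  have hdiv : (q : ℤ) ∣ a + b + a * b * M' := by
    rw [← ZMod.intCast_zmod_eq_zero_iff_dvd]
    have h1 : (((a + b + a * b * M' : ℤ) : ZMod q)) * (M' : ZMod q) = 0 := by
      push_cast
      have : ((a : ZMod q) + b + a * b * M') * (M' : ZMod q) =
          (1 + (a : ZMod q) * M') * (1 + (b : ZMod q) * M') - 1 := by ring
      rw [this, ha', hb']
      have : (1 + (((w⁻¹ : (ZMod q)ˣ) : ZMod q) - 1)) * (1 + ((w : ZMod q) - 1)) - 1 =
          ((w⁻¹ : (ZMod q)ˣ) : ZMod q) * (w : ZMod q) - 1 := by ring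
      rw [this, hww, sub_self]
    have h2 : ∀ x : ZMod q, x = x * (M' : ZMod q) * ((m⁻¹ : (ZMod q)ˣ) : ZMod q) := by
      intro x
      rw [mul_assoc, mul_comm (M' : ZMod q), hmm, mul_one]
    rw [h2 ((a + b + a * b * M' : ℤ) : ZMod q), h1, zero_mul]
  obtain ⟨e, he⟩ := hdiv
  have he' : (q : ℤ) * e = a + b + a * b * M' := he.symm
  -- the matrix
  have hδ : sandwich M' q a b e he' ∈ Gamma0 (M' * q) := by
    rw [mem_Gamma0_iff_dvd, sandwich_apply_10]
    push_cast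
    exact dvd_rfl
  have h1 := hf _ hδ
  rw [sandwich_apply_11] at h1
  -- `χ (1 + b M') = χ d₀`
  have hχd : χ (1 + b * M') = χ d₀ := by
    apply hχ.periodic
    have hcop' : IsCoprime (M' : ℤ) (q : ℤ) := Nat.Coprime.isCoprime hcop
    have hM : (M' : ℤ) ∣ 1 + b * M' - d₀ := by
      have : 1 + b * M' - d₀ = b * M' - (d₀ - 1) := by ring
      rw [this]
      exact dvd_sub (Dvd.intro_left _ rfl) hd₁
    have hq : (q : ℤ) ∣ 1 + b * M' - d₀ := by
      rw [← ZMod.intCast_zmod_eq_zero_iff_dvd]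
      push_cast
      rw [hb', ← hw]
      ring
    have := hcop'.mul_dvd hM hq
    push_cast
    exact this
  rw [hχd] at h1
  -- `f ∣ δ = f`
  have h2 : f ∣[k] sandwich M' q a b e he' = f := by
    have hq' : (((q : ℕ) : ℤ) : ℝ) = (q : ℝ) := by push_cast; rfl
    have key := tr_mul_tL_mul_tr (M' := M') hq0 a b e he'
    rw [hq'] at key
    rw [sl_slash_mapGL, ← key, SlashAction.slash_mul, SlashAction.slash_mul, hinv' a,
      ← sl_slash_mapGL]
    have hL : tL ((M' : ℤ) * (q : ℤ)) ∈ Gamma0 (M' * q) := by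
      have := tL_mem_Gamma0 (M' * q)
      push_cast at this
      exact this
    have h11 : tL ((M' : ℤ) * (q : ℤ)) 1 1 = 1 := rfl
    rw [hf _ hL, h11, hχ.one, one_smul, hinv' b]
  rw [h2] at h1
  have h3 : (χ d₀ - 1) • f = 0 := by
    rw [sub_smul, one_smul, ← h1, sub_self]
  rcases smul_eq_zero.mp h3 with h4 | h4
  · exact absurd (sub_eq_zero.mp h4) hd₃
  · exact h4

/-- **T4.** Injectivity of the twist on forms whose nebentypus is ramified at `q`. -/
theorem twist_injective (hq : q.Prime) (hcop : Nat.Coprime M' q) {χ : ℤ → ℂ}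
    (hχ : IsCharMod (M' * q) χ) (ψ : DirichletCharacter ℂ q) (hψ : ψ ≠ 1)
    {f : ℍ → ℂ} (hf : IsNeb k (M' * q) χ f) {d₀ : ℤ} (hd₁ : (M' : ℤ) ∣ d₀ - 1)
    (hd₂ : IsUnit ((d₀ : ℤ) : ZMod q)) (hd₃ : χ d₀ ≠ 1) (h0 : twist k q ψ f = 0) : f = 0 :=
  eq_zero_of_shift_eq hcop hχ hf
    (shift_eq_of_twist_eq_zero hq ψ hψ (hf.isPer hχ) h0) hd₁ hd₂ hd₃

end Step2

end Fermat.Agent.S59.TW.H564
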