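import Mathlib
import Fermat.Prelude.Def_ModularForm_HeckeOperator
import Fermat.Agent.S59.TW.H564.TwistInj

/-!
# Iterated twists (helper564, row S59, leaf E4 TWIST)

`twistL k ψ L f`: twist `f` successively by the Dirichlet characters `ψ q`, `q ∈ L`
(`L : List ℕ` a list of primes dividing the level `M`).

* `isNeb_twistL`      : nebentypus `chiL ψ χ L = χ · ∏_{q ∈ L} ψ_q²` on `Γ₀(M · ∏ L)`;
* `isCuspidal_twistL` : holomorphy and cusps;
* `heckeT_twistL'`    : `T_ℓ (twistL f) = psiL(ℓ) • twistL (U_ℓ f + c • f ∣ diag(ℓ,1))`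
                        if `c · psiL(ℓ)² = 1`, `psiL(ℓ) = ∏_{q ∈ L} ψ_q(ℓ)`;
* `twistL_injective`  : injectivity, if `χ` is ramified at every `q ∈ L` (`Ram q χ`), `q ∥ M`;
* `twistLCuspForm`    : the bundled cusp form on any `Γ' ≤ Γ₀(M · ∏ L)` when the twisted
                        nebentypus is trivial on `Γ'`.
-/

set_option autoImplicit false
set_option linter.unusedSectionVars false
set_option linter.style.haveILetI false

namespace Fermat.Agent.S59.TW.H564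

open Matrix Matrix.SpecialLinearGroup CongruenceSubgroup UpperHalfPlane ModularForm
open Fermat.Agent.Lib.Newform.H803
open scoped MatrixGroups ModularForm

variable {k : ℤ}

/-! ## Periodicity of the twist -/

theorem isPer_twist {q : ℕ} [NeZero q] (ψ : DirichletCharacter ℂ q) {f : ℍ → ℂ}
    (hf : IsPer k f) : IsPer k (twist k q ψ f) := by
  intro n
  rw [twist, SlashAction.sum_slash]
  refine Finset.sum_congr rfl fun u _ => ?_
  rw [ModularForm.SL_smul_slash]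
  congr 1
  rw [shift, ← Fermat.Agent.S59.TW.H564.slash_tr_intCast, ← slash_tr_add, add_comm,
    slash_tr_add, hf.slash_tr_int]

theorem isPer_slash_heckeDiagMatrix {f : ℍ → ℂ} (hf : IsPer k f) {ℓ : ℕ} (hℓ : ℓ ≠ 0) :
    IsPer k (f ∣[k] heckeDiagMatrix ℓ) := by
  intro n
  have e : ((ℓ : ℝ) * (n : ℝ)) = (((ℓ : ℤ) * n : ℤ) : ℝ) := by push_cast; rfl
  rw [← Fermat.Agent.S59.TW.H564.slash_tr_intCast, ← SlashAction.slash_mul,
    ← tr_mul_heckeDiagMatrix hℓ, SlashAction.slash_mul, e, hf.slash_tr_int]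

/-! ## The twist without instance arguments -/

/-- `twist` without the `NeZero` instance (identity for `q = 0`). -/
noncomputable def twist' (k : ℤ) (q : ℕ) (ψ : DirichletCharacter ℂ q) (f : ℍ → ℂ) : ℍ → ℂ :=
  if h : q = 0 then f else
    haveI : NeZero q := ⟨h⟩
    twist k q ψ f

theorem twist'_eq {q : ℕ} [NeZero q] (ψ : DirichletCharacter ℂ q) (f : ℍ → ℂ) :
    twist' k q ψ f = twist k q ψ f := by
  rw [twist', dif_neg (NeZero.ne q)]

theorem twist'_add {q : ℕ} (ψ : DirichletCharacter ℂ q) (f g : ℍ → ℂ) :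
    twist' k q ψ (f + g) = twist' k q ψ f + twist' k q ψ g := by
  rcases eq_or_ne q 0 with h | h
  · simp only [twist', dif_pos h]
  · haveI : NeZero q := ⟨h⟩
    simp only [twist'_eq, twist_add]

theorem twist'_smul {q : ℕ} (ψ : DirichletCharacter ℂ q) (c : ℂ) (f : ℍ → ℂ) :
    twist' k q ψ (c • f) = c • twist' k q ψ f := by
  rcases eq_or_ne q 0 with h | h
  · simp only [twist', dif_pos h]
  · haveI : NeZero q := ⟨h⟩
    simp only [twist'_eq, twist_smul]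

/-! ## Iteration -/

section Iter

variable (k) (ψ : (q : ℕ) → DirichletCharacter ℂ q)

/-- The iterated twist along a list of moduli. -/
noncomputable def twistL : List ℕ → (ℍ → ℂ) → (ℍ → ℂ)
  | [], f => f
  | q :: L, f => twistL L (twist' k q (ψ q) f)

/-- The nebentypus of the iterated twist: `χ · ∏_{q ∈ L} ψ_q²`. -/
noncomputable def chiL (χ : ℤ → ℂ) : List ℕ → ℤ → ℂ
  | [], d => χ d
  | q :: L, d => chiL (fun d => χ d * ψ q (d : ZMod q) ^ 2) L d

/-- `∏_{q ∈ L} ψ_q(ℓ)`. -/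
noncomputable def psiL (L : List ℕ) (ℓ : ℕ) : ℂ :=
  (L.map fun q => ψ q (ℓ : ZMod q)).prod

variable {k ψ}

@[simp] theorem twistL_nil (f : ℍ → ℂ) : twistL k ψ [] f = f := rfl

@[simp] theorem twistL_cons (q : ℕ) (L : List ℕ) (f : ℍ → ℂ) :
    twistL k ψ (q :: L) f = twistL k ψ L (twist' k q (ψ q) f) := rfl

@[simp] theorem chiL_nil (χ : ℤ → ℂ) : chiL ψ χ [] = χ := rfl

@[simp] theorem chiL_cons (χ : ℤ → ℂ) (q : ℕ) (L : List ℕ) :
    chiL ψ χ (q :: L) = chiL ψ (fun d => χ d * ψ q (d : ZMod q) ^ 2) L := rfl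

@[simp] theorem psiL_nil (ℓ : ℕ) : psiL ψ [] ℓ = 1 := rfl

@[simp] theorem psiL_cons (q : ℕ) (L : List ℕ) (ℓ : ℕ) :
    psiL ψ (q :: L) ℓ = ψ q (ℓ : ZMod q) * psiL ψ L ℓ := by
  simp [psiL]

theorem chiL_apply (χ : ℤ → ℂ) (L : List ℕ) (d : ℤ) :
    chiL ψ χ L d = χ d * (L.map fun q => ψ q (d : ZMod q) ^ 2).prod := by
  induction L generalizing χ with
  | nil => simp
  | cons q L ih =>
    rw [chiL_cons, ih, List.map_cons, List.prod_cons, mul_assoc]

theorem twistL_add (L : List ℕ) (f g : ℍ → ℂ) :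
    twistL k ψ L (f + g) = twistL k ψ L f + twistL k ψ L g := by
  induction L generalizing f g with
  | nil => rfl
  | cons q L ih => rw [twistL_cons, twistL_cons, twistL_cons, twist'_add, ih]

theorem twistL_smul (L : List ℕ) (c : ℂ) (f : ℍ → ℂ) :
    twistL k ψ L (c • f) = c • twistL k ψ L f := by
  induction L generalizing f with
  | nil => rfl
  | cons q L ih => rw [twistL_cons, twistL_cons, twist'_smul, ih]

/-- The iterated twist as a linear map. -/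
noncomputable def twistLLin (k : ℤ) (ψ : (q : ℕ) → DirichletCharacter ℂ q) (L : List ℕ) :
    (ℍ → ℂ) →ₗ[ℂ] (ℍ → ℂ) where
  toFun := twistL k ψ L
  map_add' := twistL_add L
  map_smul' := twistL_smul L

@[simp] theorem twistLLin_apply (L : List ℕ) (f : ℍ → ℂ) :
    twistLLin k ψ L f = twistL k ψ L f := rfl

/-- **T1, iterated.** -/
theorem isNeb_twistL (L : List ℕ) {M : ℕ} (hL : ∀ q ∈ L, q ≠ 0 ∧ q ∣ M) {χ : ℤ → ℂ}
    (hχ : IsCharMod M χ) {f : ℍ → ℂ} (hf : IsNeb k M χ f) :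
    IsCharMod (M * L.prod) (chiL ψ χ L) ∧
      IsNeb k (M * L.prod) (chiL ψ χ L) (twistL k ψ L f) := by
  induction L generalizing M χ f with
  | nil =>
    simp only [List.prod_nil, mul_one, chiL_nil, twistL_nil]
    exact ⟨hχ, hf⟩
  | cons q L ih =>
    obtain ⟨hq0, hqM⟩ := hL q (List.mem_cons_self)
    haveI : NeZero q := ⟨hq0⟩
    have h1 := twist_isNeb hqM hχ (ψ q) hf
    have h2 := isCharMod_twist (q := q) hχ (ψ q)
    have hL' : ∀ q' ∈ L, q' ≠ 0 ∧ q' ∣ M * q := fun q' hq' =>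
      ⟨(hL q' (List.mem_cons_of_mem _ hq')).1,
        (hL q' (List.mem_cons_of_mem _ hq')).2.trans (Dvd.intro _ rfl)⟩
    have h3 := ih hL' h2 h1
    rw [List.prod_cons, ← mul_assoc, chiL_cons, twistL_cons, twist'_eq]
    exact h3

/-- **T2, iterated.** -/
theorem isCuspidal_twistL (L : List ℕ) {f : ℍ → ℂ} (hf : IsCuspidal k f) :
    IsCuspidal k (twistL k ψ L f) := by
  induction L generalizing f with
  | nil => exact hf
  | cons q L ih =>
    rw [twistL_cons]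
    apply ih
    rcases eq_or_ne q 0 with h | h
    · rw [twist', dif_pos h]
      exact hf
    · haveI : NeZero q := ⟨h⟩
      rw [twist'_eq]
      exact isCuspidal_twist (ψ q) hf

theorem isPer_twistL (L : List ℕ) {f : ℍ → ℂ} (hf : IsPer k f) :
    IsPer k (twistL k ψ L f) := by
  induction L generalizing f with
  | nil => exact hf
  | cons q L ih =>
    rw [twistL_cons]
    apply ih
    rcases eq_or_ne q 0 with h | h
    · rw [twist', dif_pos h]
      exact hf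
    · haveI : NeZero q := ⟨h⟩
      rw [twist'_eq]
      exact isPer_twist (ψ q) hf

theorem heckeU_twistL (L : List ℕ) {ℓ : ℕ} (hℓ : ℓ ≠ 0)
    (hL : ∀ q ∈ L, q ≠ 0 ∧ IsUnit (ℓ : ZMod q)) {f : ℍ → ℂ} (hf : IsPer k f) :
    heckeU k ℓ (twistL k ψ L f) = psiL ψ L ℓ • twistL k ψ L (heckeU k ℓ f) := by
  induction L generalizing f with
  | nil => simp
  | cons q L ih =>
    obtain ⟨hq0, hu⟩ := hL q (List.mem_cons_self)
    haveI : NeZero q := ⟨hq0⟩
    have hL' : ∀ q' ∈ L, q' ≠ 0 ∧ IsUnit (ℓ : ZMod q') := fun q' hq' =>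
      hL q' (List.mem_cons_of_mem _ hq')
    rw [twistL_cons, twistL_cons, twist'_eq, twist'_eq, ih hL' (isPer_twist (ψ q) hf),
      heckeU_twist hℓ hu (ψ q) hf, twistL_smul, smul_smul, psiL_cons, mul_comm]

theorem twistL_slash_heckeDiagMatrix (L : List ℕ) {ℓ : ℕ} (hℓ : ℓ ≠ 0)
    (hL : ∀ q ∈ L, q ≠ 0 ∧ IsUnit (ℓ : ZMod q)) {f : ℍ → ℂ} (hf : IsPer k f) :
    (twistL k ψ L f) ∣[k] heckeDiagMatrix ℓ =
      (psiL ψ L ℓ)⁻¹ • twistL k ψ L (f ∣[k] heckeDiagMatrix ℓ) := by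
  induction L generalizing f with
  | nil => simp
  | cons q L ih =>
    obtain ⟨hq0, hu⟩ := hL q (List.mem_cons_self)
    haveI : NeZero q := ⟨hq0⟩
    have hL' : ∀ q' ∈ L, q' ≠ 0 ∧ IsUnit (ℓ : ZMod q') := fun q' hq' =>
      hL q' (List.mem_cons_of_mem _ hq')
    rw [twistL_cons, twistL_cons, twist'_eq, twist'_eq, ih hL' (isPer_twist (ψ q) hf),
      twist_slash_heckeDiagMatrix hℓ hu (ψ q) hf, twistL_smul, smul_smul, psiL_cons, mul_inv,
      mul_comm]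

/-- **T3, iterated.** -/
theorem heckeT_twistL (L : List ℕ) {ℓ : ℕ} (hℓ : ℓ ≠ 0)
    (hL : ∀ q ∈ L, q ≠ 0 ∧ IsUnit (ℓ : ZMod q)) {f : ℍ → ℂ} (hf : IsPer k f) :
    heckeT k ℓ (twistL k ψ L f) =
      psiL ψ L ℓ • twistL k ψ L (heckeU k ℓ f) +
        (psiL ψ L ℓ)⁻¹ • twistL k ψ L (f ∣[k] heckeDiagMatrix ℓ) := by
  rw [heckeT_eq_heckeU_add, heckeU_twistL L hℓ hL hf, twistL_slash_heckeDiagMatrix L hℓ hL hf]

theorem psiL_ne_zero (L : List ℕ) {ℓ : ℕ} (hL : ∀ q ∈ L, q ≠ 0 ∧ IsUnit (ℓ : ZMod q)) :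
    psiL ψ L ℓ ≠ 0 := by
  induction L with
  | nil => simp
  | cons q L ih =>
    rw [psiL_cons]
    exact mul_ne_zero (((hL q (List.mem_cons_self)).2.map (ψ q)).ne_zero)
      (ih fun q' hq' => hL q' (List.mem_cons_of_mem _ hq'))

/-- **T3', iterated.**  If `c · psiL(ℓ)² = 1` then
`T_ℓ (twistL f) = psiL(ℓ) • twistL (U_ℓ f + c • f ∣ diag(ℓ, 1))`. -/
theorem heckeT_twistL' (L : List ℕ) {ℓ : ℕ} (hℓ : ℓ ≠ 0)
    (hL : ∀ q ∈ L, q ≠ 0 ∧ IsUnit (ℓ : ZMod q)) {f : ℍ → ℂ} (hf : IsPer k f) {c : ℂ}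
    (hc : c * psiL ψ L ℓ ^ 2 = 1) :
    heckeT k ℓ (twistL k ψ L f) =
      psiL ψ L ℓ • twistL k ψ L (heckeU k ℓ f + c • f ∣[k] heckeDiagMatrix ℓ) := by
  have hψ := psiL_ne_zero (ψ := ψ) L hL
  have hc' : (psiL ψ L ℓ)⁻¹ = psiL ψ L ℓ * c := by
    field_simp
    linear_combination -hc
  rw [heckeT_twistL L hℓ hL hf, twistL_add, twistL_smul, smul_add, smul_smul, hc']

/-! ## Injectivity -/

/-- `χ` is ramified at `q`: it is non-trivial on the units congruent to `1` modulo any given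
modulus prime to `q`. -/
def Ram (q : ℕ) (χ : ℤ → ℂ) : Prop :=
  ∀ N' : ℕ, Nat.Coprime N' q →
    ∃ d : ℤ, (N' : ℤ) ∣ d - 1 ∧ IsUnit ((d : ℤ) : ZMod q) ∧ χ d ≠ 1

theorem Ram.twist {q q' : ℕ} {χ : ℤ → ℂ} (h : Ram q' χ) (hqq' : Nat.Coprime q q')
    (ψq : DirichletCharacter ℂ q) :
    Ram q' (fun d => χ d * ψq (d : ZMod q) ^ 2) := by
  intro N' hN'
  obtain ⟨d, hd1, hd2, hd3⟩ := h (N' * q) (Nat.Coprime.mul_left hN' hqq')
  refine ⟨d, (Dvd.intro _ (by push_cast; rfl)).trans hd1, hd2, ?_⟩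
  have hq : ((d : ℤ) : ZMod q) = 1 := by
    have h1 : ((q : ℕ) : ℤ) ∣ d - 1 := (Dvd.intro_left _ (by push_cast; rfl)).trans hd1
    have h2 := (ZMod.intCast_zmod_eq_zero_iff_dvd (d - 1) q).mpr h1
    push_cast at h2
    exact sub_eq_zero.mp h2
  simp only [hq, map_one, one_pow, mul_one]
  exact hd3

/-- **T4, iterated.**  Injectivity of the iterated twist: `L` a list of distinct primes,
`q ∥ M`, `χ` ramified at `q` and `ψ q ≠ 1` for every `q ∈ L`. -/
theorem twistL_injective (L : List ℕ) (hnd : L.Nodup) {M : ℕ}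
    (hL : ∀ q ∈ L, q.Prime ∧ ∃ M' : ℕ, M = M' * q ∧ Nat.Coprime M' q)
    (hψ : ∀ q ∈ L, ψ q ≠ 1) {χ : ℤ → ℂ} (hχ : IsCharMod M χ)
    (hram : ∀ q ∈ L, Ram q χ) {f : ℍ → ℂ} (hf : IsNeb k M χ f)
    (h0 : twistL k ψ L f = 0) : f = 0 := by
  induction L generalizing M χ f with
  | nil => exact h0
  | cons q L ih =>
    obtain ⟨hq, M', hM, hcop⟩ := hL q (List.mem_cons_self)
    haveI : NeZero q := ⟨hq.ne_zero⟩
    have hqM : q ∣ M := ⟨M', by rw [hM, mul_comm]⟩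
    rw [twistL_cons, twist'_eq] at h0
    have hnd' : L.Nodup := (List.nodup_cons.mp hnd).2
    have hqL : q ∉ L := (List.nodup_cons.mp hnd).1
    -- the twist vanishes
    have h1 : twist k q (ψ q) f = 0 := by
      refine ih hnd' (M := M * q) ?_ (fun q' hq' => hψ q' (List.mem_cons_of_mem _ hq'))
        (isCharMod_twist hχ (ψ q)) ?_ (twist_isNeb hqM hχ (ψ q) hf) h0
      · intro q' hq'
        obtain ⟨hq'p, M'', hM'', hcop''⟩ := hL q' (List.mem_cons_of_mem _ hq')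
        have hne : q' ≠ q := fun h => hqL (h ▸ hq')
        refine ⟨hq'p, M'' * q, by rw [hM'']; ring, ?_⟩
        exact Nat.Coprime.mul_left hcop''
          ((Nat.coprime_primes hq hq'p).mpr (fun h => hne h.symm))
      · intro q' hq'
        have hne : q' ≠ q := fun h => hqL (h ▸ hq')
        obtain ⟨hq'p, -⟩ := hL q' (List.mem_cons_of_mem _ hq')
        exact (hram q' (List.mem_cons_of_mem _ hq')).twist
          ((Nat.coprime_primes hq hq'p).mpr (fun h => hne h.symm)) (ψ q)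
    -- injectivity at `q`
    obtain ⟨d, hd1, hd2, hd3⟩ := hram q (List.mem_cons_self) M' hcop
    subst hM
    exact twist_injective hq hcop hχ (ψ q) (hψ q (List.mem_cons_self)) hf hd1 hd2 hd3 h1

/-! ## The bundled cusp form -/

/-- The iterated twist as a cusp form on `Γ' ≤ Γ₀(M · ∏ L)`, when the twisted nebentypus is
trivial on `Γ'`. -/
noncomputable def twistLCuspForm (L : List ℕ) {M : ℕ} (hL : ∀ q ∈ L, q ≠ 0 ∧ q ∣ M)
    {χ : ℤ → ℂ} (hχ : IsCharMod M χ) (f : ℍ → ℂ) (hf : IsNeb k M χ f)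
    (hc : IsCuspidal k f) (Γ' : Subgroup SL(2, ℤ)) (hΓ' : Γ' ≤ Gamma0 (M * L.prod))
    (h1 : ∀ γ ∈ Γ', chiL ψ χ L (γ 1 1) = 1) : CuspForm Γ' k :=
  cuspFormOfIsCuspidal Γ' (twistL k ψ L f) (isCuspidal_twistL L hc) (fun γ hγ => by
    rw [(isNeb_twistL (ψ := ψ) L hL hχ hf).2 γ (hΓ' hγ), h1 γ hγ, one_smul])

@[simp] theorem coe_twistLCuspForm (L : List ℕ) {M : ℕ} (hL : ∀ q ∈ L, q ≠ 0 ∧ q ∣ M)
    {χ : ℤ → ℂ} (hχ : IsCharMod M χ) (f : ℍ → ℂ) (hf : IsNeb k M χ f)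
    (hc : IsCuspidal k f) (Γ' : Subgroup SL(2, ℤ)) (hΓ' : Γ' ≤ Gamma0 (M * L.prod))
    (h1 : ∀ γ ∈ Γ', chiL ψ χ L (γ 1 1) = 1) :
    ((twistLCuspForm (ψ := ψ) L hL hχ f hf hc Γ' hΓ' h1 : CuspForm Γ' k) : ℍ → ℂ) =
      twistL k ψ L f := rfl

end Iter

end Fermat.Agent.S59.TW.H564
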