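import Mathlib
import Fermat.Prelude.Def_ModularForm_HeckeOperator
import Fermat.Agent.S59.TW.H564.TwistIter

/-!
# S59 / TW leaf E4 TWIST (helper564), part 5: the twisting characters

Pure character theory (no modular forms).  Let `ε` be a Dirichlet character modulo `M`, `Qs` a
list of distinct primes with `q ∥ M`, such that `ε` factors through `∏ Qs` and
`ε ^ (2 m + 1) = 1`.

* `charComp ε q` : the `q`-component of `ε` (a character modulo `q`), characterised by
  `charComp_spec : M' ∣ d - 1 → charComp ε q d = ε d` for `M = M' q`, `(M', q) = 1`;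
* `charComp_prod_eq` : `ε(d) = ∏_{q ∈ Qs} ε_q(d)` for `d` prime to `M`;
* `ramList ε Qs` : the primes of `Qs` at which `ε` is ramified;
* `exists_psi` : the ramified list `L ⊆ Qs` and `ψ_q = ε_q ^ m` satisfy every hypothesis of
  `isNeb_twistL`, `twistL_injective`, `heckeT_twistL'` (with `psiL(ℓ) = ε(ℓ) ^ m`) and
  the twisted nebentypus `ε · ∏ ψ_q²` is trivial.
-/

set_option autoImplicit false

namespace Fermat.Agent.S59.TW.H564

/-- Chinese remainder theorem on integers. -/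
theorem exists_int_crt {a b : ℕ} (h : Nat.Coprime a b) (x y : ℤ) :
    ∃ z : ℤ, (a : ℤ) ∣ z - x ∧ (b : ℤ) ∣ z - y := by
  have hc : IsCoprime (a : ℤ) (b : ℤ) := Nat.isCoprime_iff_coprime.mpr h
  obtain ⟨s, t, hst⟩ := hc
  refine ⟨x * (t * b) + y * (s * a), ⟨s * (y - x), ?_⟩, ⟨t * (x - y), ?_⟩⟩
  · linear_combination x * hst
  · linear_combination y * hst

theorem intCast_zmod_eq_of_dvd {n : ℕ} {a b : ℤ} (h : (n : ℤ) ∣ a - b) :
    ((a : ℤ) : ZMod n) = ((b : ℤ) : ZMod n) := by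
  have := (ZMod.intCast_zmod_eq_zero_iff_dvd (a - b) n).mpr h
  push_cast at this
  exact sub_eq_zero.mp this

theorem dvd_of_intCast_zmod_eq {n : ℕ} {a b : ℤ} (h : ((a : ℤ) : ZMod n) = ((b : ℤ) : ZMod n)) :
    (n : ℤ) ∣ a - b := by
  rw [← ZMod.intCast_zmod_eq_zero_iff_dvd]
  push_cast
  exact sub_eq_zero.mpr h

theorem isUnit_intCast_of_dvd {n m : ℕ} (h : m ∣ n) {a : ℤ} (ha : IsUnit ((a : ℤ) : ZMod n)) :
    IsUnit ((a : ℤ) : ZMod m) := by
  have := ha.map (ZMod.castHom h (ZMod m))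
  simpa using this

theorem exists_charComp {M' q : ℕ} (hcop : Nat.Coprime M' q) (ε : DirichletCharacter ℂ (M' * q)) :
    ∃ εq : DirichletCharacter ℂ q, ∀ d : ℤ, (M' : ℤ) ∣ d - 1 →
      εq ((d : ℤ) : ZMod q) = ε ((d : ℤ) : ZMod (M' * q)) := by
  classical
  let e := ZMod.chineseRemainder hcop
  let ι : ZMod q →* ZMod (M' * q) :=
    (e.symm : ZMod M' × ZMod q →* ZMod (M' * q)).comp (MonoidHom.inr (ZMod M') (ZMod q))
  refine ⟨MulChar.ofUnitHom (ε.toUnitHom.comp (Units.map ι)), fun d hd => ?_⟩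
  have hd1 : ((d : ℤ) : ZMod M') = 1 := by
    have := intCast_zmod_eq_of_dvd hd
    simpa using this
  have hι : ι (d : ZMod q) = (d : ZMod (M' * q)) := by
    show e.symm ((1 : ZMod M'), (d : ZMod q)) = _
    rw [RingEquiv.symm_apply_eq, map_intCast]
    ext
    · simp [hd1]
    · simp
  by_cases hu : IsUnit ((d : ℤ) : ZMod q)
  · obtain ⟨u, hu'⟩ := hu
    rw [← hu', MulChar.ofUnitHom_coe]
    simp only [MonoidHom.comp_apply, MulChar.coe_toUnitHom, Units.coe_map]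
    rw [hu', hι]
  · rw [MulChar.map_nonunit _ hu, MulChar.map_nonunit]
    intro h
    exact hu (isUnit_intCast_of_dvd (Dvd.intro_left M' rfl) h)

/-- The `q`-component of a Dirichlet character modulo `M` (meaningful when `q ∥ M`). -/
noncomputable def charComp {M : ℕ} (ε : DirichletCharacter ℂ M) (q : ℕ) : DirichletCharacter ℂ q :=
  open Classical in
  if h : ∃ εq : DirichletCharacter ℂ q, ∀ d : ℤ, ((M / q : ℕ) : ℤ) ∣ d - 1 →
      εq ((d : ℤ) : ZMod q) = ε ((d : ℤ) : ZMod M)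
  then h.choose else 1

theorem charComp_spec {M M' q : ℕ} (hM : M = M' * q) (hq : q ≠ 0) (hcop : Nat.Coprime M' q)
    (ε : DirichletCharacter ℂ M) (d : ℤ) (hd : (M' : ℤ) ∣ d - 1) :
    charComp ε q ((d : ℤ) : ZMod q) = ε ((d : ℤ) : ZMod M) := by
  subst hM
  have hdiv : M' * q / q = M' := Nat.mul_div_cancel _ (Nat.pos_of_ne_zero hq)
  have hex : ∃ εq : DirichletCharacter ℂ q, ∀ d : ℤ, ((M' * q / q : ℕ) : ℤ) ∣ d - 1 →
      εq ((d : ℤ) : ZMod q) = ε ((d : ℤ) : ZMod (M' * q)) := by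
    rw [hdiv]
    exact exists_charComp hcop ε
  unfold charComp
  rw [dif_pos hex]
  exact hex.choose_spec d (by rw [hdiv]; exact hd)

section Formula

variable {M : ℕ} (ε : DirichletCharacter ℂ M)

theorem prime_dvd_cofactor {M M' q n : ℕ} (hM : M = M' * q) (hq : q.Prime) (hn : n.Prime)
    (hnM : n ∣ M) (hne : n ≠ q) : n ∣ M' := by
  rw [hM] at hnM
  rcases (Nat.Prime.dvd_mul hn).mp hnM with h | h
  · exact h
  · exact absurd ((Nat.prime_dvd_prime_iff_eq hn hq).mp h) hne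

theorem charComp_prod_aux (L : List ℕ) (hnd : L.Nodup)
    (hL : ∀ q ∈ L, q.Prime ∧ ∃ M' : ℕ, M = M' * q ∧ Nat.Coprime M' q) (d : ℤ) :
    ∃ r : ℤ, ε ((r : ℤ) : ZMod M) = (L.map fun q => charComp ε q ((d : ℤ) : ZMod q)).prod ∧
      (∀ q ∈ L, (q : ℤ) ∣ r - d) ∧
      (∀ n : ℕ, n.Prime → n ∣ M → n ∉ L → (n : ℤ) ∣ r - 1) := by
  induction L with
  | nil =>
    refine ⟨1, by simp, by simp, fun n _ _ _ => by simp⟩
  | cons q L ih =>
    obtain ⟨hq, M', hM, hcop⟩ := hL q List.mem_cons_self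
    have hqL : q ∉ L := (List.nodup_cons.mp hnd).1
    obtain ⟨r', hr1, hr2, hr3⟩ := ih (List.nodup_cons.mp hnd).2
      (fun q' hq' => hL q' (List.mem_cons_of_mem _ hq'))
    obtain ⟨x, hx1, hx2⟩ := exists_int_crt hcop 1 d
    have hqM : q ∣ M := ⟨M', by rw [hM, mul_comm]⟩
    refine ⟨r' * x, ?_, ?_, ?_⟩
    · rw [List.map_cons, List.prod_cons, ← hr1, Int.cast_mul, map_mul, mul_comm]
      congr 1
      rw [← charComp_spec hM hq.ne_zero hcop ε x hx1, intCast_zmod_eq_of_dvd hx2]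
    · intro q' hq'
      rcases List.mem_cons.mp hq' with rfl | hq'L
      · have h1 := hr3 q' hq hqM hqL
        have : r' * x - d = (r' - 1) * x + (x - d) := by ring
        rw [this]
        exact dvd_add (Dvd.dvd.mul_right h1 _) hx2
      · have hq'p := (hL q' hq').1
        have hne : q' ≠ q := fun h => hqL (h ▸ hq'L)
        have hq'M : q' ∣ M := by
          obtain ⟨-, M'', hM'', -⟩ := hL q' hq'
          exact ⟨M'', by rw [hM'', mul_comm]⟩
        have h1 : (q' : ℤ) ∣ x - 1 :=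
          (Int.natCast_dvd_natCast.mpr (prime_dvd_cofactor hM hq hq'p hq'M hne)).trans hx1
        have : r' * x - d = (r' - d) * x + d * (x - 1) := by ring
        rw [this]
        exact dvd_add (Dvd.dvd.mul_right (hr2 q' hq'L) _) (Dvd.dvd.mul_left h1 _)
    · intro n hn hnM hnL
      have hne : n ≠ q := fun h => hnL (h ▸ List.mem_cons_self)
      have hnL' : n ∉ L := fun h => hnL (List.mem_cons_of_mem _ h)
      have h1 : (n : ℤ) ∣ x - 1 :=
        (Int.natCast_dvd_natCast.mpr (prime_dvd_cofactor hM hq hn hnM hne)).trans hx1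
      have : r' * x - 1 = (r' - 1) * x + (x - 1) := by ring
      rw [this]
      exact dvd_add (Dvd.dvd.mul_right (hr3 n hn hnM hnL') _) h1

theorem charComp_apply_ne_zero {q : ℕ} (hqM : q ∣ M) {d : ℤ} (hd : IsUnit ((d : ℤ) : ZMod M)) :
    charComp ε q ((d : ℤ) : ZMod q) ≠ 0 :=
  ((isUnit_intCast_of_dvd hqM hd).map (charComp ε q)).ne_zero

/-- **Product formula**: a character which factors through `∏ L` is the product of its
components. -/
theorem charComp_prod_eq (L : List ℕ) (hnd : L.Nodup)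
    (hL : ∀ q ∈ L, q.Prime ∧ ∃ M' : ℕ, M = M' * q ∧ Nat.Coprime M' q)
    (hper : ∀ a b : ℤ, IsUnit ((a : ℤ) : ZMod M) → IsUnit ((b : ℤ) : ZMod M) →
      (∀ q ∈ L, (q : ℤ) ∣ a - b) → ε ((a : ℤ) : ZMod M) = ε ((b : ℤ) : ZMod M))
    (d : ℤ) (hd : IsUnit ((d : ℤ) : ZMod M)) :
    ε ((d : ℤ) : ZMod M) = (L.map fun q => charComp ε q ((d : ℤ) : ZMod q)).prod := by
  obtain ⟨r, hr1, hr2, -⟩ := charComp_prod_aux ε L hnd hL d
  have hne : (L.map fun q => charComp ε q ((d : ℤ) : ZMod q)).prod ≠ 0 := by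
    rw [Ne, List.prod_eq_zero_iff, List.mem_map]
    rintro ⟨q, hq, h0⟩
    obtain ⟨-, M', hM, -⟩ := hL q hq
    exact charComp_apply_ne_zero ε ⟨M', by rw [hM, mul_comm]⟩ hd h0
  have hru : IsUnit ((r : ℤ) : ZMod M) := by
    by_contra h
    rw [MulChar.map_nonunit _ h] at hr1
    exact hne hr1.symm
  rw [← hr1]
  exact (hper r d hru hd hr2).symm

end Formula


section Psi

variable {M : ℕ} (ε : DirichletCharacter ℂ M)

theorem charComp_pow_eq_one {M' q : ℕ} (hM : M = M' * q) (hq : q ≠ 0) (hcop : Nat.Coprime M' q)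
    (n : ℕ) (hn : ε ^ n = 1) : charComp ε q ^ n = 1 := by
  ext u
  obtain ⟨u₀, hu₀⟩ := ZMod.intCast_surjective (u : ZMod q)
  obtain ⟨x, hx1, hx2⟩ := exists_int_crt hcop 1 u₀
  have hxq : ((x : ℤ) : ZMod q) = u := (intCast_zmod_eq_of_dvd hx2).trans hu₀
  have hsp := charComp_spec hM hq hcop ε x hx1
  rw [hxq] at hsp
  have hne : charComp ε q (u : ZMod q) ≠ 0 := (u.isUnit.map (charComp ε q)).ne_zero
  have hxu : IsUnit ((x : ℤ) : ZMod M) := by
    by_contra h
    rw [MulChar.map_nonunit _ h] at hsp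
    exact hne hsp
  obtain ⟨v, hv⟩ := hxu
  rw [MulChar.pow_apply_coe, hsp, ← hv, ← MulChar.pow_apply_coe, hn, MulChar.one_apply_coe,
    MulChar.one_apply_coe]

theorem ram_of_charComp_ne_one {M' q : ℕ} (hM : M = M' * q) (hq : q ≠ 0)
    (hcop : Nat.Coprime M' q) (h : charComp ε q ≠ 1) :
    Ram q (fun d : ℤ => ε ((d : ℤ) : ZMod M)) := by
  intro N' hN'
  obtain ⟨u, hu⟩ := MulChar.ne_one_iff.mp h
  obtain ⟨u₀, hu₀⟩ := ZMod.intCast_surjective (u : ZMod q)
  have hc : Nat.Coprime (N' * M') q := Nat.Coprime.mul_left hN' hcop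
  obtain ⟨d, hd1, hd2⟩ := exists_int_crt hc 1 u₀
  have hdq : ((d : ℤ) : ZMod q) = u := (intCast_zmod_eq_of_dvd hd2).trans hu₀
  have hN'd : (N' : ℤ) ∣ d - 1 := dvd_trans (Dvd.intro _ (by push_cast; rfl)) hd1
  have hM'd : (M' : ℤ) ∣ d - 1 := dvd_trans (Dvd.intro_left _ (by push_cast; rfl)) hd1
  refine ⟨d, hN'd, hdq ▸ u.isUnit, ?_⟩
  show ε ((d : ℤ) : ZMod M) ≠ 1
  rw [← charComp_spec hM hq hcop ε d hM'd, hdq]
  exact hu

theorem list_prod_map_pow {α : Type*} (L : List α) (f : α → ℂ) (n : ℕ) :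
    (L.map fun q => f q ^ n).prod = (L.map f).prod ^ n := by
  induction L with
  | nil => simp
  | cons q L ih => simp [mul_pow, ih]

open Classical in
/-- The ramified part of a list of primes. -/
noncomputable def ramList (Qs : List ℕ) : List ℕ :=
  Qs.filter fun q => decide (charComp ε q ≠ 1)

theorem mem_ramList {Qs : List ℕ} {q : ℕ} :
    q ∈ ramList ε Qs ↔ q ∈ Qs ∧ charComp ε q ≠ 1 := by
  classical
  simp [ramList, List.mem_filter]

theorem ramList_nodup {Qs : List ℕ} (h : Qs.Nodup) : (ramList ε Qs).Nodup := by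
  classical
  exact h.filter _

theorem ramList_prod_dvd (Qs : List ℕ) : (ramList ε Qs).prod ∣ Qs.prod := by
  classical
  exact List.Sublist.prod_dvd_prod List.filter_sublist

theorem prod_ramList (Qs : List ℕ) (hQs : ∀ q ∈ Qs, q ∣ M) (d : ℤ)
    (hd : IsUnit ((d : ℤ) : ZMod M)) :
    ((ramList ε Qs).map fun q => charComp ε q ((d : ℤ) : ZMod q)).prod =
      (Qs.map fun q => charComp ε q ((d : ℤ) : ZMod q)).prod := by
  classical
  induction Qs with
  | nil => rfl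
  | cons q Qs ih =>
    have ih' := ih fun q' hq' => hQs q' (List.mem_cons_of_mem _ hq')
    by_cases hq : charComp ε q ≠ 1
    · have : ramList ε (q :: Qs) = q :: ramList ε Qs := by
        simp [ramList, hq]
      rw [this, List.map_cons, List.prod_cons, List.map_cons, List.prod_cons, ih']
    · have : ramList ε (q :: Qs) = ramList ε Qs := by
        simp [ramList, hq]
      rw [this, List.map_cons, List.prod_cons, ih']
      rw [not_not] at hq
      obtain ⟨u, hu⟩ := isUnit_intCast_of_dvd (hQs q List.mem_cons_self) hd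
      rw [hq, ← hu, MulChar.one_apply_coe, one_mul]

/-- **The twisting characters.**  For a character `ε` of odd order dividing `2 m + 1` which
factors through `∏ Qs` (`Qs` distinct primes exactly dividing `M`): the ramified part `L` of `Qs`
and the characters `ψ_q = ε_q ^ m` (a square root of `ε_q⁻¹`). -/
theorem exists_psi (Qs : List ℕ) (hnd : Qs.Nodup)
    (hQs : ∀ q ∈ Qs, q.Prime ∧ ∃ M' : ℕ, M = M' * q ∧ Nat.Coprime M' q)
    (hper : ∀ a b : ℤ, IsUnit ((a : ℤ) : ZMod M) → IsUnit ((b : ℤ) : ZMod M) →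
      (∀ q ∈ Qs, (q : ℤ) ∣ a - b) → ε ((a : ℤ) : ZMod M) = ε ((b : ℤ) : ZMod M))
    (m : ℕ) (hm : ε ^ (2 * m + 1) = 1) :
    ∃ (L : List ℕ) (ψ : (q : ℕ) → DirichletCharacter ℂ q),
      L.Nodup ∧ (∀ q ∈ L, q ∈ Qs) ∧ L.prod ∣ Qs.prod ∧ (∀ q ∈ L, ψ q ≠ 1) ∧
      (∀ q ∈ L, Ram q (fun d : ℤ => ε ((d : ℤ) : ZMod M))) ∧
      (∀ d : ℤ, IsUnit ((d : ℤ) : ZMod M) →
        ε ((d : ℤ) : ZMod M) * (L.map fun q => ψ q ((d : ℤ) : ZMod q) ^ 2).prod = 1) ∧
      (∀ d : ℤ, IsUnit ((d : ℤ) : ZMod M) →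
        (L.map fun q => ψ q ((d : ℤ) : ZMod q)).prod = ε ((d : ℤ) : ZMod M) ^ m) := by
  have hdvd : ∀ q ∈ Qs, q ∣ M := fun q hq => by
    obtain ⟨-, M', hM, -⟩ := hQs q hq
    exact ⟨M', by rw [hM, mul_comm]⟩
  have hmem : ∀ q ∈ ramList ε Qs, q ∈ Qs := fun q hq => ((mem_ramList ε).mp hq).1
  -- values of `ψ`
  have hval : ∀ q ∈ Qs, ∀ d : ℤ, IsUnit ((d : ℤ) : ZMod M) →
      (charComp ε q ^ m) ((d : ℤ) : ZMod q) = charComp ε q ((d : ℤ) : ZMod q) ^ m := by
    intro q hq d hd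
    obtain ⟨u, hu⟩ := isUnit_intCast_of_dvd (hdvd q hq) hd
    rw [← hu, MulChar.pow_apply_coe]
  have hprod : ∀ d : ℤ, IsUnit ((d : ℤ) : ZMod M) →
      ((ramList ε Qs).map fun q => charComp ε q ((d : ℤ) : ZMod q)).prod =
        ε ((d : ℤ) : ZMod M) := fun d hd => by
    rw [prod_ramList ε Qs hdvd d hd, ← charComp_prod_eq ε Qs hnd hQs hper d hd]
  have hpow : ∀ d : ℤ, IsUnit ((d : ℤ) : ZMod M) →
      ε ((d : ℤ) : ZMod M) ^ (2 * m + 1) = 1 := by
    intro d hd
    obtain ⟨u, hu⟩ := hd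
    rw [← hu, ← MulChar.pow_apply_coe, hm, MulChar.one_apply_coe]
  refine ⟨ramList ε Qs, fun q => charComp ε q ^ m, ramList_nodup ε hnd, hmem,
    ramList_prod_dvd ε Qs, ?_, ?_, ?_, ?_⟩
  · intro q hq h1
    obtain ⟨hqQ, hne⟩ := (mem_ramList ε).mp hq
    obtain ⟨hqp, M', hM, hcop⟩ := hQs q hqQ
    apply hne
    have h1' : charComp ε q ^ m = 1 := h1
    have h2 := charComp_pow_eq_one ε hM hqp.ne_zero hcop (2 * m + 1) hm
    rw [pow_succ, pow_mul', h1', one_pow, one_mul] at h2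
    exact h2
  · intro q hq
    obtain ⟨hqQ, hne⟩ := (mem_ramList ε).mp hq
    obtain ⟨hqp, M', hM, hcop⟩ := hQs q hqQ
    exact ram_of_charComp_ne_one ε hM hqp.ne_zero hcop hne
  · intro d hd
    have h1 : ((ramList ε Qs).map fun q => (charComp ε q ^ m) ((d : ℤ) : ZMod q) ^ 2) =
        (ramList ε Qs).map fun q => charComp ε q ((d : ℤ) : ZMod q) ^ (2 * m) := by
      refine List.map_congr_left fun q hq => ?_
      rw [hval q (hmem q hq) d hd, ← pow_mul, mul_comm]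
    rw [h1, list_prod_map_pow, hprod d hd, ← pow_succ', hpow d hd]
  · intro d hd
    have h1 : ((ramList ε Qs).map fun q => (charComp ε q ^ m) ((d : ℤ) : ZMod q)) =
        (ramList ε Qs).map fun q => charComp ε q ((d : ℤ) : ZMod q) ^ m :=
      List.map_congr_left fun q hq => hval q (hmem q hq) d hd
    rw [h1, list_prod_map_pow, hprod d hd]

end Psi

end Fermat.Agent.S59.TW.H564
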