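import Fermat.Agent.S59.TW.H564.TwistChar
import Fermat.Agent.S48.H548.Chi0

/-!
# S59 / TW leaf E4 TWIST (helper564), part 6: the bundled twist embedding (shape for E5)

* `nebSub k M ε` : the nebentypus-`ε` subspace of `S_k(Γ₁(M))` (predicate `S48.H548.HasNeb`);
* `TpNeb ε ℓ hℓ` : the Hecke operator `S48.H548.TpL` restricted to `nebSub k M ε`;
* `exists_twistEmbedding` / `exists_twistEmbedding'` : for `ε` of odd order dividing `2 m + 1`
  factoring through `∏ Qs` (`Qs` distinct primes, `q ∥ M`) and `M · ∏ Qs ∣ M₂`, an INJECTIVE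
  linear map `j : nebSub k M ε → CuspForm (Gamma0 M₂) k` with
  `heckeTLin k _ _ (j f) = j (ε(ℓ) ^ m • TpNeb ε ℓ _ f)` for all primes `ℓ ∤ M₂`.
-/

set_option autoImplicit false
set_option linter.deprecated false
set_option linter.unusedSectionVars false

noncomputable section

namespace Fermat.Agent.S59.TW.H564

open Matrix Matrix.SpecialLinearGroup CongruenceSubgroup UpperHalfPlane ModularForm
open Fermat.Agent.Lib.Newform.H803
open scoped MatrixGroups ModularForm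

variable {k : ℤ} {M : ℕ} [NeZero M]

/-- The nebentypus-`ε` subspace of `S_k(Γ₁(M))`. -/
def nebSub (k : ℤ) (M : ℕ) [NeZero M] (ε : DirichletCharacter ℂ M) :
    Submodule ℂ (CuspForm (Gamma1 M) k) where
  carrier := {f | S48.H548.HasNeb (⇑ε) (⇑f) k}
  add_mem' := fun {f g} hf hg => by
    show S48.H548.HasNeb (⇑ε) (⇑(f + g)) k
    rw [CuspForm.coe_add]
    exact S48.H548.HasNeb.add hf hg
  zero_mem' := by
    show S48.H548.HasNeb (⇑ε) (⇑(0 : CuspForm (Gamma1 M) k)) k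
    rw [CuspForm.coe_zero]
    exact S48.H548.HasNeb.zero
  smul_mem' := fun c f hf => by
    show S48.H548.HasNeb (⇑ε) (⇑(c • f)) k
    rw [CuspForm.IsGLPos.coe_smul]
    exact S48.H548.HasNeb.smul c hf

theorem mem_nebSub {ε : DirichletCharacter ℂ M} {f : CuspForm (Gamma1 M) k} :
    f ∈ nebSub k M ε ↔ S48.H548.HasNeb (⇑ε) (⇑f) k := Iff.rfl

/-- `T_ℓ` on the nebentypus subspace. -/
def TpNeb (ε : DirichletCharacter ℂ M) (ℓ : ℕ) [Fact ℓ.Prime] (hℓ : ¬ ℓ ∣ M) :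
    nebSub k M ε →ₗ[ℂ] nebSub k M ε :=
  (S48.H548.TpL ℓ hℓ).restrict fun f hf => S48.H548.hasNeb_TpL hℓ f hf

@[simp] theorem coe_TpNeb (ε : DirichletCharacter ℂ M) (ℓ : ℕ) [Fact ℓ.Prime] (hℓ : ¬ ℓ ∣ M)
    (f : nebSub k M ε) :
    ((TpNeb ε ℓ hℓ f : nebSub k M ε) : CuspForm (Gamma1 M) k) = S48.H548.TpL ℓ hℓ f.1 := rfl

theorem isNeb_of_hasNeb {ε : DirichletCharacter ℂ M} {f : ℍ → ℂ}
    (hf : S48.H548.HasNeb (⇑ε) f k) :
    IsNeb k M (fun d : ℤ => ε ((d : ℤ) : ZMod M)) f := fun γ hγ => hf γ hγ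

theorem isCharMod_dirichlet (ε : DirichletCharacter ℂ M) :
    IsCharMod M (fun d : ℤ => ε ((d : ℤ) : ZMod M)) where
  one := by simp
  periodic := fun d d' h => by
    show ε _ = ε _
    rw [intCast_zmod_eq_of_dvd h]

/-- **E4 TWIST, bundled (the shape consumed by the assembly E5).**

Let `ε` be a Dirichlet character modulo `M` of odd order dividing `2 m + 1`, factoring through
`∏ Qs`, where `Qs` is a list of distinct primes with `q ∥ M`.  Then for every `M₂` divisible by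
`M · ∏ Qs` (e.g. `M = N Q`, `M₂ = N Q²`) there is an INJECTIVE linear map
`j : S_k(Γ₁(M))[ε] → S_k(Γ₀(M₂))` with `T_ℓ ∘ j = j ∘ (ε(ℓ)^m • T_ℓ)` for all primes `ℓ ∤ M₂`
(note `ε(ℓ)^m = ε(ℓ)^{-1/2}`). -/
theorem exists_twistEmbedding (k : ℤ) {M : ℕ} [NeZero M] (Qs : List ℕ) (hnd : Qs.Nodup)
    (hQs : ∀ q ∈ Qs, q.Prime ∧ ∃ M' : ℕ, M = M' * q ∧ Nat.Coprime M' q)
    (ε : DirichletCharacter ℂ M)
    (hper : ∀ a b : ℤ, IsUnit ((a : ℤ) : ZMod M) → IsUnit ((b : ℤ) : ZMod M) →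
      (∀ q ∈ Qs, (q : ℤ) ∣ a - b) → ε ((a : ℤ) : ZMod M) = ε ((b : ℤ) : ZMod M))
    (m : ℕ) (hm : ε ^ (2 * m + 1) = 1) (M₂ : ℕ) (hM₂ : M * Qs.prod ∣ M₂) :
    ∃ j : nebSub k M ε →ₗ[ℂ] CuspForm (Gamma0 M₂) k,
      Function.Injective j ∧
      ∀ (ℓ : ℕ) [Fact ℓ.Prime] (hℓ : ¬ ℓ ∣ M) (hℓ₂ : ¬ ℓ ∣ M₂) (f : nebSub k M ε),
        CuspForm.heckeTLin k (Fact.out : ℓ.Prime) hℓ₂ (j f) =
          j (ε ((ℓ : ℕ) : ZMod M) ^ m • TpNeb ε ℓ hℓ f) := by
  obtain ⟨L, ψ, hLnd, hLQ, hLprod, hψ, hram, hc, hd⟩ := exists_psi ε Qs hnd hQs hper m hm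
  have hχ : IsCharMod M (fun d : ℤ => ε ((d : ℤ) : ZMod M)) := isCharMod_dirichlet ε
  have hLM : ∀ q ∈ L, q ∣ M := fun q hq => by
    obtain ⟨-, M', hM, -⟩ := hQs q (hLQ q hq)
    exact ⟨M', by rw [hM, mul_comm]⟩
  have hL : ∀ q ∈ L, q ≠ 0 ∧ q ∣ M := fun q hq => ⟨(hQs q (hLQ q hq)).1.ne_zero, hLM q hq⟩
  have hMM₂ : M ∣ M₂ := (Dvd.intro _ rfl).trans hM₂
  have hΓ : Gamma0 M₂ ≤ Gamma0 (M * L.prod) := by
    intro γ hγ
    rw [mem_Gamma0_iff_dvd] at hγ ⊢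
    exact (Int.natCast_dvd_natCast.mpr ((Nat.mul_dvd_mul_left M hLprod).trans hM₂)).trans hγ
  have h1 : ∀ γ ∈ Gamma0 M₂, chiL ψ (fun d : ℤ => ε ((d : ℤ) : ZMod M)) L (γ 1 1) = 1 := by
    intro γ hγ
    rw [chiL_apply]
    exact hc _ (isUnit_cast_of_mem_Gamma0 hMM₂ hγ)
  let j : nebSub k M ε →ₗ[ℂ] CuspForm (Gamma0 M₂) k :=
    { toFun := fun f => twistLCuspForm (ψ := ψ) L hL hχ (⇑f.1) (isNeb_of_hasNeb f.2)
        (isCuspidal_of_cuspForm f.1) (Gamma0 M₂) hΓ h1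
      map_add' := fun f g => by
        apply DFunLike.coe_injective
        rw [CuspForm.coe_add, coe_twistLCuspForm, coe_twistLCuspForm, coe_twistLCuspForm]
        rw [Submodule.coe_add, CuspForm.coe_add, twistL_add]
      map_smul' := fun c f => by
        apply DFunLike.coe_injective
        rw [RingHom.id_apply, CuspForm.IsGLPos.coe_smul, coe_twistLCuspForm,
          coe_twistLCuspForm, Submodule.coe_smul, CuspForm.IsGLPos.coe_smul, twistL_smul] }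
  have hj : ∀ f : nebSub k M ε, (⇑(j f) : ℍ → ℂ) = twistL k ψ L ⇑f.1 := fun f => rfl
  refine ⟨j, ?_, ?_⟩
  · rw [injective_iff_map_eq_zero]
    intro f hf
    have h0 : twistL k ψ L ⇑f.1 = 0 := by
      rw [← hj f, hf, CuspForm.coe_zero]
    have := twistL_injective (ψ := ψ) L hLnd (fun q hq => hQs q (hLQ q hq)) hψ hχ hram
      (isNeb_of_hasNeb f.2) h0
    apply Subtype.ext
    apply DFunLike.coe_injective
    rw [this]
    rfl
  · intro ℓ _ hℓ hℓ₂ f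
    have hℓp : ℓ.Prime := Fact.out
    apply DFunLike.coe_injective
    rw [CuspForm.coe_heckeTLin_apply, hj, hj]
    have hunit : IsUnit (((ℓ : ℕ) : ℤ) : ZMod M) := by
      rw [Int.cast_natCast, ZMod.isUnit_iff_coprime]
      exact (Nat.Prime.coprime_iff_not_dvd hℓp).mpr hℓ
    have hLℓ : ∀ q ∈ L, q ≠ 0 ∧ IsUnit ((ℓ : ℕ) : ZMod q) := fun q hq => by
      refine ⟨(hL q hq).1, ?_⟩
      have := isUnit_intCast_of_dvd (hLM q hq) hunit
      rwa [Int.cast_natCast] at this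
    have hpsi : psiL ψ L ℓ = ε ((ℓ : ℕ) : ZMod M) ^ m := by
      have := hd (ℓ : ℤ) hunit
      simp only [Int.cast_natCast] at this
      exact this
    have hcc : ε ((ℓ : ℕ) : ZMod M) * psiL ψ L ℓ ^ 2 = 1 := by
      have h2 := hc (ℓ : ℤ) hunit
      simp only [Int.cast_natCast] at h2
      rw [list_prod_map_pow] at h2
      exact h2
    rw [heckeT_twistL' (ψ := ψ) L hℓp.ne_zero hLℓ ((isNeb_of_hasNeb f.2).isPer hχ) hcc, hpsi]
    rw [Submodule.coe_smul, CuspForm.IsGLPos.coe_smul, twistL_smul, coe_TpNeb,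
      S48.H548.coe_TpL_of_hasNeb hℓ f.1 f.2]


/-- A product of distinct primes, each dividing `z`, divides `z`. -/
theorem list_prod_dvd_of_primes (L : List ℕ) (hnd : L.Nodup) (hp : ∀ q ∈ L, q.Prime) (z : ℤ)
    (hz : ∀ q ∈ L, (q : ℤ) ∣ z) : ((L.prod : ℕ) : ℤ) ∣ z := by
  induction L with
  | nil => simp
  | cons q L ih =>
    have hqL : q ∉ L := (List.nodup_cons.mp hnd).1
    have h1 := ih (List.nodup_cons.mp hnd).2 (fun q' hq' => hp q' (List.mem_cons_of_mem _ hq'))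
      (fun q' hq' => hz q' (List.mem_cons_of_mem _ hq'))
    have hcop : Nat.Coprime q L.prod := by
      rw [Nat.coprime_list_prod_right_iff]
      intro q' hq'
      exact (Nat.coprime_primes (hp q List.mem_cons_self)
        (hp q' (List.mem_cons_of_mem _ hq'))).mpr fun h => hqL (h ▸ hq')
    rw [List.prod_cons, Nat.cast_mul]
    exact IsCoprime.mul_dvd (Nat.isCoprime_iff_coprime.mpr hcop) (hz q List.mem_cons_self) h1

/-- `ε` trivial on the units `≡ 1 mod ∏ Qs` implies `ε` periodic modulo the primes of `Qs` on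
units. -/
theorem periodic_of_trivial (Qs : List ℕ) (hnd : Qs.Nodup) (hQs : ∀ q ∈ Qs, q.Prime)
    (ε : DirichletCharacter ℂ M)
    (hε : ∀ d : ℤ, ((Qs.prod : ℕ) : ℤ) ∣ d - 1 → IsUnit ((d : ℤ) : ZMod M) →
      ε ((d : ℤ) : ZMod M) = 1)
    (a b : ℤ) (ha : IsUnit ((a : ℤ) : ZMod M)) (hb : IsUnit ((b : ℤ) : ZMod M))
    (hab : ∀ q ∈ Qs, (q : ℤ) ∣ a - b) :
    ε ((a : ℤ) : ZMod M) = ε ((b : ℤ) : ZMod M) := by
  have hQab := list_prod_dvd_of_primes Qs hnd hQs (a - b) hab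
  obtain ⟨u, hu⟩ := hb
  obtain ⟨b', hb'⟩ := ZMod.intCast_surjective ((u⁻¹ : (ZMod M)ˣ) : ZMod M)
  have hbb' : ((b * b' : ℤ) : ZMod M) = 1 := by
    rw [Int.cast_mul, hb', ← hu, Units.mul_inv]
  have hb'u : IsUnit ((b' : ℤ) : ZMod M) := hb' ▸ (u⁻¹).isUnit
  have hMbb' : (M : ℤ) ∣ b * b' - 1 := dvd_of_intCast_zmod_eq (by rw [hbb']; simp)
  -- the hypothesis applied to `a b' · (2 - b b')`-like corrections is avoided: use `ε` directly
  have hab'u : IsUnit (((a * b' : ℤ)) : ZMod M) := by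
    rw [Int.cast_mul]
    exact ha.mul hb'u
  -- `a b' ≡ 1` modulo `∏ Qs` up to a multiple of `M`: correct by `c := a b' - (b b' - 1)`
  have hc : (((a * b' - (b * b' - 1) : ℤ)) : ZMod M) = ((a * b' : ℤ) : ZMod M) := by
    apply intCast_zmod_eq_of_dvd
    have : a * b' - (b * b' - 1) - a * b' = -(b * b' - 1) := by ring
    rw [this]
    exact (dvd_neg).mpr hMbb'
  have h1 := hε (a * b' - (b * b' - 1)) (by
      have : a * b' - (b * b' - 1) - 1 = (a - b) * b' := by ring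
      rw [this]
      exact Dvd.dvd.mul_right hQab _) (by rw [hc]; exact hab'u)
  rw [hc, Int.cast_mul, map_mul] at h1
  have h2 : ε ((b : ℤ) : ZMod M) * ε ((b' : ℤ) : ZMod M) = 1 := by
    rw [← map_mul, ← Int.cast_mul, hbb', map_one]
  have hne : ε ((b' : ℤ) : ZMod M) ≠ 0 := (hb'u.map ε).ne_zero
  exact mul_right_cancel₀ hne (h1.trans h2.symm)

/-- `exists_twistEmbedding` with the hypothesis "`ε` is trivial on the units `≡ 1 mod ∏ Qs`". -/
theorem exists_twistEmbedding' (k : ℤ) {M : ℕ} [NeZero M] (Qs : List ℕ) (hnd : Qs.Nodup)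
    (hQs : ∀ q ∈ Qs, q.Prime ∧ ∃ M' : ℕ, M = M' * q ∧ Nat.Coprime M' q)
    (ε : DirichletCharacter ℂ M)
    (hε : ∀ d : ℤ, ((Qs.prod : ℕ) : ℤ) ∣ d - 1 → IsUnit ((d : ℤ) : ZMod M) →
      ε ((d : ℤ) : ZMod M) = 1)
    (m : ℕ) (hm : ε ^ (2 * m + 1) = 1) (M₂ : ℕ) (hM₂ : M * Qs.prod ∣ M₂) :
    ∃ j : nebSub k M ε →ₗ[ℂ] CuspForm (Gamma0 M₂) k,
      Function.Injective j ∧
      ∀ (ℓ : ℕ) [Fact ℓ.Prime] (hℓ : ¬ ℓ ∣ M) (hℓ₂ : ¬ ℓ ∣ M₂) (f : nebSub k M ε),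
        CuspForm.heckeTLin k (Fact.out : ℓ.Prime) hℓ₂ (j f) =
          j (ε ((ℓ : ℕ) : ZMod M) ^ m • TpNeb ε ℓ hℓ f) :=
  exists_twistEmbedding k Qs hnd hQs ε
    (periodic_of_trivial Qs hnd (fun q hq => (hQs q hq).1) ε hε) m hm M₂ hM₂

end Fermat.Agent.S59.TW.H564
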