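import Fermat.Agent.S59.TW.H564.LocActCore
import Fermat.Agent.S59.H7.HeckeLocalCore

/-!
# S59 / TW, leaf LOCACT (helper564): the action of `heckeLocal` on a localised module

The pure-algebra step of MOD0 / MODQ (`TW/Aut/Spec.lean`).  Let `𝕋 = heckeAlgebra N 2 S`,
`θ : 𝕋 →+* k` and `T = heckeLocal N S 𝒪 θ` (the Prelude ring), `V` a FINITE `𝒪`-module and
`Ψ : 𝕋 →+* End_𝒪 V` a ring homomorphism.

* `GenNil N S 𝒪 θ Ψ` : for every generator `t` of `𝕋` there is a lift `c ∈ 𝒪` of `θ t` with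
  `Ψ t - c` nilpotent modulo `𝔪` (`IsNilpotent (redEnd 𝒪 V (Ψ t - c))`, see
  `isNilpotent_redEnd_iff`);  `genNil_of_TU` : check it on the `T_ℓ` and `U_q`;
* `exists_heckeLocal_action` : **LOCACT**, `∃ a : T →ₐ[𝒪] End_𝒪 V, ∀ t, a (π t) = Ψ t`.
-/

set_option autoImplicit false
set_option synthInstance.maxHeartbeats 400000
set_option maxHeartbeats 1000000
set_option linter.unusedSectionVars false

noncomputable section

namespace Fermat.Agent.S59.TW.H564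

open CuspForm IsLocalRing
open scoped TensorProduct

variable (N : ℕ) [NeZero N] (S : Set ℕ)
variable (𝒪 : Type) [CommRing 𝒪] [IsDomain 𝒪] [IsDiscreteValuationRing 𝒪]
  [IsAdicComplete (IsLocalRing.maximalIdeal 𝒪) 𝒪]
variable (θ : heckeAlgebra N 2 S →+* IsLocalRing.ResidueField 𝒪)
variable [Fact (HasIntegralStructure N 2)]
variable {V : Type*} [AddCommGroup V] [Module 𝒪 V]
variable (Ψ : heckeAlgebra N 2 S →+* Module.End 𝒪 V)

/-- The generators of the Hecke algebra, as elements of the Hecke algebra. -/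
def genSet : Set ↥(heckeAlgebra N 2 S) :=
  {t | (t : Module.End ℂ (CuspForm (CongruenceSubgroup.Gamma0 N) 2)) ∈ heckeGenerators N 2 S}

omit [Fact (HasIntegralStructure N 2)] in
theorem closure_genSet : Subring.closure (genSet N S) = ⊤ := by
  rw [eq_top_iff]
  rintro ⟨T, hT⟩ -
  induction hT using Algebra.adjoin_induction with
  | mem T hT => exact Subring.subset_closure hT
  | algebraMap n =>
    have : (⟨algebraMap ℤ _ n, Subalgebra.algebraMap_mem _ n⟩ : ↥(heckeAlgebra N 2 S)) =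
        (n : ↥(heckeAlgebra N 2 S)) := by
      apply Subtype.ext
      simp
    rw [this]
    exact intCast_mem _ n
  | add x y hx hy ihx ihy => exact Subring.add_mem _ ihx ihy
  | mul x y hx hy ihx ihy => exact Subring.mul_mem _ ihx ihy

/-- The hypothesis on the generators: `Ψ T - c` is nilpotent modulo `𝔪`, for some lift `c` of
`θ T`. -/
def GenNil : Prop :=
  ∀ t ∈ genSet N S, ∃ c : 𝒪, residue 𝒪 c = θ t ∧
    IsNilpotent (redEnd 𝒪 V (Ψ t - algebraMap 𝒪 (Module.End 𝒪 V) c))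

variable {N S 𝒪 θ Ψ}

omit [Fact (HasIntegralStructure N 2)] in
/-- `GenNil` can be checked on the `T_ℓ` (`ℓ ∤ N`, `ℓ ∉ S`) and the `U_q` (`q ∣ N`, `q ∉ S`). -/
theorem genNil_of_TU
    (hT : ∀ (ℓ : ℕ) (hℓ : ℓ.Prime) (hℓN : ¬ ℓ ∣ N) (hℓS : ℓ ∉ S),
      ∃ c : 𝒪, residue 𝒪 c = θ (heckeAlgebra.T hℓ hℓN hℓS) ∧
        IsNilpotent (redEnd 𝒪 V (Ψ (heckeAlgebra.T hℓ hℓN hℓS) -
          algebraMap 𝒪 (Module.End 𝒪 V) c)))
    (hU : ∀ (q : ℕ) (hq : q.Prime) (hqN : q ∣ N) (hqS : q ∉ S),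
      ∃ c : 𝒪, residue 𝒪 c = θ (heckeAlgebra.U hq hqN hqS) ∧
        IsNilpotent (redEnd 𝒪 V (Ψ (heckeAlgebra.U hq hqN hqS) -
          algebraMap 𝒪 (Module.End 𝒪 V) c))) :
    GenNil N S 𝒪 θ Ψ := by
  rintro ⟨t, ht'⟩ ht
  rcases ht with ⟨ℓ, hℓ, hℓN, hℓS, rfl⟩ | ⟨q, hqN, hq, hqS, rfl⟩
  · exact hT ℓ hℓ hℓN hℓS
  · exact hU q hq hqN hqS

omit [Fact (HasIntegralStructure N 2)] in
theorem isUnit_actTensor_of_genNil [Module.Finite 𝒪 V] (hgen : GenNil N S 𝒪 θ Ψ)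
    (x : 𝒪 ⊗[ℤ] ↥(heckeAlgebra N 2 S)) (hx : x ∉ heckeCharKernel N S 𝒪 θ) :
    IsUnit (actTensor Ψ x) := by
  refine isUnit_actTensor (θ := θ) (residualCharacter N S 𝒪 θ).toRingHom
    (fun a t => residualCharacter_tmul N S 𝒪 θ a t)
    (resNil_of_closure (genSet N S) (closure_genSet N S)
      fun t ht => resNil_of_exists (hgen t ht)) x ?_
  intro h0
  exact hx ((mem_heckeCharKernel_iff N S 𝒪 θ x).mpr h0)

variable (N S 𝒪 θ Ψ)

/-- The action of the base algebra `𝒪 ⊗ heckeLatticeAlgebra`. -/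
def actBase : heckeBaseAlgebra N S 𝒪 →+* Module.End 𝒪 V :=
  (actTensor Ψ).toRingHom.comp (H7.latticeBaseChangeEquiv N S 𝒪).symm.toRingHom

theorem actBase_latticeBaseChange (x : 𝒪 ⊗[ℤ] ↥(heckeAlgebra N 2 S)) :
    actBase N S 𝒪 Ψ (latticeBaseChange N S 𝒪 x) = actTensor Ψ x := by
  change actTensor Ψ ((H7.latticeBaseChangeEquiv N S 𝒪).symm (latticeBaseChange N S 𝒪 x)) = _
  rw [H7.latticeBaseChangeEquiv_symm_apply]

variable {N S 𝒪 θ Ψ}

theorem ker_le_ker_actBase [Module.Finite 𝒪 V] (hgen : GenNil N S 𝒪 θ Ψ) :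
    RingHom.ker (algebraMap (heckeBaseAlgebra N S 𝒪) (heckeLocal N S 𝒪 θ)) ≤
      RingHom.ker (actBase N S 𝒪 Ψ) := by
  intro b hb
  rw [RingHom.mem_ker] at hb ⊢
  obtain ⟨m, hm⟩ := (IsLocalization.map_eq_zero_iff (heckeLocalSubmonoid N S 𝒪 θ)
    (heckeLocal N S 𝒪 θ) b).mp hb
  obtain ⟨m, x, hx, rfl⟩ := m
  have hu : IsUnit (actBase N S 𝒪 Ψ (latticeBaseChange N S 𝒪 x)) := by
    rw [actBase_latticeBaseChange]
    exact isUnit_actTensor_of_genNil hgen x (Ideal.mem_primeCompl_iff.mp hx)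
  have h0 : actBase N S 𝒪 Ψ (latticeBaseChange N S 𝒪 x) * actBase N S 𝒪 Ψ b = 0 := by
    rw [← map_mul]
    have : (latticeBaseChange N S 𝒪 x) * b = 0 := hm
    rw [this, map_zero]
  exact (hu.mul_right_eq_zero).mp h0

/-- **LOCACT.**  A ring homomorphism `Ψ : 𝕋 → End_𝒪 V` (`V` finite over `𝒪`) such that, on the
generators, `Ψ T ≡ θ T` modulo `𝔪` and nilpotents, extends to the localisation
`heckeLocal N S 𝒪 θ`. -/
theorem exists_heckeLocal_action [Module.Finite 𝒪 V] (hgen : GenNil N S 𝒪 θ Ψ) :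
    ∃ a : heckeLocal N S 𝒪 θ →ₐ[𝒪] Module.End 𝒪 V,
      ∀ t : ↥(heckeAlgebra N 2 S), a (heckeLocal.π N S 𝒪 θ t) = Ψ t := by
  let a₀ : heckeLocal N S 𝒪 θ →+* Module.End 𝒪 V :=
    (algebraMap (heckeBaseAlgebra N S 𝒪) (heckeLocal N S 𝒪 θ)).liftOfSurjective
      (H7.algebraMap_base_surjective N S 𝒪 θ) ⟨actBase N S 𝒪 Ψ, ker_le_ker_actBase hgen⟩
  have ha₀ : ∀ b : heckeBaseAlgebra N S 𝒪,
      a₀ (algebraMap (heckeBaseAlgebra N S 𝒪) (heckeLocal N S 𝒪 θ) b) = actBase N S 𝒪 Ψ b :=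
    fun b => RingHom.liftOfSurjective_comp_apply _ _ _ b
  refine ⟨{ a₀ with commutes' := fun c => ?_ }, fun t => ?_⟩
  · change a₀ (algebraMap 𝒪 (heckeLocal N S 𝒪 θ) c) = _
    rw [H7.algebraMap_eq, ha₀, actBase_latticeBaseChange, AlgHom.commutes]
  · change a₀ (heckeLocal.π N S 𝒪 θ t) = _
    rw [H7.π_eq, ha₀, actBase_latticeBaseChange, actTensor_one_tmul]

end Fermat.Agent.S59.TW.H564
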