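import Fermat.Agent.S59.TW.H564.GenNilCore
import Fermat.Agent.S59.TW.H564.LocAct
import Fermat.Agent.S59.TW.H324.CuspLocPart

/-!
# S59 / TW, leaf GENNIL + the generic local action (helper564)

`Γ₁(M) ≤ K ≤ Γ₀(M)`, `V ⊆ X_K(𝒪) = Hom(K, 𝒪)` a localisation (`Aut.IsLocPart`) whose eigen-system
contains the `(ℓ, c)`, `c` a lift of `θ(T_ℓ)`.  Let `Ψ : heckeAlgebra N' 2 S →+* End_𝒪 V` be a ring
homomorphism with `Ψ(T_ℓ) = ⟨u ℓ⟩ T_ℓ`, the diamond operators `⟨u ℓ⟩` being of `p`-power order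
(`p` odd, `p ∈ 𝔪_𝒪`).  Then

* `genNil_of_locPart` : `GenNil N' S 𝒪 θ Ψ` (`Ψ(T_ℓ) - c` is nilpotent modulo `𝔪_𝒪`);
* `exists_locAction` : `Ψ` extends to `heckeLocal N' S 𝒪 θ →ₐ[𝒪] End_𝒪 V`.

This is the algebra step common to MOD0 (`u = 1`) and MODQ (`u ℓ = ℓ^h`) of `TW/Aut/Spec.lean`.
-/

set_option autoImplicit false
set_option synthInstance.maxHeartbeats 400000
set_option maxHeartbeats 1000000
set_option linter.unusedSectionVars false
set_option linter.style.haveILetI false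
set_option maxSynthPendingDepth 3

noncomputable section

namespace Fermat.Agent.S59.TW.H564

open CuspForm IsLocalRing CongruenceSubgroup
open Fermat.Agent.S59.TW.H653 Fermat.Agent.S59.TW.Aut
open scoped MatrixGroups

section Abstract

variable {𝒪 : Type*} [CommRing 𝒪] [IsLocalRing 𝒪] {V : Type*} [AddCommGroup V] [Module 𝒪 V]

/-- `D T - c` is nilpotent modulo `𝔪` if `T - c` and `D - 1` are, `D` and `T` commuting. -/
theorem isNilpotent_redEnd_twist (D T : Module.End 𝒪 V) (c : 𝒪) (hDT : Commute D T)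
    (hT : IsNilpotent (redEnd 𝒪 V (T - algebraMap 𝒪 (Module.End 𝒪 V) c)))
    (hD : IsNilpotent (redEnd 𝒪 V (D - 1))) :
    IsNilpotent (redEnd 𝒪 V (D * T - algebraMap 𝒪 (Module.End 𝒪 V) c)) := by
  set C : Module.End 𝒪 V := algebraMap 𝒪 (Module.End 𝒪 V) c with hC
  have hCD : Commute C D := Algebra.commutes c D
  have hCT : Commute C T := Algebra.commutes c T
  have e : D * T - C = D * (T - C) + C * (D - 1) := by
    rw [mul_sub, mul_sub, mul_one, hCD.eq]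
    abel
  rw [e, map_add, map_mul, map_mul]
  have h1 : Commute D (T - C) := hDT.sub_right hCD.symm
  have h2 : Commute C (D - 1) := hCD.sub_right (Commute.one_right C)
  have hA : IsNilpotent (redEnd 𝒪 V D * redEnd 𝒪 V (T - C)) :=
    (h1.map (redEnd 𝒪 V)).isNilpotent_mul_left hT
  have hB : IsNilpotent (redEnd 𝒪 V C * redEnd 𝒪 V (D - 1)) :=
    (h2.map (redEnd 𝒪 V)).isNilpotent_mul_left hD
  refine Commute.isNilpotent_add ?_ hA hB
  have h3 : Commute (D * (T - C)) (C * (D - 1)) := by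
    have a1 : Commute D (D - 1) := (Commute.refl D).sub_right (Commute.one_right D)
    have a2 : Commute (T - C) C := hCT.symm.sub_left (Commute.refl C)
    have a3 : Commute (T - C) (D - 1) :=
      (hDT.symm.sub_left hCD).sub_right (Commute.one_right _)
    exact (hCD.symm.mul_right a1).mul_left (a2.mul_right a3)
  rw [← map_mul, ← map_mul]
  exact h3.map (redEnd 𝒪 V)

end Abstract

section Ops

variable {M : ℕ} {K : Subgroup SL(2, ℤ)} (hK : IsMid M K) (𝒪 : Type*) [CommRing 𝒪]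

/-- The diamond operator `⟨u⟩` as an `𝒪`-linear endomorphism of `Hom(K, 𝒪)`. -/
def diaLin (u : (ZMod M)ˣ) : Module.End 𝒪 (Additive K →+ 𝒪) where
  toFun := diamondU hK u
  map_add' := diamondU_add hK u
  map_smul' c φ := by
    have e : ∀ ψ : Additive K →+ 𝒪, c • ψ = (AddMonoidHom.mulLeft c).comp ψ := fun ψ => rfl
    simp only [RingHom.id_apply]
    rw [e, e, diamondU_comp]

@[simp] theorem diaLin_apply (u : (ZMod M)ˣ) (φ : Additive K →+ 𝒪) :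
    diaLin hK 𝒪 u φ = diamondU hK u φ := rfl

theorem diaLin_pow_apply [NeZero M] (u : (ZMod M)ˣ) (n : ℕ) (φ : Additive K →+ 𝒪) :
    (diaLin hK 𝒪 u ^ n) φ = diamondU hK (u ^ n) φ := by
  induction n generalizing φ with
  | zero => rw [pow_zero, pow_zero, diamondU_one]; rfl
  | succ n ih =>
    rw [pow_succ', pow_succ', Module.End.mul_apply, ih, diaLin_apply, ← diamondU_mul]

end Ops

section Main

variable {M : ℕ} [NeZero M] {K : Subgroup SL(2, ℤ)} (hK : IsMid M K)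
variable {𝒪 : Type} [CommRing 𝒪] [IsDomain 𝒪] [IsDiscreteValuationRing 𝒪]
  [IsAdicComplete (maximalIdeal 𝒪) 𝒪]
variable {N' : ℕ} [NeZero N'] {S : Set ℕ}
variable {θ : heckeAlgebra N' 2 S →+* ResidueField 𝒪}
variable {Tset Uset : Set (ℕ × 𝒪)} {V : Submodule 𝒪 (Additive K →+ 𝒪)}

/-- **GENNIL.**  On a localisation `V` of `X_K(𝒪)`, a ring homomorphism `Ψ` with
`Ψ(T_ℓ) = ⟨u ℓ⟩ T_ℓ` (diamond operators of `p`-power order) satisfies the hypothesis `GenNil` of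
LOCACT. -/
theorem genNil_of_locPart {p : ℕ} (hp : p.Prime) (hp2 : p ≠ 2)
    (hp𝒪 : (p : 𝒪) ∈ maximalIdeal 𝒪) (hMN : M ∣ N')
    (hS : ∀ q : ℕ, q.Prime → q ∣ N' → q ∈ S)
    (hV : IsLocPart hK Tset Uset V)
    (hT : ∀ (ℓ : ℕ) (hℓ : ℓ.Prime) (hℓN : ¬ ℓ ∣ N') (hℓS : ℓ ∉ S) (c : 𝒪),
      residue 𝒪 c = θ (heckeAlgebra.T hℓ hℓN hℓS) → (ℓ, c) ∈ Tset)
    (u : ℕ → (ZMod M)ˣ) (k : ℕ)
    (hu : ∀ (ℓ : ℕ) (x : Additive K →+ 𝒪), diamondU hK (u ℓ ^ p ^ k) x = x)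
    (Ψ : heckeAlgebra N' 2 S →+* Module.End 𝒪 V)
    (hΨ : ∀ (ℓ : ℕ) [Fact ℓ.Prime] (hℓN : ¬ ℓ ∣ N') (hℓS : ℓ ∉ S) (v : V),
      ((Ψ (heckeAlgebra.T (Fact.out : ℓ.Prime) hℓN hℓS) v : V) : Additive K →+ 𝒪) =
        diamondU hK (u ℓ) (TK M K ℓ (v : Additive K →+ 𝒪))) :
    GenNil (V := ↥V) N' S 𝒪 θ Ψ := by
  obtain ⟨e, -, he1, he2, heT, -, heD, -⟩ := hV.exists_proj
  refine genNil_of_TU ?_ ?_
  · intro ℓ hℓ hℓN hℓS
    haveI : Fact ℓ.Prime := ⟨hℓ⟩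
    have hℓM : ¬ ℓ ∣ M := fun h => hℓN (h.trans hMN)
    obtain ⟨c, hc⟩ := residue_surjective (θ (heckeAlgebra.T hℓ hℓN hℓS))
    refine ⟨c, hc, ?_⟩
    obtain ⟨m, hm⟩ := hV.nilp_T ℓ c (hT ℓ hℓ hℓN hℓS c hc)
    -- stability of `V`
    have hstT : ∀ v ∈ V, H324.TKLin hK 𝒪 hℓM v ∈ V := by
      intro v hv
      have : H324.TKLin hK 𝒪 hℓM v = e (TK M K ℓ v) := by
        rw [heT ℓ hℓM, he2 v hv]
        rfl
      rw [this]
      exact he1 _
    have hstD : ∀ v ∈ V, diaLin hK 𝒪 (u ℓ) v ∈ V := by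
      intro v hv
      have : diaLin hK 𝒪 (u ℓ) v = e (diamondU hK (u ℓ) v) := by
        rw [heD, he2 v hv]
        rfl
      rw [this]
      exact he1 _
    set TV : Module.End 𝒪 V := resEnd V (H324.TKLin hK 𝒪 hℓM) hstT with hTV
    set DV : Module.End 𝒪 V := resEnd V (diaLin hK 𝒪 (u ℓ)) hstD with hDV
    have hΨeq : Ψ (heckeAlgebra.T hℓ hℓN hℓS) = DV * TV := by
      refine LinearMap.ext fun v => Subtype.ext ?_
      rw [hΨ ℓ hℓN hℓS v]
      rfl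
    have hcomm : Commute DV TV := by
      change DV * TV = TV * DV
      refine LinearMap.ext fun v => Subtype.ext ?_
      change diamondU hK (u ℓ) (TK M K ℓ (v : Additive K →+ 𝒪)) =
        TK M K ℓ (diamondU hK (u ℓ) (v : Additive K →+ 𝒪))
      rw [diamondU_TK hK hℓM]
    -- `T - c`
    have hstTc : ∀ v ∈ V, (H324.TKLin hK 𝒪 hℓM -
        algebraMap 𝒪 (Module.End 𝒪 (Additive K →+ 𝒪)) c) v ∈ V := by
      intro v hv
      exact V.sub_mem (hstT v hv) (V.smul_mem c hv)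
    have hnT : IsNilpotent (redEnd 𝒪 V (TV - algebraMap 𝒪 (Module.End 𝒪 V) c)) := by
      have h1 : TV - algebraMap 𝒪 (Module.End 𝒪 V) c =
          resEnd V (H324.TKLin hK 𝒪 hℓM -
            algebraMap 𝒪 (Module.End 𝒪 (Additive K →+ 𝒪)) c) hstTc := by
        refine LinearMap.ext fun v => Subtype.ext ?_
        rfl
      rw [h1]
      refine isNilpotent_redEnd_resEnd V e he1 he2 _ hstTc m fun v hv => ?_
      rw [Module.End.pow_apply]
      exact hm v hv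
    -- `D - 1`
    have hnD : IsNilpotent (redEnd 𝒪 V (DV - 1)) := by
      refine isNilpotent_redEnd_sub_one hp hp2 hp𝒪 DV k ?_
      refine LinearMap.ext fun v => Subtype.ext ?_
      rw [resEnd_pow_apply, diaLin_pow_apply, hu]
      rfl
    rw [hΨeq]
    exact isNilpotent_redEnd_twist DV TV c hcomm hnT hnD
  · intro q hq hqN hqS
    exact absurd (hS q hq hqN) hqS

/-- **The generic local action** (GENNIL + LOCACT): the ring homomorphism `Ψ` extends to the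
localisation `heckeLocal N' S 𝒪 θ`. -/
theorem exists_locAction [Fact (HasIntegralStructure N' 2)] {p : ℕ} (hp : p.Prime) (hp2 : p ≠ 2)
    (hp𝒪 : (p : 𝒪) ∈ maximalIdeal 𝒪) (hMN : M ∣ N')
    (hS : ∀ q : ℕ, q.Prime → q ∣ N' → q ∈ S)
    (hV : IsLocPart hK Tset Uset V)
    (hT : ∀ (ℓ : ℕ) (hℓ : ℓ.Prime) (hℓN : ¬ ℓ ∣ N') (hℓS : ℓ ∉ S) (c : 𝒪),
      residue 𝒪 c = θ (heckeAlgebra.T hℓ hℓN hℓS) → (ℓ, c) ∈ Tset)
    (u : ℕ → (ZMod M)ˣ) (k : ℕ)
    (hu : ∀ (ℓ : ℕ) (x : Additive K →+ 𝒪), diamondU hK (u ℓ ^ p ^ k) x = x)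
    (Ψ : heckeAlgebra N' 2 S →+* Module.End 𝒪 V)
    (hΨ : ∀ (ℓ : ℕ) [Fact ℓ.Prime] (hℓN : ¬ ℓ ∣ N') (hℓS : ℓ ∉ S) (v : V),
      ((Ψ (heckeAlgebra.T (Fact.out : ℓ.Prime) hℓN hℓS) v : V) : Additive K →+ 𝒪) =
        diamondU hK (u ℓ) (TK M K ℓ (v : Additive K →+ 𝒪))) :
    ∃ a : heckeLocal N' S 𝒪 θ →ₐ[𝒪] Module.End 𝒪 V,
      ∀ t : ↥(heckeAlgebra N' 2 S), a (heckeLocal.π N' S 𝒪 θ t) = Ψ t := by
  have hfin : Module.Finite 𝒪 (Additive K →+ 𝒪) := H324.finite_hom hK 𝒪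
  have hnoe : IsNoetherian 𝒪 (Additive K →+ 𝒪) := isNoetherian_of_isNoetherianRing_of_finite _ _
  have hfinV : Module.Finite 𝒪 V := Module.Finite.iff_fg.mpr (IsNoetherian.noetherian V)
  exact exists_heckeLocal_action (genNil_of_locPart hK hp hp2 hp𝒪 hMN hS hV hT u k hu Ψ hΨ)

end Main

end Fermat.Agent.S59.TW.H564
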