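import Fermat.Agent.S59.TW.H324.CuspLocPart
import Fermat.Agent.S59.H424.NEPrimeK
import Fermat.Agent.S59.H155.RFD

/-!
# S59 / TW, piece PAR of MOD0 / MODQ (helper564): the localisation at a package is parabolic

`P` a Hecke package of type `(Smin, Σ)` (`TW/H959/Iface.lean`), `Γ₁(M) ≤ K ≤ Γ₀(M)`,
`V ⊆ X_K(𝒪) = Hom(K, 𝒪)` a localisation (`Aut.IsLocPart`) at an eigen-system containing
`TsetOf P`.  Then every class in `V` is parabolic (`isParabolic_of_pkg`), in fact cuspidal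
(`isCuspidal_of_pkg`).

Glue of: RFD (`H155.resFrobOfDatum`: `θ(T_ℓ) = tr ρ̄(Frob_ℓ)`), the non-Eisenstein prime
(`H424.nePrimeK_h424`: a prime `ℓ ∉ Σ`, `ℓ ≡ 1` mod `M`, `tr ρ̄(Frob_ℓ) ≠ ℓ + 1`) and CUSP-LOC
(`H324.isLocPart_cuspidal'`).
-/

set_option autoImplicit false
set_option linter.unusedSectionVars false
set_option linter.style.haveILetI false

noncomputable section

namespace Fermat.Agent.S59.TW.H564

open CuspForm IsLocalRing CongruenceSubgroup Polynomial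
open Fermat.Agent.S59.Arch Fermat.Agent.S59.TW.H959
open Fermat.Agent.S59.TW.H653 Fermat.Agent.S59.TW.Aut
open scoped MatrixGroups

variable {p : ℕ} [Fact p.Prime]
  {𝒪 : Type} [CommRing 𝒪] [IsDomain 𝒪] [IsDiscreteValuationRing 𝒪]
  [IsAdicComplete (maximalIdeal 𝒪) 𝒪] [Finite (ResidueField 𝒪)] [CharZero 𝒪]
  {ρbar : ResidualGaloisRep (ResidueField 𝒪)} {Smin : Finset ℕ} {t : PType} {Sig : Finset ℕ}
  [NeZero (wilesLevel p t Smin Sig)]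

/-- **The non-Eisenstein prime of a package**: a prime `ℓ ∉ Σ`, `ℓ ∤ N_Σ`, `ℓ ≡ 1` modulo `m`,
with `θ(T_ℓ) ≠ ℓ + 1`. -/
theorem exists_nePrime_of_pkg (hRH : ResidualHyp p 𝒪 ρbar Smin) (hpSig : p ∈ Sig)
    (P : HeckePkg p 𝒪 ρbar t Smin Sig)
    (hNS : ∀ q : ℕ, q.Prime → q ∣ wilesLevel p t Smin Sig → q ∈ Sig)
    (m : ℕ) (hm : 0 < m) :
    ∃ (ℓ : ℕ) (hℓ : ℓ.Prime) (hℓN : ¬ ℓ ∣ wilesLevel p t Smin Sig)
      (hℓS : ℓ ∉ (↑Sig : Set ℕ)), ℓ ≡ 1 [MOD m] ∧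
        P.θ (heckeAlgebra.T hℓ hℓN hℓS) ≠ (ℓ : ResidueField 𝒪) + 1 := by
  classical
  have hp : p.Prime := Fact.out
  haveI : CharP (ResidueField 𝒪) p := by
    rw [CharP.charP_iff_prime_eq_zero hp]
    have : residue 𝒪 (p : 𝒪) = 0 := (residue_eq_zero_iff _).mpr hRH.hp𝒪
    rwa [map_natCast] at this
  have hθ : G4.ResFrobCond ρbar P.θ :=
    H155.resFrobOfDatum (wilesLevel p t Smin Sig) (↑Sig : Set ℕ) 𝒪 ρbar P.θ P.T P.H P.hres
  -- the Frobenius traces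
  let a : ℕ → ResidueField 𝒪 := fun l =>
    if h : l.Prime ∧ ¬ l ∣ wilesLevel p t Smin Sig ∧ l ∉ (↑Sig : Set ℕ) then
      P.θ (heckeAlgebra.T h.1 h.2.1 h.2.2) else 0
  have ha' : ∀ (l : ℕ) (hl : l.Prime) (hlN : ¬ l ∣ wilesLevel p t Smin Sig)
      (hlS : l ∉ (↑Sig : Set ℕ)), a l = P.θ (heckeAlgebra.T hl hlN hlS) := by
    intro l hl hlN hlS
    exact dif_pos ⟨hl, hlN, hlS⟩
  have hgood : ∀ l : ℕ, l.Prime → l ∉ Sig → ¬ l ∣ wilesLevel p t Smin Sig :=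
    fun l hl hlS hd => hlS (hNS l hl hd)
  have h2p : (2 : ℕ) ≠ p := fun h => hRH.hp2 h.symm
  obtain ⟨l, hl, hlS, -, hl1, -, hal, -⟩ :=
    H424.nePrimeK_h424 p hRH.hp2 (ResidueField 𝒪) ρbar hRH.habs hRH.hsplit Sig hpSig a
      (fun l hl hlS B hB σ hσ => by
        have hlS' : l ∉ (↑Sig : Set ℕ) := fun h => hlS (Finset.mem_coe.mp h)
        rw [ha' l hl (hgood l hl hlS) hlS']
        exact hθ l hl (hgood l hl hlS) hlS' B hB σ hσ)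
      2 Nat.prime_two h2p m hm ∅
  have hlS' : l ∉ (↑Sig : Set ℕ) := fun h => hlS (Finset.mem_coe.mp h)
  refine ⟨l, hl, hgood l hl hlS, hlS', hl1, ?_⟩
  rw [← ha' l hl (hgood l hl hlS) hlS']
  exact hal

variable {M : ℕ} [NeZero M] {K : Subgroup SL(2, ℤ)}

/-- **PAR (cuspidal form).**  The localisation of `X_K(𝒪)` at a package consists of cuspidal
classes. -/
theorem isCuspidal_of_pkg (hRH : ResidualHyp p 𝒪 ρbar Smin) (hpSig : p ∈ Sig)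
    (P : HeckePkg p 𝒪 ρbar t Smin Sig)
    (hNS : ∀ q : ℕ, q.Prime → q ∣ wilesLevel p t Smin Sig → q ∈ Sig)
    (hK : IsMid M K) (hMN : M ∣ wilesLevel p t Smin Sig)
    {Uset : Set (ℕ × 𝒪)} {V : Submodule 𝒪 (Additive K →+ 𝒪)}
    (hV : IsLocPart hK (TsetOf P) Uset V) :
    ∀ v ∈ V, IsCuspidalK v := by
  obtain ⟨ℓ, hℓ, hℓN, hℓS, hℓ1, hne⟩ :=
    exists_nePrime_of_pkg hRH hpSig P hNS M (Nat.pos_of_ne_zero (NeZero.ne M))
  haveI : Fact ℓ.Prime := ⟨hℓ⟩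
  obtain ⟨c, hc⟩ := residue_surjective (P.θ (heckeAlgebra.T hℓ hℓN hℓS))
  have hmem : (ℓ, c) ∈ TsetOf P := ⟨hℓ, hℓN, hℓS, hc⟩
  have hunit : IsUnit (c - ((ℓ : 𝒪) + 1)) := by
    rw [← IsLocalRing.notMem_maximalIdeal, ← residue_eq_zero_iff, map_sub, map_add, map_one,
      map_natCast, hc, sub_eq_zero]
    exact hne
  exact H324.isLocPart_cuspidal' hK hV (fun h => hℓN (h.trans hMN)) hℓ1 hmem hunit

/-- **PAR.**  The localisation of `X_K(𝒪)` at a package consists of parabolic classes. -/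
theorem isParabolic_of_pkg (hRH : ResidualHyp p 𝒪 ρbar Smin) (hpSig : p ∈ Sig)
    (P : HeckePkg p 𝒪 ρbar t Smin Sig)
    (hNS : ∀ q : ℕ, q.Prime → q ∣ wilesLevel p t Smin Sig → q ∈ Sig)
    (hK : IsMid M K) (hMN : M ∣ wilesLevel p t Smin Sig)
    {Uset : Set (ℕ × 𝒪)} {V : Submodule 𝒪 (Additive K →+ 𝒪)}
    (hV : IsLocPart hK (TsetOf P) Uset V) :
    ∀ v ∈ V, ModularCurve.Period.IsParabolicHom K v :=
  fun v hv => (isCuspidal_of_pkg hRH hpSig P hNS hK hMN hV v hv).1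

end Fermat.Agent.S59.TW.H564
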