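import Fermat.Agent.S59.TW.H564.TwistBundle
import Fermat.Agent.S48.H548.Comm

/-!
# S59 / TW leaf E3 NEB (helper564): nebentypus decomposition at the level of forms

For `K : Subgroup SL(2, ℤ)` with `Γ₁(M) ≤ K ≤ Γ₀(M)` (e.g. `K = H653.GammaH M H`):

* `resG1 hge : CuspForm K k →ₗ[ℂ] CuspForm (Gamma1 M) k` (restriction; injective);
* `nebK k K ε : Submodule ℂ (CuspForm K k)` : the forms on `K` with nebentypus `ε`;
* `TrivOn K ε` : `ε(d_γ) = 1` for `γ ∈ K`;  `liftK` : `nebSub k M ε → CuspForm K k`;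
* `neProj_resG1_eq_zero` : the `ε`-component of a form on `K` vanishes unless `TrivOn K ε`;
* `exists_neb_decomp` : **E3**, `f = ∑_ε c_ε`, `c_ε ∈ nebK k K ε`, `c_ε = 0` unless `TrivOn K ε`;
* `exists_twistEmbeddingK` : **E3 + E4**, an injective `J : nebK k K ε →ₗ[ℂ] CuspForm (Gamma0 M₂) k`
  with `T_ℓ (J f) = J g` whenever `g = ε(ℓ)^m • (U_ℓ f + ε(ℓ) • f ∣ diag(ℓ, 1))` as functions.
-/

set_option autoImplicit false
set_option linter.deprecated false
set_option linter.unusedSectionVars false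

noncomputable section

namespace Fermat.Agent.S59.TW.H564

open Matrix Matrix.SpecialLinearGroup CongruenceSubgroup UpperHalfPlane ModularForm
open Fermat.Agent.Lib.Newform.H803
open scoped MatrixGroups ModularForm

variable {k : ℤ} {M : ℕ} [NeZero M] {K : Subgroup SL(2, ℤ)}

theorem finiteIndex_of_Gamma1_le (hge : Gamma1 M ≤ K) : K.FiniteIndex :=
  Subgroup.finiteIndex_of_le hge

theorem isCuspidal_coe_of_le (hge : Gamma1 M ≤ K) (f : CuspForm K k) :
    IsCuspidal k (⇑f : ℍ → ℂ) := by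
  have : K.FiniteIndex := finiteIndex_of_Gamma1_le hge
  exact isCuspidal_of_cuspForm f

/-- Restriction of cusp forms from `K ⊇ Γ₁(M)` to `Γ₁(M)`. -/
def resG1 (hge : Gamma1 M ≤ K) : CuspForm K k →ₗ[ℂ] CuspForm (Gamma1 M) k where
  toFun f := cuspFormOfIsCuspidal (Gamma1 M) ⇑f (isCuspidal_coe_of_le hge f)
    (fun γ hγ => slInv_of_cuspForm f γ (hge hγ))
  map_add' f g := by
    apply DFunLike.coe_injective
    show (⇑(f + g) : ℍ → ℂ) = ⇑f + ⇑g
    exact CuspForm.coe_add f g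
  map_smul' c f := by
    apply DFunLike.coe_injective
    show (⇑(c • f) : ℍ → ℂ) = c • ⇑f
    rw [CuspForm.IsGLPos.coe_smul]

@[simp] theorem coe_resG1 (hge : Gamma1 M ≤ K) (f : CuspForm K k) :
    (⇑(resG1 hge f) : ℍ → ℂ) = ⇑f := rfl

theorem resG1_injective (hge : Gamma1 M ≤ K) :
    Function.Injective (resG1 (k := k) hge) := fun f g h => by
  apply DFunLike.coe_injective
  rw [← coe_resG1 hge f, h, coe_resG1]

/-- The nebentypus-`ε` subspace of `S_k(K)`. -/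
def nebK (k : ℤ) {M : ℕ} [NeZero M] (K : Subgroup SL(2, ℤ)) (ε : DirichletCharacter ℂ M) :
    Submodule ℂ (CuspForm K k) where
  carrier := {f | S48.H548.HasNeb (⇑ε) (⇑f) k}
  add_mem' := fun {f g} hf hg => by
    show S48.H548.HasNeb (⇑ε) (⇑(f + g)) k
    rw [CuspForm.coe_add]
    exact S48.H548.HasNeb.add hf hg
  zero_mem' := by
    show S48.H548.HasNeb (⇑ε) (⇑(0 : CuspForm K k)) k
    rw [CuspForm.coe_zero]
    exact S48.H548.HasNeb.zero
  smul_mem' := fun c f hf => by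
    show S48.H548.HasNeb (⇑ε) (⇑(c • f)) k
    rw [CuspForm.IsGLPos.coe_smul]
    exact S48.H548.HasNeb.smul c hf

theorem mem_nebK {ε : DirichletCharacter ℂ M} {f : CuspForm K k} :
    f ∈ nebK k K ε ↔ S48.H548.HasNeb (⇑ε) (⇑f) k := Iff.rfl

/-- `ε` is trivial on `K` (through `γ ↦ d_γ mod M`). -/
def TrivOn (K : Subgroup SL(2, ℤ)) (ε : DirichletCharacter ℂ M) : Prop :=
  ∀ γ ∈ K, ε (((γ 1 1 : ℤ)) : ZMod M) = 1

/-- A form on `Γ₁(M)` with nebentypus `ε` trivial on `K ≤ Γ₀(M)` is a form on `K`. -/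
def liftK (hle : K ≤ Gamma0 M) {ε : DirichletCharacter ℂ M} (hε : TrivOn K ε) :
    nebSub k M ε →ₗ[ℂ] CuspForm K k where
  toFun g := cuspFormOfIsCuspidal K ⇑g.1 (isCuspidal_of_cuspForm g.1)
    (fun γ hγ => by
      rw [sl_slash_mapGL, g.2 γ (hle hγ), hε γ hγ, one_smul])
  map_add' f g := by
    apply DFunLike.coe_injective
    show (⇑(f + g).1 : ℍ → ℂ) = ⇑f.1 + ⇑g.1
    rw [Submodule.coe_add, CuspForm.coe_add]
  map_smul' c f := by
    apply DFunLike.coe_injective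
    show (⇑(c • f).1 : ℍ → ℂ) = c • ⇑f.1
    rw [Submodule.coe_smul, CuspForm.IsGLPos.coe_smul]

@[simp] theorem coe_liftK (hle : K ≤ Gamma0 M) {ε : DirichletCharacter ℂ M} (hε : TrivOn K ε)
    (g : nebSub k M ε) : (⇑(liftK hle hε g) : ℍ → ℂ) = ⇑g.1 := rfl

theorem liftK_mem (hle : K ≤ Gamma0 M) {ε : DirichletCharacter ℂ M} (hε : TrivOn K ε)
    (g : nebSub k M ε) : liftK hle hε g ∈ nebK k K ε := g.2

/-- `neProj ε` kills the restriction of a form on `K` unless `ε` is trivial on `K`. -/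
theorem neProj_resG1_eq_zero (hge : Gamma1 M ≤ K) (hle : K ≤ Gamma0 M)
    (ε : DirichletCharacter ℂ M) (hε : ¬ TrivOn K ε) (f : CuspForm K k) :
    S48.H548.neProj ε (resG1 hge f) = 0 := by
  obtain ⟨γ, hγ, hne⟩ : ∃ γ ∈ K, ε (((γ 1 1 : ℤ)) : ZMod M) ≠ 1 := by
    by_contra h
    exact hε fun γ hγ => by_contra fun hne => h ⟨γ, hγ, hne⟩
  have h1 : S48.H548.diaL γ (hle hγ) (resG1 hge f) = resG1 hge f := by
    apply DFunLike.coe_injective
    rw [S48.H548.coe_diaL, coe_resG1, ← sl_slash_mapGL]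
    exact slInv_of_cuspForm f γ hγ
  have h2 : S48.H548.diaL γ (hle hγ) (S48.H548.neProj ε (resG1 hge f)) =
      S48.H548.neProj ε (S48.H548.diaL γ (hle hγ) (resG1 hge f)) := by
    rw [S48.H548.neProj_apply, S48.H548.neProj_apply, map_smul, map_sum]
    congr 1
    refine Finset.sum_congr rfl fun d _ => ?_
    rw [map_smul]
    congr 1
    exact (S48.H548.diaL_comm γ _ (hle hγ) (S48.H548.diaRep_mem d) (resG1 hge f)).symm
  rw [h1, S48.H548.diaL_neProj] at h2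
  have h3 : (ε (((γ 1 1 : ℤ)) : ZMod M) - 1) • S48.H548.neProj ε (resG1 hge f) = 0 := by
    rw [sub_smul, one_smul, h2, sub_self]
  rcases smul_eq_zero.mp h3 with h | h
  · exact absurd (sub_eq_zero.mp h) hne
  · exact h

/-- **E3 NEB.**  Every cusp form on `K` (`Γ₁(M) ≤ K ≤ Γ₀(M)`) is the sum of its nebentypus
components, over the characters `ε` trivial on `K`. -/
theorem exists_neb_decomp (hge : Gamma1 M ≤ K) (hle : K ≤ Gamma0 M) (f : CuspForm K k) :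
    ∃ c : DirichletCharacter ℂ M → CuspForm K k,
      (∀ ε, c ε ∈ nebK k K ε) ∧ (∀ ε, ¬ TrivOn K ε → c ε = 0) ∧ ∑ ε, c ε = f := by
  classical
  refine ⟨fun ε => if h : TrivOn K ε then
      liftK hle h ⟨S48.H548.neProj ε (resG1 hge f), S48.H548.hasNeb_neProj ε _⟩ else 0,
    fun ε => ?_, fun ε h => ?_, ?_⟩
  · by_cases h : TrivOn K ε
    · simp only [dif_pos h]
      exact liftK_mem hle h _
    · simp only [dif_neg h]
      exact Submodule.zero_mem _
  · simp only [dif_neg h]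
  · apply resG1_injective hge
    rw [map_sum]
    conv_rhs => rw [← S48.H548.sum_neProj (resG1 hge f)]
    refine Finset.sum_congr rfl fun ε _ => ?_
    by_cases h : TrivOn K ε
    · simp only [dif_pos h]
      apply DFunLike.coe_injective
      rw [coe_resG1, coe_liftK]
    · simp only [dif_neg h, map_zero]
      exact (neProj_resG1_eq_zero hge hle ε h f).symm


/-- Restriction `nebK k K ε → nebSub k M ε`. -/
def resNeb (hge : Gamma1 M ≤ K) (ε : DirichletCharacter ℂ M) :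
    nebK k K ε →ₗ[ℂ] nebSub k M ε :=
  LinearMap.codRestrict (nebSub k M ε) ((resG1 hge).domRestrict (nebK k K ε)) fun f => f.2

@[simp] theorem coe_resNeb (hge : Gamma1 M ≤ K) (ε : DirichletCharacter ℂ M)
    (f : nebK k K ε) : (⇑(resNeb hge ε f).1 : ℍ → ℂ) = ⇑f.1 := rfl

theorem resNeb_injective (hge : Gamma1 M ≤ K) (ε : DirichletCharacter ℂ M) :
    Function.Injective (resNeb (k := k) hge ε) := fun f g h => by
  apply Subtype.ext
  apply DFunLike.coe_injective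
  rw [← coe_resNeb hge ε f, h, coe_resNeb]

/-- **E3 + E4.**  The twist embedding on the nebentypus-`ε` part of `S_k(K)`. -/
theorem exists_twistEmbeddingK (k : ℤ) {M : ℕ} [NeZero M] {K : Subgroup SL(2, ℤ)}
    (hge : Gamma1 M ≤ K) (Qs : List ℕ) (hnd : Qs.Nodup)
    (hQs : ∀ q ∈ Qs, q.Prime ∧ ∃ M' : ℕ, M = M' * q ∧ Nat.Coprime M' q)
    (ε : DirichletCharacter ℂ M)
    (hε : ∀ d : ℤ, ((Qs.prod : ℕ) : ℤ) ∣ d - 1 → IsUnit ((d : ℤ) : ZMod M) →
      ε ((d : ℤ) : ZMod M) = 1)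
    (m : ℕ) (hm : ε ^ (2 * m + 1) = 1) (M₂ : ℕ) (hM₂ : M * Qs.prod ∣ M₂) :
    ∃ J : nebK k K ε →ₗ[ℂ] CuspForm (Gamma0 M₂) k,
      Function.Injective J ∧
      ∀ (ℓ : ℕ) [Fact ℓ.Prime] (_ : ¬ ℓ ∣ M) (hℓ₂ : ¬ ℓ ∣ M₂) (f g : nebK k K ε),
        (⇑g.1 : ℍ → ℂ) = ε ((ℓ : ℕ) : ZMod M) ^ m •
          (heckeU k ℓ ⇑f.1 +
            ε ((ℓ : ℕ) : ZMod M) • ((⇑f.1 : ℍ → ℂ) ∣[k] heckeDiagMatrix ℓ)) →
        CuspForm.heckeTLin k (Fact.out : ℓ.Prime) hℓ₂ (J f) = J g := by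
  obtain ⟨j, hj, hT⟩ := exists_twistEmbedding' k Qs hnd hQs ε hε m hm M₂ hM₂
  refine ⟨j ∘ₗ resNeb hge ε, hj.comp (resNeb_injective hge ε), ?_⟩
  intro ℓ _ hℓ hℓ₂ f g hfg
  rw [LinearMap.comp_apply, LinearMap.comp_apply, hT ℓ hℓ hℓ₂ (resNeb hge ε f)]
  congr 1
  apply Subtype.ext
  apply DFunLike.coe_injective
  rw [coe_resNeb, hfg, Submodule.coe_smul, CuspForm.IsGLPos.coe_smul, coe_TpNeb,
    S48.H548.coe_TpL_of_hasNeb hℓ _ (resNeb hge ε f).2, coe_resNeb]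

end Fermat.Agent.S59.TW.H564
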