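import Fermat.Agent.S59.TW.Aut.Skel

/-!
# S59 / TW, leaf MODQ (helper564): arithmetic of `Δ_Q`

* `kexp p qv = ∑ v_p(q_j - 1)`; `chi_pow_eq_one` : `Δ_Q` is killed by `p ^ kexp`;
* `hhalf p qv = (p ^ kexp - 1) / 2`; `isHalf_hhalf` : `Aut.IsHalf p qv (hhalf p qv)` (`p` odd);
* `diamondU_pow_eq` : the diamond operators of `K_Q` have order dividing `p ^ kexp`.
-/

set_option autoImplicit false
set_option linter.unusedSectionVars false

noncomputable section

namespace Fermat.Agent.S59.TW.H564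

open CongruenceSubgroup
open Fermat.Agent.S59.TW.H653 Fermat.Agent.S59.TW.Aut
open scoped MatrixGroups

variable (p N₀ : ℕ) {r : ℕ} (qv : Fin r → ℕ)

/-- The exponent `∑ v_p(q_j - 1)`. -/
def kexp : ℕ := ∑ j, padicValNat p (qv j - 1)

theorem padicValNat_le_kexp (j : Fin r) : padicValNat p (qv j - 1) ≤ kexp p qv :=
  Finset.single_le_sum (f := fun j => padicValNat p (qv j - 1)) (fun _ _ => Nat.zero_le _)
    (Finset.mem_univ j)

/-- `Δ_Q` is killed by `p ^ kexp`. -/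
theorem chi_pow_eq_one (u : (ZMod (bLevel N₀ qv))ˣ) :
    chi p N₀ qv (u ^ p ^ kexp p qv) = 1 := by
  unfold chi
  rw [MonoidHom.comp_apply, QuotientGroup.mk'_apply, QuotientGroup.eq_one_iff]
  unfold powSub
  rw [Subgroup.mem_pi]
  intro j _
  obtain ⟨d, hd⟩ := Nat.exists_eq_add_of_le (padicValNat_le_kexp p qv j)
  refine ⟨(red N₀ qv u j) ^ p ^ d, ?_⟩
  have h1 : p ^ kexp p qv = p ^ d * p ^ padicValNat p (qv j - 1) := by
    rw [hd, pow_add, mul_comm]
  rw [powMonoidHom_apply, map_pow (red N₀ qv), Pi.pow_apply, h1, pow_mul]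

/-- `(p ^ kexp - 1) / 2`. -/
def hhalf : ℕ := (p ^ kexp p qv - 1) / 2

variable {p}

theorem two_mul_hhalf_add_one (hp : p.Prime) (hp2 : p ≠ 2) :
    2 * hhalf p qv + 1 = p ^ kexp p qv := by
  have hodd : Odd (p ^ kexp p qv) := (hp.odd_of_ne_two hp2).pow
  obtain ⟨c, hc⟩ := hodd
  unfold hhalf
  rw [hc]
  omega

theorem isHalf_hhalf (hp : p.Prime) (hp2 : p ≠ 2) : IsHalf p qv (hhalf p qv) := by
  intro j
  rw [two_mul_hhalf_add_one qv hp hp2]
  exact pow_dvd_pow p (padicValNat_le_kexp p qv j)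

variable (p)

/-- The diamond operators of `K_Q` have order dividing `p ^ kexp`. -/
theorem diamondU_pow_eq {A : Type} [AddCommGroup A] [NeZero (bLevel N₀ qv)]
    (u : (ZMod (bLevel N₀ qv))ˣ) (x : Additive (KQ p N₀ qv) →+ A) :
    diamondU (isMid_KQ p N₀ qv) (u ^ p ^ kexp p qv) x = x :=
  diamondU_of_chi p N₀ qv (chi_pow_eq_one p N₀ qv u) x

end Fermat.Agent.S59.TW.H564
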