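import Fermat.Agent.S59.TW.H564.LocActCore

/-!
# S59 / TW, leaf GENNIL, core (helper564): nilpotence modulo `𝔪` on a direct summand

Abstract lemmas (Mathlib + `LocActCore`) feeding `GenNil` of `LocAct.lean`:

* `mem_mSub_of_projector` : `V ∩ 𝔪 X = 𝔪 V` for the image `V` of a projector;
* `resEnd`, `isNilpotent_redEnd_resEnd` : an endomorphism of `X`, stable on `V`, with
  `T^m V ⊆ 𝔪 X`, is nilpotent on `V / 𝔪 V`;
* `isNilpotent_redEnd_sub_one` : an operator `D` with `D^(p^k) = 1` (`p` odd, `p ∈ 𝔪`) is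
  unipotent on `V / 𝔪 V`.
-/

set_option autoImplicit false
set_option linter.unusedSectionVars false

noncomputable section

namespace Fermat.Agent.S59.TW.H564

open IsLocalRing

section GenNil

variable {𝒪 : Type*} [CommRing 𝒪] [IsLocalRing 𝒪] {X : Type*} [AddCommGroup X] [Module 𝒪 X]

/-- `V ∩ 𝔪 X = 𝔪 V` for a direct summand `V` (image of a projector `e`). -/
theorem mem_mSub_of_projector (V : Submodule 𝒪 X) (e : X →ₗ[𝒪] X) (he1 : ∀ x, e x ∈ V)
    (he2 : ∀ x ∈ V, e x = x) (v : V) (hv : (v : X) ∈ mSub 𝒪 X) : v ∈ mSub 𝒪 V := by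
  -- `e` as a map `X → V`
  let e' : X →ₗ[𝒪] V := e.codRestrict V he1
  have h1 : e' (v : X) = v := Subtype.ext (he2 v v.2)
  rw [← h1]
  exact Submodule.smul_top_le_comap_smul_top (maximalIdeal 𝒪) e' hv

/-- The restriction of an endomorphism to a stable submodule. -/
abbrev resEnd (V : Submodule 𝒪 X) (T : Module.End 𝒪 X) (hT : ∀ v ∈ V, T v ∈ V) :
    Module.End 𝒪 V := T.restrict hT

theorem resEnd_pow_apply (V : Submodule 𝒪 X) (T : Module.End 𝒪 X) (hT : ∀ v ∈ V, T v ∈ V)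
    (m : ℕ) (v : V) : (((resEnd V T hT) ^ m) v : X) = (T ^ m) (v : X) := by
  induction m generalizing v with
  | zero => rfl
  | succ m ih =>
    rw [pow_succ, pow_succ, Module.End.mul_apply, Module.End.mul_apply, ih]
    rfl

/-- Nilpotence modulo `𝔪` on a direct summand, from nilpotence modulo `𝔪 X`. -/
theorem isNilpotent_redEnd_resEnd (V : Submodule 𝒪 X) (e : X →ₗ[𝒪] X) (he1 : ∀ x, e x ∈ V)
    (he2 : ∀ x ∈ V, e x = x) (T : Module.End 𝒪 X) (hT : ∀ v ∈ V, T v ∈ V)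
    (m : ℕ) (h : ∀ v ∈ V, (T ^ m) v ∈ mSub 𝒪 X) :
    IsNilpotent (redEnd 𝒪 V (resEnd V T hT)) := by
  rw [isNilpotent_redEnd_iff]
  refine ⟨m, fun v => mem_mSub_of_projector V e he1 he2 _ ?_⟩
  rw [resEnd_pow_apply]
  exact h v v.2

/-- An operator of `p`-power order is unipotent modulo `𝔪` (`p ∈ 𝔪`). -/
theorem isNilpotent_redEnd_sub_one {V : Type*} [AddCommGroup V] [Module 𝒪 V] {p : ℕ}
    (hp : p.Prime) (hp2 : p ≠ 2) (hp𝔪 : (p : 𝒪) ∈ maximalIdeal 𝒪) (D : Module.End 𝒪 V) (k : ℕ)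
    (hD : D ^ p ^ k = 1) : IsNilpotent (redEnd 𝒪 V (D - 1)) := by
  have hp0 : redEnd 𝒪 V (p : Module.End 𝒪 V) = 0 := by
    have : (p : Module.End 𝒪 V) = algebraMap 𝒪 (Module.End 𝒪 V) (p : 𝒪) := by
      rw [map_natCast]
    rw [this]
    exact redEnd_algebraMap_eq_zero hp𝔪
  obtain ⟨r, hr⟩ := (Commute.one_right D).neg_right.exists_add_pow_prime_pow_eq hp k
  have hodd : Odd (p ^ k) := (hp.odd_of_ne_two hp2).pow
  have h1 : (D - 1) ^ p ^ k = p * D * (-1) * r := by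
    rw [sub_eq_add_neg, hr, hD, hodd.neg_one_pow, add_neg_cancel, zero_add]
  refine ⟨p ^ k, ?_⟩
  rw [← map_pow, h1, map_mul, map_mul, map_mul, hp0, zero_mul, zero_mul, zero_mul]

end GenNil

end Fermat.Agent.S59.TW.H564
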