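import Mathlib

/-!
# S59 / TW, LOCACT core (helper564): operators congruent to scalars modulo `𝔪` and nilpotents

Abstract algebra (Mathlib only).  `𝒪` a local ring, `V` an `𝒪`-module, `𝕋` a commutative ring,
`Ψ : 𝕋 →+* End_𝒪 V`, `θ : 𝕋 →+* k = 𝒪 / 𝔪`.

* `redEnd 𝒪 V : End_𝒪 V →+* End_𝒪 (V / 𝔪 V)`; `isUnit_of_isUnit_redEnd` (Nakayama);
* `actTensor Ψ : 𝒪 ⊗ 𝕋 →ₐ[𝒪] End_𝒪 V`; `nilIdeal Ψ` : the elements acting nilpotently on `V / 𝔪 V`;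
* `ResNil Ψ θ t` : `1 ⊗ t - c ∈ nilIdeal Ψ` for every lift `c` of `θ t`;
  `resNil_of_closure` : enough to check it on ring generators;
* `isUnit_actTensor` : if `ResNil` holds for all `t`, every `x ∈ 𝒪 ⊗ 𝕋` outside the kernel of the
  residual character `a ⊗ t ↦ ā θ(t)` acts invertibly on `V` (`V` finite over `𝒪`).
-/

set_option autoImplicit false
set_option linter.unusedSectionVars false

noncomputable section

namespace Fermat.Agent.S59.TW.H564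

open IsLocalRing

section NilMod

variable {𝒪 : Type*} [CommRing 𝒪] [IsLocalRing 𝒪] {V : Type*} [AddCommGroup V] [Module 𝒪 V]

/-- `𝔪 V`. -/
abbrev mSub (𝒪 : Type*) [CommRing 𝒪] [IsLocalRing 𝒪] (V : Type*) [AddCommGroup V]
    [Module 𝒪 V] : Submodule 𝒪 V :=
  maximalIdeal 𝒪 • (⊤ : Submodule 𝒪 V)

/-- Reduction of endomorphisms modulo `𝔪`. -/
def redEnd (𝒪 : Type*) [CommRing 𝒪] [IsLocalRing 𝒪] (V : Type*) [AddCommGroup V]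
    [Module 𝒪 V] : Module.End 𝒪 V →+* Module.End 𝒪 (V ⧸ mSub 𝒪 V) where
  toFun φ := (mSub 𝒪 V).mapQ (mSub 𝒪 V) φ (Submodule.smul_top_le_comap_smul_top _ φ)
  map_one' := by
    refine Submodule.linearMap_qext _ ?_
    ext v
    rfl
  map_mul' φ ψ := by
    refine Submodule.linearMap_qext _ ?_
    ext v
    rfl
  map_zero' := by
    refine Submodule.linearMap_qext _ ?_
    ext v
    rfl
  map_add' φ ψ := by
    refine Submodule.linearMap_qext _ ?_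
    ext v
    rfl

@[simp] theorem redEnd_mk (φ : Module.End 𝒪 V) (v : V) :
    redEnd 𝒪 V φ (Submodule.Quotient.mk v) = Submodule.Quotient.mk (φ v) := rfl

theorem redEnd_algebraMap (c : 𝒪) :
    redEnd 𝒪 V (algebraMap 𝒪 (Module.End 𝒪 V) c) =
      algebraMap 𝒪 (Module.End 𝒪 (V ⧸ mSub 𝒪 V)) c := by
  refine Submodule.linearMap_qext _ ?_
  ext v
  rfl

theorem redEnd_algebraMap_eq_zero {c : 𝒪} (hc : c ∈ maximalIdeal 𝒪) :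
    redEnd 𝒪 V (algebraMap 𝒪 (Module.End 𝒪 V) c) = 0 := by
  refine Submodule.linearMap_qext _ ?_
  ext v
  show Submodule.Quotient.mk (c • v) = 0
  rw [Submodule.Quotient.mk_eq_zero]
  exact Submodule.smul_mem_smul hc Submodule.mem_top

theorem redEnd_algebraMap_eq_of_residue_eq {c c' : 𝒪} (h : residue 𝒪 c = residue 𝒪 c') :
    redEnd 𝒪 V (algebraMap 𝒪 (Module.End 𝒪 V) c) =
      redEnd 𝒪 V (algebraMap 𝒪 (Module.End 𝒪 V) c') := by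
  rw [← sub_eq_zero, ← map_sub, ← map_sub]
  apply redEnd_algebraMap_eq_zero
  rw [← residue_eq_zero_iff, map_sub, h, sub_self]

theorem redEnd_pow_mk (φ : Module.End 𝒪 V) (m : ℕ) (v : V) :
    ((redEnd 𝒪 V φ) ^ m) (Submodule.Quotient.mk v) = Submodule.Quotient.mk ((φ ^ m) v) := by
  rw [← map_pow, redEnd_mk]

/-- Nilpotence modulo `𝔪`, concretely. -/
theorem isNilpotent_redEnd_iff (φ : Module.End 𝒪 V) :
    IsNilpotent (redEnd 𝒪 V φ) ↔ ∃ m : ℕ, ∀ v : V, (φ ^ m) v ∈ mSub 𝒪 V := by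
  constructor
  · rintro ⟨m, hm⟩
    refine ⟨m, fun v => ?_⟩
    have := LinearMap.congr_fun hm (Submodule.Quotient.mk v)
    rw [redEnd_pow_mk, LinearMap.zero_apply, Submodule.Quotient.mk_eq_zero] at this
    exact this
  · rintro ⟨m, hm⟩
    refine ⟨m, ?_⟩
    refine Submodule.linearMap_qext _ ?_
    ext v
    show ((redEnd 𝒪 V φ) ^ m) (Submodule.Quotient.mk v) = 0
    rw [redEnd_pow_mk, Submodule.Quotient.mk_eq_zero]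
    exact hm v

/-- An endomorphism of a finite module over a local ring which is invertible modulo `𝔪` is
invertible. -/
theorem isUnit_of_isUnit_redEnd [Module.Finite 𝒪 V] (φ : Module.End 𝒪 V)
    (h : IsUnit (redEnd 𝒪 V φ)) : IsUnit φ := by
  rw [Module.End.isUnit_iff] at h ⊢
  have hsurj : Function.Surjective φ := by
    rw [← LinearMap.range_eq_top, eq_top_iff]
    refine Submodule.le_of_le_smul_of_le_jacobson_bot (I := maximalIdeal 𝒪) Module.Finite.fg_top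
      (IsLocalRing.maximalIdeal_le_jacobson _) ?_
    intro v _
    obtain ⟨w, hw⟩ := h.2 (Submodule.Quotient.mk v)
    obtain ⟨w, rfl⟩ := Submodule.Quotient.mk_surjective _ w
    rw [redEnd_mk, Submodule.Quotient.eq] at hw
    have : v = φ w + -(φ w - v) := by abel
    rw [this]
    exact Submodule.add_mem_sup (LinearMap.mem_range_self φ w) (Submodule.neg_mem _ hw)
  exact ⟨OrzechProperty.injective_of_surjective_endomorphism φ hsurj, hsurj⟩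

end NilMod


section Act

open scoped TensorProduct

variable {𝒪 : Type*} [CommRing 𝒪] [IsLocalRing 𝒪]
variable {𝕋 : Type*} [CommRing 𝕋]
variable {V : Type*} [AddCommGroup V] [Module 𝒪 V]
variable (Ψ : 𝕋 →+* Module.End 𝒪 V)

/-- The `𝒪`-algebra map `𝒪 ⊗ 𝕋 → End_𝒪 V`, `a ⊗ t ↦ a • Ψ t`. -/
def actTensor : (𝒪 ⊗[ℤ] 𝕋) →ₐ[𝒪] Module.End 𝒪 V :=
  Algebra.TensorProduct.lift (Algebra.ofId 𝒪 (Module.End 𝒪 V)) Ψ.toIntAlgHom
    (fun a t => Algebra.commute_algebraMap_left a (Ψ t))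

theorem actTensor_tmul (a : 𝒪) (t : 𝕋) :
    actTensor Ψ (a ⊗ₜ[ℤ] t) = algebraMap 𝒪 (Module.End 𝒪 V) a * Ψ t := by
  unfold actTensor
  exact Algebra.TensorProduct.lift_tmul _ _ _ a t

theorem actTensor_one_tmul (t : 𝕋) : actTensor Ψ ((1 : 𝒪) ⊗ₜ[ℤ] t) = Ψ t := by
  rw [actTensor_tmul, map_one, one_mul]

/-- The reduction of the action modulo `𝔪`. -/
def actRed : (𝒪 ⊗[ℤ] 𝕋) →+* Module.End 𝒪 (V ⧸ mSub 𝒪 V) :=
  (redEnd 𝒪 V).comp (actTensor Ψ).toRingHom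

theorem actRed_apply (x : 𝒪 ⊗[ℤ] 𝕋) : actRed Ψ x = redEnd 𝒪 V (actTensor Ψ x) := rfl

theorem actRed_commute (x y : 𝒪 ⊗[ℤ] 𝕋) : Commute (actRed Ψ x) (actRed Ψ y) :=
  (Commute.all x y).map (actRed Ψ)

/-- The ideal of the elements of `𝒪 ⊗ 𝕋` acting nilpotently on `V / 𝔪 V`. -/
def nilIdeal : Ideal (𝒪 ⊗[ℤ] 𝕋) where
  carrier := {x | IsNilpotent (actRed Ψ x)}
  add_mem' := fun {x y} hx hy => by
    show IsNilpotent (actRed Ψ (x + y))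
    rw [map_add]
    exact Commute.isNilpotent_add (actRed_commute Ψ x y) hx hy
  zero_mem' := by
    show IsNilpotent (actRed Ψ 0)
    rw [map_zero]
    exact IsNilpotent.zero
  smul_mem' := fun b x hx => by
    show IsNilpotent (actRed Ψ (b • x))
    rw [smul_eq_mul, map_mul]
    exact Commute.isNilpotent_mul_left (actRed_commute Ψ b x) hx

theorem mem_nilIdeal (x : 𝒪 ⊗[ℤ] 𝕋) :
    x ∈ nilIdeal Ψ ↔ IsNilpotent (redEnd 𝒪 V (actTensor Ψ x)) := Iff.rfl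

theorem algebraMap_mem_nilIdeal {a : 𝒪} (ha : a ∈ maximalIdeal 𝒪) :
    algebraMap 𝒪 (𝒪 ⊗[ℤ] 𝕋) a ∈ nilIdeal Ψ := by
  rw [mem_nilIdeal, AlgHom.commutes, redEnd_algebraMap_eq_zero ha]
  exact IsNilpotent.zero

variable (θ : 𝕋 →+* ResidueField 𝒪)

/-- `Ψ t ≡ θ t` modulo `𝔪` and nilpotents. -/
def ResNil (t : 𝕋) : Prop :=
  ∀ c : 𝒪, residue 𝒪 c = θ t →
    ((1 : 𝒪) ⊗ₜ[ℤ] t - algebraMap 𝒪 (𝒪 ⊗[ℤ] 𝕋) c) ∈ nilIdeal Ψ

variable {Ψ θ}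

theorem resNil_of_exists {t : 𝕋} (h : ∃ c : 𝒪, residue 𝒪 c = θ t ∧
    IsNilpotent (redEnd 𝒪 V (Ψ t - algebraMap 𝒪 (Module.End 𝒪 V) c))) : ResNil Ψ θ t := by
  obtain ⟨c₀, hc₀, hn⟩ := h
  intro c hc
  have h1 : ((1 : 𝒪) ⊗ₜ[ℤ] t - algebraMap 𝒪 (𝒪 ⊗[ℤ] 𝕋) c) =
      ((1 : 𝒪) ⊗ₜ[ℤ] t - algebraMap 𝒪 (𝒪 ⊗[ℤ] 𝕋) c₀) +
        algebraMap 𝒪 (𝒪 ⊗[ℤ] 𝕋) (c₀ - c) := by
    rw [map_sub]
    ring
  rw [h1]
  refine Ideal.add_mem _ ?_ (algebraMap_mem_nilIdeal Ψ ?_)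
  · rw [mem_nilIdeal, map_sub, actTensor_one_tmul, AlgHom.commutes]
    exact hn
  · rw [← residue_eq_zero_iff, map_sub, hc₀, hc, sub_self]

theorem resNil_intCast (n : ℤ) : ResNil Ψ θ (n : 𝕋) := by
  intro c hc
  have h1 : ((1 : 𝒪) ⊗ₜ[ℤ] (n : 𝕋) - algebraMap 𝒪 (𝒪 ⊗[ℤ] 𝕋) c) =
      algebraMap 𝒪 (𝒪 ⊗[ℤ] 𝕋) ((n : 𝒪) - c) := by
    rw [map_sub, map_intCast]
    congr 1
    rw [← zsmul_one (n : ℤ), TensorProduct.tmul_smul, ← Algebra.TensorProduct.one_def,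
      zsmul_one]
  rw [h1]
  refine algebraMap_mem_nilIdeal Ψ ?_
  rw [← residue_eq_zero_iff, map_sub, hc, map_intCast, map_intCast, sub_self]

theorem resNil_add {s t : 𝕋} (hs : ResNil Ψ θ s) (ht : ResNil Ψ θ t) : ResNil Ψ θ (s + t) := by
  intro c hc
  obtain ⟨a, ha⟩ := residue_surjective (θ s)
  obtain ⟨b, hb⟩ := residue_surjective (θ t)
  have h1 : ((1 : 𝒪) ⊗ₜ[ℤ] (s + t) - algebraMap 𝒪 (𝒪 ⊗[ℤ] 𝕋) c) =
      ((1 : 𝒪) ⊗ₜ[ℤ] s - algebraMap 𝒪 (𝒪 ⊗[ℤ] 𝕋) a) +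
      ((1 : 𝒪) ⊗ₜ[ℤ] t - algebraMap 𝒪 (𝒪 ⊗[ℤ] 𝕋) b) +
      algebraMap 𝒪 (𝒪 ⊗[ℤ] 𝕋) (a + b - c) := by
    rw [TensorProduct.tmul_add, map_sub, map_add]
    ring
  rw [h1]
  refine Ideal.add_mem _ (Ideal.add_mem _ (hs a ha) (ht b hb)) (algebraMap_mem_nilIdeal Ψ ?_)
  rw [← residue_eq_zero_iff, map_sub, map_add, ha, hb, hc, map_add, sub_self]

theorem resNil_neg {s : 𝕋} (hs : ResNil Ψ θ s) : ResNil Ψ θ (-s) := by
  intro c hc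
  have h1 : ((1 : 𝒪) ⊗ₜ[ℤ] (-s) - algebraMap 𝒪 (𝒪 ⊗[ℤ] 𝕋) c) =
      -((1 : 𝒪) ⊗ₜ[ℤ] s - algebraMap 𝒪 (𝒪 ⊗[ℤ] 𝕋) (-c)) := by
    rw [TensorProduct.tmul_neg, map_neg]
    ring
  rw [h1]
  refine Ideal.neg_mem_iff _ |>.mpr (hs (-c) ?_)
  rw [map_neg, hc, map_neg, neg_neg]

theorem resNil_mul {s t : 𝕋} (hs : ResNil Ψ θ s) (ht : ResNil Ψ θ t) : ResNil Ψ θ (s * t) := by
  intro c hc
  obtain ⟨a, ha⟩ := residue_surjective (θ s)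
  obtain ⟨b, hb⟩ := residue_surjective (θ t)
  have h3 : ((1 : 𝒪) ⊗ₜ[ℤ] (s * t) : 𝒪 ⊗[ℤ] 𝕋) = ((1 : 𝒪) ⊗ₜ[ℤ] s) * ((1 : 𝒪) ⊗ₜ[ℤ] t) := by
    rw [Algebra.TensorProduct.tmul_mul_tmul, one_mul]
  have h1 : ((1 : 𝒪) ⊗ₜ[ℤ] (s * t) - algebraMap 𝒪 (𝒪 ⊗[ℤ] 𝕋) c) =
      ((1 : 𝒪) ⊗ₜ[ℤ] s) * ((1 : 𝒪) ⊗ₜ[ℤ] t - algebraMap 𝒪 (𝒪 ⊗[ℤ] 𝕋) b) +
      algebraMap 𝒪 (𝒪 ⊗[ℤ] 𝕋) b * ((1 : 𝒪) ⊗ₜ[ℤ] s - algebraMap 𝒪 (𝒪 ⊗[ℤ] 𝕋) a) +
      algebraMap 𝒪 (𝒪 ⊗[ℤ] 𝕋) (a * b - c) := by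
    rw [h3, map_sub, map_mul]
    ring
  rw [h1]
  refine Ideal.add_mem _ (Ideal.add_mem _ (Ideal.mul_mem_left _ _ (ht b hb))
    (Ideal.mul_mem_left _ _ (hs a ha))) (algebraMap_mem_nilIdeal Ψ ?_)
  rw [← residue_eq_zero_iff, map_sub, map_mul, ha, hb, hc, map_mul, sub_self]

theorem resNil_one : ResNil Ψ θ (1 : 𝕋) := by
  have := resNil_intCast (Ψ := Ψ) (θ := θ) 1
  rwa [Int.cast_one] at this

/-- If `Ψ t ≡ θ t` on a set of ring generators of `𝕋`, then on `𝕋`. -/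
theorem resNil_of_closure (G : Set 𝕋) (hG : Subring.closure G = ⊤)
    (hgen : ∀ t ∈ G, ResNil Ψ θ t) (t : 𝕋) : ResNil Ψ θ t := by
  have ht : t ∈ Subring.closure G := by rw [hG]; exact Subring.mem_top t
  induction ht using Subring.closure_induction with
  | mem x hx => exact hgen x hx
  | zero =>
    have := resNil_intCast (Ψ := Ψ) (θ := θ) 0
    rwa [Int.cast_zero] at this
  | one => exact resNil_one
  | add x y _ _ hx hy => exact resNil_add hx hy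
  | neg x _ hx => exact resNil_neg hx
  | mul x y _ _ hx hy => exact resNil_mul hx hy

/-- The kernel of the residual character acts nilpotently modulo `𝔪`. -/
theorem sub_algebraMap_mem_nilIdeal (χ : (𝒪 ⊗[ℤ] 𝕋) →+* ResidueField 𝒪)
    (hχ : ∀ (a : 𝒪) (t : 𝕋), χ (a ⊗ₜ[ℤ] t) = residue 𝒪 a * θ t)
    (h : ∀ t, ResNil Ψ θ t) (x : 𝒪 ⊗[ℤ] 𝕋) :
    ∀ c : 𝒪, residue 𝒪 c = χ x → x - algebraMap 𝒪 (𝒪 ⊗[ℤ] 𝕋) c ∈ nilIdeal Ψ := by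
  induction x using TensorProduct.induction_on with
  | zero =>
    intro c hc
    rw [zero_sub]
    refine (Ideal.neg_mem_iff _).mpr (algebraMap_mem_nilIdeal Ψ ?_)
    rw [← residue_eq_zero_iff, hc, map_zero]
  | tmul a t =>
    intro c hc
    obtain ⟨b, hb⟩ := residue_surjective (θ t)
    have h1 : (a ⊗ₜ[ℤ] t - algebraMap 𝒪 (𝒪 ⊗[ℤ] 𝕋) c) =
        algebraMap 𝒪 (𝒪 ⊗[ℤ] 𝕋) a * ((1 : 𝒪) ⊗ₜ[ℤ] t - algebraMap 𝒪 (𝒪 ⊗[ℤ] 𝕋) b) +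
          algebraMap 𝒪 (𝒪 ⊗[ℤ] 𝕋) (a * b - c) := by
      have h2 : (a ⊗ₜ[ℤ] t : 𝒪 ⊗[ℤ] 𝕋) = algebraMap 𝒪 (𝒪 ⊗[ℤ] 𝕋) a * ((1 : 𝒪) ⊗ₜ[ℤ] t) := by
        rw [Algebra.TensorProduct.algebraMap_apply, Algebra.algebraMap_self, RingHom.id_apply,
          Algebra.TensorProduct.tmul_mul_tmul, mul_one, one_mul]
      rw [h2, map_sub, map_mul]
      ring
    rw [h1]
    refine Ideal.add_mem _ (Ideal.mul_mem_left _ _ (h t b hb)) (algebraMap_mem_nilIdeal Ψ ?_)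
    rw [← residue_eq_zero_iff, map_sub, map_mul, hb, hc, hχ, sub_self]
  | add x y hx hy =>
    intro c hc
    obtain ⟨a, ha⟩ := residue_surjective (χ x)
    obtain ⟨b, hb⟩ := residue_surjective (χ y)
    have h1 : (x + y - algebraMap 𝒪 (𝒪 ⊗[ℤ] 𝕋) c) =
        (x - algebraMap 𝒪 (𝒪 ⊗[ℤ] 𝕋) a) + (y - algebraMap 𝒪 (𝒪 ⊗[ℤ] 𝕋) b) +
          algebraMap 𝒪 (𝒪 ⊗[ℤ] 𝕋) (a + b - c) := by
      rw [map_sub, map_add]
      ring
    rw [h1]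
    refine Ideal.add_mem _ (Ideal.add_mem _ (hx a ha) (hy b hb)) (algebraMap_mem_nilIdeal Ψ ?_)
    rw [← residue_eq_zero_iff, map_sub, map_add, ha, hb, hc, map_add, sub_self]

/-- The elements outside the kernel of the residual character act invertibly. -/
theorem isUnit_actTensor [Module.Finite 𝒪 V] (χ : (𝒪 ⊗[ℤ] 𝕋) →+* ResidueField 𝒪)
    (hχ : ∀ (a : 𝒪) (t : 𝕋), χ (a ⊗ₜ[ℤ] t) = residue 𝒪 a * θ t)
    (h : ∀ t, ResNil Ψ θ t) (x : 𝒪 ⊗[ℤ] 𝕋) (hx : χ x ≠ 0) : IsUnit (actTensor Ψ x) := by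
  apply isUnit_of_isUnit_redEnd
  obtain ⟨c, hc⟩ := residue_surjective (χ x)
  have hcu : IsUnit c := by
    by_contra hu
    have : c ∈ maximalIdeal 𝒪 := (mem_maximalIdeal c).mpr hu
    rw [← residue_eq_zero_iff, hc] at this
    exact hx this
  have hn := sub_algebraMap_mem_nilIdeal χ hχ h x c hc
  rw [mem_nilIdeal, map_sub, AlgHom.commutes, map_sub] at hn
  have hu : IsUnit (redEnd 𝒪 V (algebraMap 𝒪 (Module.End 𝒪 V) c)) :=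
    (hcu.map (algebraMap 𝒪 (Module.End 𝒪 V))).map (redEnd 𝒪 V)
  have hcomm : Commute (redEnd 𝒪 V (actTensor Ψ x) -
      redEnd 𝒪 V (algebraMap 𝒪 (Module.End 𝒪 V) c))
      (redEnd 𝒪 V (algebraMap 𝒪 (Module.End 𝒪 V) c)) := by
    rw [redEnd_algebraMap]
    exact (Algebra.commute_algebraMap_right c _)
  have := hn.isUnit_add_left_of_commute hu hcomm
  rwa [add_sub_cancel] at this

end Act

end Fermat.Agent.S59.TW.H564
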