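import Fermat.Agent.S59.TW.H564.Neb
import Fermat.Agent.S59.TW.H653.Diamond

/-!
# S59 / TW leaves E3 NEB + E4 TWIST (helper564) for `K = Γ_H(M)` (`H653.GammaH M H`)

* `trivOn_GammaH_iff` : `TrivOn (GammaH M H) ε ↔ ∀ u ∈ H, ε u = 1`;
* `exists_neb_decompH` : every `f : CuspForm (GammaH M H) k` is `∑_ε c_ε` with
  `c_ε ∈ nebK k (GammaH M H) ε` and `c_ε = 0` unless `ε` is trivial on `H`;
* `exists_twistEmbeddingH` : if `H` contains the units `≡ 1 mod ∏ Qs` and `u ^ (2 m + 1) ∈ H`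
  for all `u` (so `(ℤ/M)ˣ / H = Δ_Q` has odd exponent), then for every `ε` trivial on `H` there is
  an injective `J : nebK k (GammaH M H) ε →ₗ[ℂ] CuspForm (Gamma0 M₂) k` (`M · ∏ Qs ∣ M₂`) with
  `T_ℓ (J f) = J g` whenever `g = ε(ℓ)^m • (U_ℓ f + ε(ℓ) • f ∣ diag(ℓ, 1))` as functions.
-/

set_option autoImplicit false
set_option linter.deprecated false
set_option linter.unusedSectionVars false

noncomputable section

namespace Fermat.Agent.S59.TW.H564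

open Matrix Matrix.SpecialLinearGroup CongruenceSubgroup UpperHalfPlane ModularForm
open Fermat.Agent.Lib.Newform.H803
open scoped MatrixGroups ModularForm

variable {k : ℤ} {M : ℕ} [NeZero M]

theorem trivOn_GammaH_iff {H : Subgroup (ZMod M)ˣ} {ε : DirichletCharacter ℂ M} :
    TrivOn (H653.GammaH M H) ε ↔ ∀ u ∈ H, ε ((u : (ZMod M)ˣ) : ZMod M) = 1 := by
  constructor
  · intro h u hu
    obtain ⟨g, rfl⟩ := H653.dUnit_surjective (M := M) u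
    have := h (g : SL(2, ℤ)) (H653.mem_GammaH.mpr ⟨g.2, hu⟩)
    rwa [H653.coe_dUnit]
  · intro h γ hγ
    obtain ⟨hg, hH⟩ := H653.mem_GammaH.mp hγ
    have := h _ hH
    rwa [H653.coe_dUnit] at this

/-- **E3 NEB** for `Γ_H(M)`. -/
theorem exists_neb_decompH (H : Subgroup (ZMod M)ˣ) (f : CuspForm (H653.GammaH M H) k) :
    ∃ c : DirichletCharacter ℂ M → CuspForm (H653.GammaH M H) k,
      (∀ ε, c ε ∈ nebK k (H653.GammaH M H) ε) ∧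
      (∀ ε : DirichletCharacter ℂ M, ¬ (∀ u ∈ H, ε ((u : (ZMod M)ˣ) : ZMod M) = 1) → c ε = 0) ∧
      ∑ ε, c ε = f := by
  obtain ⟨c, h1, h2, h3⟩ := exists_neb_decomp (H653.isMid_GammaH M H).ge
    (H653.isMid_GammaH M H).le f
  exact ⟨c, h1, fun ε hε => h2 ε fun h => hε (trivOn_GammaH_iff.mp h), h3⟩

/-- **E3 + E4** for `Γ_H(M)`. -/
theorem exists_twistEmbeddingH (k : ℤ) {M : ℕ} [NeZero M] (H : Subgroup (ZMod M)ˣ)
    (Qs : List ℕ) (hnd : Qs.Nodup)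
    (hQs : ∀ q ∈ Qs, q.Prime ∧ ∃ M' : ℕ, M = M' * q ∧ Nat.Coprime M' q)
    (hH1 : ∀ (u : (ZMod M)ˣ) (d : ℤ), ((u : (ZMod M)ˣ) : ZMod M) = ((d : ℤ) : ZMod M) →
      ((Qs.prod : ℕ) : ℤ) ∣ d - 1 → u ∈ H)
    (m : ℕ) (hH2 : ∀ u : (ZMod M)ˣ, u ^ (2 * m + 1) ∈ H)
    (M₂ : ℕ) (hM₂ : M * Qs.prod ∣ M₂)
    (ε : DirichletCharacter ℂ M) (hεH : ∀ u ∈ H, ε ((u : (ZMod M)ˣ) : ZMod M) = 1) :
    ∃ J : nebK k (H653.GammaH M H) ε →ₗ[ℂ] CuspForm (Gamma0 M₂) k,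
      Function.Injective J ∧
      ∀ (ℓ : ℕ) [Fact ℓ.Prime] (_ : ¬ ℓ ∣ M) (hℓ₂ : ¬ ℓ ∣ M₂)
        (f g : nebK k (H653.GammaH M H) ε),
        (⇑g.1 : ℍ → ℂ) = ε ((ℓ : ℕ) : ZMod M) ^ m •
          (heckeU k ℓ ⇑f.1 +
            ε ((ℓ : ℕ) : ZMod M) • ((⇑f.1 : ℍ → ℂ) ∣[k] heckeDiagMatrix ℓ)) →
        CuspForm.heckeTLin k (Fact.out : ℓ.Prime) hℓ₂ (J f) = J g := by
  refine exists_twistEmbeddingK k (H653.isMid_GammaH M H).ge Qs hnd hQs ε ?_ m ?_ M₂ hM₂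
  · intro d hd hu
    obtain ⟨u, hu'⟩ := hu
    rw [← hu']
    exact hεH u (hH1 u d hu' hd)
  · ext u
    rw [MulChar.pow_apply_coe, MulChar.one_apply_coe, ← map_pow, ← Units.val_pow_eq_pow_val]
    exact hεH _ (hH2 u)

end Fermat.Agent.S59.TW.H564
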