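import Mathlib

/-!
# S59 / TW, leaf REL-BC (helper564): base change of relations from `ℤ` to torsion-free coefficients

Abstract (Mathlib only).  `G` a finitely generated group (e.g. a finite-index subgroup of
`SL(2, ℤ)`), `A` a torsion-free abelian group.

* `exists_int_decomp` : every `y : G → A` is `∑ zᵢ • eᵢ` with `zᵢ : G → ℤ` vanishing wherever `y`
  vanishes;
* `rel_bc` : a natural additive operation (e.g. a polynomial in the Hecke and diamond operators)
  vanishing on the integer-valued classes killing `E` (e.g. the parabolic classes) vanishes on the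
  `A`-valued classes killing `E`.
-/

set_option autoImplicit false

namespace Fermat.Agent.S59.TW.H564

/-- A homomorphism from a finitely generated group to a torsion-free abelian group is a finite
combination `y = ∑ zᵢ • eᵢ` of integer-valued homomorphisms vanishing wherever `y` vanishes. -/
theorem exists_int_decomp {G : Type*} [Group G] [Group.FG G] {A : Type*} [AddCommGroup A]
    [IsAddTorsionFree A] (y : Additive G →+ A) :
    ∃ (n : ℕ) (e : Fin n → A) (z : Fin n → (Additive G →+ ℤ)),
      (∀ g, y g = ∑ i, z i g • e i) ∧ (∀ g, y g = 0 → ∀ i, z i g = 0) := by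
  classical
  have hfg : AddGroup.FG (Additive G) := inferInstance
  have hR : AddGroup.FG ↥y.range := AddGroup.fg_of_surjective (f := y.rangeRestrict)
    y.rangeRestrict_surjective
  have hfin : Module.Finite ℤ ↥y.range := Module.Finite.iff_addGroup_fg.mpr hR
  have htf : IsAddTorsionFree ↥y.range := Function.Injective.isAddTorsionFree
    (y.range.subtype) Subtype.val_injective
  have hfree : Module.Free ℤ ↥y.range := Module.free_of_finite_type_torsion_free'
  let b := Module.finBasis ℤ ↥y.range
  refine ⟨Module.finrank ℤ ↥y.range, fun i => ((b i : ↥y.range) : A),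
    fun i => ((b.coord i).toAddMonoidHom).comp y.rangeRestrict, fun g => ?_, fun g hg i => ?_⟩
  · have h := b.sum_repr (y.rangeRestrict g)
    have h2 := congrArg (y.range.subtype) h
    rw [map_sum] at h2
    simp only [AddSubgroup.subtype_apply, AddMonoidHom.coe_rangeRestrict] at h2
    rw [← h2]
    refine Finset.sum_congr rfl fun i _ => ?_
    simp only [AddMonoidHom.comp_apply, LinearMap.toAddMonoidHom_coe, Module.Basis.coord_apply]
    rfl
  · have h0 : y.rangeRestrict g = 0 := Subtype.ext hg
    simp only [AddMonoidHom.comp_apply, h0, map_zero]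

/-- **REL-BC.**  An additive natural operation which vanishes on the integer-valued
homomorphisms killing `E` vanishes on the homomorphisms with values in a torsion-free group
killing `E`. -/
theorem rel_bc {G : Type*} [Group G] [Group.FG G] {A : Type*} [AddCommGroup A]
    [IsAddTorsionFree A] (E : Set G)
    (opZ : (Additive G →+ ℤ) →+ (Additive G →+ ℤ))
    (opA : (Additive G →+ A) →+ (Additive G →+ A))
    (hnat : ∀ (π : ℤ →+ A) (z : Additive G →+ ℤ), opA (π.comp z) = π.comp (opZ z))
    (hZ : ∀ z : Additive G →+ ℤ, (∀ g ∈ E, z (Additive.ofMul g) = 0) → opZ z = 0)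
    (y : Additive G →+ A) (hy : ∀ g ∈ E, y (Additive.ofMul g) = 0) : opA y = 0 := by
  obtain ⟨n, e, z, h1, h2⟩ := exists_int_decomp y
  have hy' : y = ∑ i, (zmultiplesHom A (e i)).comp (z i) := by
    refine AddMonoidHom.ext fun g => ?_
    rw [h1, AddMonoidHom.finsetSum_apply]
    refine Finset.sum_congr rfl fun i _ => ?_
    rw [AddMonoidHom.comp_apply, zmultiplesHom_apply]
  rw [hy', map_sum]
  refine Finset.sum_eq_zero fun i _ => ?_
  rw [hnat, hZ (z i) (fun g hg => h2 _ (hy g hg) i)]
  refine AddMonoidHom.ext fun g => ?_
  simp

end Fermat.Agent.S59.TW.H564
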